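import Fermat.Agent.S33.New.H86_Leaves

/-!
# S33, the `p`-new case, leaf L2 (helper28): NORM-RED at the second component

`stmt_Red2 : H86.Stmt_Red2` : level `M p`, tame, `A` over `p`.  If `f ≡ 1` for `V₁` and the norm
of `f` along `α` is a constant times a `p`-th power, then `f = a' f' h₀ ^ p` with `f' ≡ 1` for
`V₂`.

Proof (helper86's note "S33 NEW: modular leaves"): `u₂ = c f` a unit for `V₂`; by NORM-RED for two
valuations (`H42.normRed_two`) `N f = c ^ (-p) δ` with `red δ = N₂ (red₂ u₂)`, and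
`δ = κ (c t) ^ p = ε s ^ p` with `s` a unit and `ε` a unit constant, so `N₂ (red₂ u₂)` is a
constant times a `p`-th power; `N₂ g = e⁻¹ (φ g)` (`H73.norm_F1_Fr`), `φ` the coefficientwise
Frobenius, so `red₂ u₂` is a `p`-th power `w ^ p`; lift `w` to `h₀` and put `f' = u₂ / h₀ ^ p`.
-/

set_option autoImplicit false
set_option synthInstance.maxHeartbeats 400000
set_option maxHeartbeats 1000000
set_option linter.style.haveILetI false
set_option linter.unusedSectionVars false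

noncomputable section

open AlgebraicCurve ModularCurve
open Fermat.Agent.S28.H73 Fermat.Agent.RED.H73 Fermat.Agent.RED Fermat.Agent.S24
open Fermat.Agent.BAD.H88

namespace Fermat.Agent.S33.New.H28

open Fermat.Agent.BAD Fermat.Agent.RED.H17

section Abs

variable {K E L k E' L₁ L₂ : Type} [Field K] [Field E] [Field L] [Field k] [Field E']
  [Field L₁] [Field L₂] [Algebra K E] [Algebra K L] [Algebra E L] [IsScalarTower K E L]
  [Module.Finite E L] [Algebra k E'] [Algebra k L₁] [Algebra k L₂] [Algebra E' L₁]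
  [Algebra E' L₂] [Module.Finite E' L₁] [Module.Finite E' L₂]

/-- **NORM-RED at the second component, abstract form.** -/
theorem red2_abs (SE : RedSetup K E k E')
    (V₁ V₂ : ValuationSubring L) (red₁ : ↥V₁ →+* L₁) (red₂ : ↥V₂ →+* L₂)
    (hV₁ : ∀ a : E, a ∈ SE.V → algebraMap E L a ∈ V₁)
    (hV₂ : ∀ a : E, a ∈ SE.V → algebraMap E L a ∈ V₂)
    (hsurj₁ : Function.Surjective red₁) (hsurj₂ : Function.Surjective red₂)
    (hker₁ : ∀ a : ↥V₁, ¬ IsUnit a → red₁ a = 0) (hker₂ : ∀ a : ↥V₂, ¬ IsUnit a → red₂ a = 0)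
    (hcompat₁ : ∀ (a : ↥SE.V) (ha : algebraMap E L (a : E) ∈ V₁),
      red₁ ⟨algebraMap E L (a : E), ha⟩ = algebraMap E' L₁ (SE.red a))
    (hcompat₂ : ∀ (a : ↥SE.V) (ha : algebraMap E L (a : E) ∈ V₂),
      red₂ ⟨algebraMap E L (a : E), ha⟩ = algebraMap E' L₂ (SE.red a))
    (h₁₂ : ¬ V₁ ≤ V₂) (h₂₁ : ¬ V₂ ≤ V₁) (hA₁ : H42.IsArch V₁) (hA₂ : H42.IsArch V₂)
    (hdeg : Module.finrank E L = Module.finrank E' L₁ + Module.finrank E' L₂)
    (p : ℕ) (hfin₂ : Module.finrank E' L₂ = p)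
    (hpow : ∀ (g : L₂) (x : E') (ε : k), Algebra.norm E' g = algebraMap k E' ε * x ^ p →
      ∃ w : L₂, g = w ^ p)
    (u₁ : ↥V₁) (hred₁ : red₁ u₁ = 1) (u₂ : ↥V₂) (hred₂ : red₂ u₂ ≠ 0) (c : K)
    (hu : (u₂ : L) = algebraMap K L c * (u₁ : L))
    (t : E) (κ : K) (hN : Algebra.norm E (u₁ : L) = algebraMap K E κ * t ^ p) :
    ∃ w : L₂, red₂ u₂ = w ^ p := by
  have hu₂0 : (u₂ : L) ≠ 0 := fun h => hred₂ (by
    have : u₂ = 0 := Subtype.ext h
    rw [this, map_zero])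
  have hu₁0 : (u₁ : L) ≠ 0 := fun h => by
    have : u₁ = 0 := Subtype.ext h
    rw [this, map_zero] at hred₁
    exact zero_ne_one hred₁
  have hc0 : c ≠ 0 := by
    rintro rfl
    apply hu₂0
    rw [hu, map_zero, zero_mul]
  have hcE : algebraMap K E c ≠ 0 := (map_ne_zero_iff _ (algebraMap K E).injective).mpr hc0
  have hkerE : ∀ a : ↥SE.V, ¬ IsUnit a → SE.red a = 0 := fun a ha =>
    (SE.red_eq_zero_iff a).2 ((IsLocalRing.mem_maximalIdeal a).2 ha)
  -- norm reduction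
  obtain ⟨δ, hδ, hδr⟩ := H42.normRed_two SE.V V₁ V₂ SE.red red₁ red₂ hV₁ hV₂ hkerE hsurj₁
    hsurj₂ hker₁ hker₂ hcompat₁ hcompat₂ h₁₂ h₂₁ hA₁ hA₂ hdeg (u₁ : L) 1 (algebraMap K E c)⁻¹
    one_ne_zero (inv_ne_zero hcE) u₁ u₂ (by rw [map_one, one_mul]) (by
      rw [hu, map_inv₀, ← IsScalarTower.algebraMap_apply, ← mul_assoc, inv_mul_cancel₀
        ((map_ne_zero_iff _ (algebraMap K L).injective).mpr hc0), one_mul])
  rw [hred₁, map_one, one_mul] at hδr
  rw [one_pow, one_mul, hfin₂, hN] at hδ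
  have hδ0 : SE.red δ ≠ 0 := by
    rw [hδr]
    exact Algebra.norm_ne_zero_iff.2 hred₂
  have hδGU : SE.IsGU (δ : E) := ⟨δ.2, by rw [SE.rd_of_mem δ.2]; exact hδ0⟩
  -- `δ = κ (c t) ^ p`
  have hδeq : (δ : E) = algebraMap K E κ * (algebraMap K E c * t) ^ p := by
    rw [mul_pow, ← mul_assoc, mul_comm (algebraMap K E κ), mul_assoc, hδ, inv_pow,
      ← mul_assoc, mul_inv_cancel₀ (pow_ne_zero _ hcE), one_mul]
  have ht' : algebraMap K E c * t ≠ 0 := by
    intro h0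
    apply hδGU.ne_zero
    rw [hδeq, h0]
    by_cases hp : p = 0
    · exfalso
      -- `p = 0` : `finrank = 0` is impossible
      have := Module.finrank_pos (R := E') (M := L₂)
      omega
    · rw [zero_pow hp, mul_zero]
  obtain ⟨d, hd0, hs, hsred⟩ := SE.exists_scale _ ht'
  have hdE : algebraMap K E d ≠ 0 := (map_ne_zero_iff _ (algebraMap K E).injective).mpr hd0
  have hsGU : SE.IsGU (algebraMap K E d * (algebraMap K E c * t)) :=
    ⟨hs, by rw [SE.rd_of_mem hs]; exact hsred⟩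
  have hδs : algebraMap K E (κ * (d⁻¹) ^ p) =
      (δ : E) / (algebraMap K E d * (algebraMap K E c * t)) ^ p := by
    rw [eq_div_iff (pow_ne_zero _ hsGU.ne_zero), hδeq, map_mul, map_pow, map_inv₀,
      mul_pow (algebraMap K E d), inv_pow]
    field_simp
  have hεGU : SE.IsGU (algebraMap K E (κ * (d⁻¹) ^ p)) := by
    rw [hδs]
    exact hδGU.div (hsGU.pow p)
  obtain ⟨ε', hε'⟩ := SE.red_const (κ * (d⁻¹) ^ p) hεGU.1
  have hδred : SE.red δ = algebraMap k E' ε' * SE.red ⟨_, hs⟩ ^ p := by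
    have e1 : (δ : E) = algebraMap K E (κ * (d⁻¹) ^ p) *
        (algebraMap K E d * (algebraMap K E c * t)) ^ p := by
      rw [hδs, div_mul_cancel₀ _ (pow_ne_zero _ hsGU.ne_zero)]
    have e2 : δ = ⟨algebraMap K E (κ * (d⁻¹) ^ p), hεGU.1⟩ *
        (⟨algebraMap K E d * (algebraMap K E c * t), hs⟩ : ↥SE.V) ^ p := Subtype.ext e1
    rw [e2, map_mul, map_pow, hε']
  exact hpow (red₂ u₂) (SE.red ⟨_, hs⟩) ε' (by rw [← hδr, hδred])

end Abs

section Concrete

variable (A : ValuationSubring Kbar) (q M : ℕ) (a b : ℤ) (hab : a * q + b * M = 1)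
  (hq : q.Prime) [NeZero M] [NeZero (M * q)] (hA : A.LiesOverPrime q)
  (hqM : ¬ q ∣ M) (ht : H91.TameAt M q)
  (hD : redField A (modularFunctionFieldBar (M * q)) (hSc A q M)
    = modularFunctionFieldFullC (kV A) M)

include hqM in
/-- If the norm of `g` for the second structure is a constant times a `q`-th power, then `g` is
a `q`-th power. -/
theorem pow_of_norm_alg2 (g : F1 A q M) (x : ↥(H91.redM A M)) (ε : kV A)
    (h : @Algebra.norm ↥(H91.redM A M) (F1 A q M) _ _ (H23.alg2 A q M a b hab hq hA hD) g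
      = algebraMap (kV A) ↥(H91.redM A M) ε * x ^ q) :
    ∃ w : F1 A q M, g = w ^ q := by
  letI := H23.alg2 A q M a b hab hq hA hD
  haveI : IsAlgClosed (kV A) := isAlgClosed_kV A
  have hq0 : q ≠ 0 := hq.ne_zero
  have hnorm := H73.norm_F1_Fr A q M hq hA M hD (H23.eRed A q M a b hab hq hA).toRingEquiv
    (H23.algebraMap_alg2 A q M a b hab hq hA hD) hqM g
  rw [h] at hnorm
  -- `φ g = ε (e x) ^ q`
  have h1 : H73.phiF1 A q M hq hA M hD g =
      algebraMap (kV A) (F1 A q M) ε * (H23.eRed A q M a b hab hq hA x) ^ q := by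
    have := congrArg (H23.eRed A q M a b hab hq hA).toRingEquiv hnorm
    rw [RingEquiv.apply_symm_apply] at this
    rw [← this]
    show (H23.eRed A q M a b hab hq hA) (algebraMap (kV A) ↥(H91.redM A M) ε * x ^ q) = _
    rw [map_mul, map_pow, AlgEquiv.commutes]
  obtain ⟨ε₁, hε₁⟩ := IsAlgClosed.exists_pow_nat_eq ε (Nat.pos_of_ne_zero hq0)
  obtain ⟨ε₂, hε₂⟩ := IsAlgClosed.exists_pow_nat_eq ε₁ (Nat.pos_of_ne_zero hq0)
  refine ⟨algebraMap (kV A) (F1 A q M) ε₂ *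
    (H73.phiF1 A q M hq hA M hD).symm (H23.eRed A q M a b hab hq hA x), ?_⟩
  apply (H73.phiF1 A q M hq hA M hD).injective
  rw [h1, map_pow, map_mul, RingEquiv.apply_symm_apply, H73.phiF1_algebraMap, hε₂, mul_pow,
    ← map_pow (algebraMap (kV A) (F1 A q M)), hε₁]

include hA hqM ht hD in
/-- **NORM-RED at the second component**, at the modular datum. -/
theorem red2_mod (f : FN (M * q)) (hf : f ∈ V1 A q M) (hred : red1 A q M ⟨f, hf⟩ = 1)
    (t : FN M) (κ : Kbar)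
    (hN : @Algebra.norm (FN M) (FN (M * q)) _ _ (H23.algEL q M) f
      = algebraMap Kbar (FN M) κ * t ^ q) :
    ∃ (f' h₀ : FN (M * q)) (a' : Kbar) (hf' : f' ∈ V2 A q M a b hab hq),
      red2 A q M a b hab hq ⟨f', hf'⟩ = 1 ∧
        f = algebraMap Kbar (FN (M * q)) a' * f' * h₀ ^ q := by
  have hf0 : f ≠ 0 := by
    rintro rfl
    have e : (⟨0, hf⟩ : ↥(V1 A q M)) = 0 := rfl
    rw [e, map_zero] at hred
    exact zero_ne_one hred
  obtain ⟨c, hc0, hu₂, hu₂red⟩ := exists_scale2 A q M a b hab hq f hf0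
  have hcF : algebraMap Kbar (FN (M * q)) c ≠ 0 :=
    (map_ne_zero_iff _ (algebraMap Kbar (FN (M * q))).injective).mpr hc0
  have h0 : @Module.finrank (FN M) (FN (M * q)) _ _ (H23.algEL q M).toModule = q + 1 :=
    H23.finrank_EL q M hq hqM
  have h1 : @Module.finrank ↥(H91.redM A M) (F1 A q M) _ _
      (H23.alg1 A q M a b hab hq hA).toModule = 1 := H23.finrank_alg1 A q M a b hab hq hA
  have h2 : @Module.finrank ↥(H91.redM A M) (F1 A q M) _ _
      (H23.alg2 A q M a b hab hq hA hD).toModule = q :=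
    H23.finrank_alg2 A q M a b hab hq hA hD hqM
  obtain ⟨w, hw⟩ := @red2_abs Kbar (FN M) (FN (M * q)) (kV A) ↥(H91.redM A M) (F1 A q M)
    (F1 A q M) _ _ _ _ _ _ _ _ _ (H23.algEL q M) (H23.isScalarTower_EL q M)
    (H23.finite_EL q M) _ _ _
    (H23.alg1 A q M a b hab hq hA) (H23.alg2 A q M a b hab hq hA hD)
    (H23.finite_alg1 A q M a b hab hq hA) (H23.finite_alg2 A q M a b hab hq hA hD hqM)
    (H91.seM hq hqM ht hA)
    (V1 A q M) (V2 A q M a b hab hq) (red1 A q M) (red2 A q M a b hab hq)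
    (H23.hV1_mod A q M hq hA hqM ht) (H23.hV2_mod A q M a b hab hq hA hqM ht)
    (red1_surjective A q M) (red2_surjective A q M a b hab hq)
    (H23.hker1_mod A q M) (H23.hker2_mod A q M a b hab hq)
    (H23.hcompat1_mod A q M a b hab hq hA hqM ht)
    (H23.hcompat2_mod A q M a b hab hq hA hqM ht hD)
    (H73.not_V1_le_V2 A q M a b hab hq hA) (H73.not_V2_le_V1 A q M a b hab hq hA)
    (H73.isArch_V1 A q M hq hA) (H73.isArch_V2 A q M a b hab hq hA)
    (by rw [h0, h1, h2, add_comm]) q h2 (pow_of_norm_alg2 A q M a b hab hq hA hqM hD)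
    ⟨f, hf⟩ hred ⟨_, hu₂⟩ hu₂red c rfl t κ hN
  -- lift `w`
  obtain ⟨h₀, hh₀⟩ := red2_surjective A q M a b hab hq w
  have hw0 : w ≠ 0 := by
    rintro rfl
    rw [zero_pow hq.ne_zero] at hw
    exact hu₂red hw
  have hunit : IsUnit h₀ := by
    by_contra hnu
    apply hw0
    rw [← hh₀]
    exact H23.hker2_mod A q M a b hab hq h₀ hnu
  obtain ⟨v, hv⟩ := hunit
  have hvinv : red2 A q M a b hab hq ((v⁻¹ : (↥(V2 A q M a b hab hq))ˣ) : ↥(V2 A q M a b hab hq))
      = w⁻¹ := by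
    have e : ((v⁻¹ : (↥(V2 A q M a b hab hq))ˣ) : ↥(V2 A q M a b hab hq)) * h₀ = 1 := by
      rw [← hv]
      exact v.inv_mul
    have e2 := congrArg (red2 A q M a b hab hq) e
    rw [map_mul, map_one, hh₀] at e2
    exact eq_inv_of_mul_eq_one_left e2
  have hh₀0 : (h₀ : FN (M * q)) ≠ 0 := by
    intro h
    apply hw0
    have : h₀ = 0 := Subtype.ext h
    rw [← hh₀, this, map_zero]
  set f'' : ↥(V2 A q M a b hab hq) :=
    ⟨_, hu₂⟩ * ((v⁻¹ : (↥(V2 A q M a b hab hq))ˣ) : ↥(V2 A q M a b hab hq)) ^ q with hf''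
  refine ⟨(f'' : FN (M * q)), (h₀ : FN (M * q)), c⁻¹, f''.2, ?_, ?_⟩
  · show red2 A q M a b hab hq f'' = 1
    rw [hf'', map_mul, map_pow, hvinv, hw, inv_pow, mul_inv_cancel₀ (pow_ne_zero _ hw0)]
  · have e1 : (((v⁻¹ : (↥(V2 A q M a b hab hq))ˣ) : ↥(V2 A q M a b hab hq)) : FN (M * q))
        * (h₀ : FN (M * q)) = 1 := by
      have e : ((v⁻¹ : (↥(V2 A q M a b hab hq))ˣ) : ↥(V2 A q M a b hab hq)) * h₀ = 1 := by
        rw [← hv]
        exact v.inv_mul
      exact congrArg Subtype.val e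
    have e2 : (f'' : FN (M * q)) = algebraMap Kbar (FN (M * q)) c * f *
        (((v⁻¹ : (↥(V2 A q M a b hab hq))ˣ) : ↥(V2 A q M a b hab hq)) : FN (M * q)) ^ q := rfl
    rw [e2, map_inv₀]
    have e3 : (algebraMap Kbar (FN (M * q)) c)⁻¹ * (algebraMap Kbar (FN (M * q)) c * f *
        (((v⁻¹ : (↥(V2 A q M a b hab hq))ˣ) : ↥(V2 A q M a b hab hq)) : FN (M * q)) ^ q) *
          (h₀ : FN (M * q)) ^ q =
        ((algebraMap Kbar (FN (M * q)) c)⁻¹ * algebraMap Kbar (FN (M * q)) c) * f *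
          ((((v⁻¹ : (↥(V2 A q M a b hab hq))ˣ) : ↥(V2 A q M a b hab hq)) : FN (M * q)) *
            (h₀ : FN (M * q))) ^ q := by ring
    rw [e3, e1, one_pow, mul_one, inv_mul_cancel₀ hcF, one_mul]

end Concrete

/-- **L2**: NORM-RED at the second component. -/
theorem stmt_Red2 : H86.Stmt_Red2 := by
  intro A p M a b hab hp _ _ _ hA hpM ht f hf hred hN
  obtain ⟨t, κ, hN⟩ := hN
  exact red2_mod A p M a b hab hp hA hpM ht (H82.redField_eq_fullC p M a b hab hp A hA) f hf hred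
    t κ hN

end Fermat.Agent.S33.New.H28
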