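import Fermat.Agent.S33.New.H54_Defs
import Fermat.Agent.S33.H46_T2

/-!
# S33, NEW case, leaf (T2) (helper46): `Stmt_K1Sat N p` for every level `N ≠ 0`

`Fermat.Agent.S33.New.H46.stmt_K1Sat N p : New.H54.Stmt_K1Sat N p` (needs `[NeZero N]`; the
consumer uses `N = M * p`).  Proof in `Fermat/Agent/S33/H46_T2.lean`.
-/

set_option autoImplicit false

namespace Fermat.Agent.S33.New.H46

/-- **(T2)**: `K1(p^(k+1)) ∩ J₀(N)[p^k] ⊆ K1(p^k)`. -/
theorem stmt_K1Sat (N : ℕ) [NeZero N] (p : ℕ) : Fermat.Agent.S33.New.H54.Stmt_K1Sat N p :=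
  Fermat.Agent.S33.H46.stmt_K1Sat N p

end Fermat.Agent.S33.New.H46
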