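import Fermat.Agent.GTor.H81_SelfInj

/-!
# S33, the `p`-new case: abstract algebra for the wiring  (helper54)

Pure algebra (Mathlib only, on top of helper81's self-injectivity of `ℤ/n`).

* `exists_factor_gen` : factorisation of matrices over `ℤ/n` through a kernel, arbitrary finite
  index types.
* `exists_factor_two` : if `T` kills every vector `z = B₀ x₀ + B₁ x₁` with `p z = 0`, then
  `T B₀ = D (p B₀)` and `T B₁ = D (p B₁)` for ONE matrix `D`.
* `exists_lift_two` : the same identity, transported to a ring `𝒪` mapping onto a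
  `ℤ/n`-algebra.
* `exists_decomp` : in a module with a basis `b` indexed by `Fin 2`, `b 0 = (f₀ - 1) v₀`:
  `c • v ∈ (f₀ - 1) V + (f₁ - 1) V` for `c` the second coordinate of `(f₁ - 1) v₁`.
* `exists_pow_cancel` : in a discrete valuation ring, for `x ≠ 0` there is `k` with
  `x y ∈ 𝔪 ^ k → y ∈ 𝔪`.
-/

set_option autoImplicit false

noncomputable section

namespace Fermat.Agent.S33.New.H54

open Matrix Fermat.Agent.GTor.H81

/-- **Factorisation through a kernel**, arbitrary finite index types: if `ker A ⊆ ker B` then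
`B = D * A`. -/
theorem exists_factor_gen (n : ℕ) [NeZero n] {t : ℕ} {m c : Type} [Fintype m] [DecidableEq m]
    [Fintype c] [DecidableEq c]
    (A : Matrix m c (ZMod n)) (B : Matrix (Fin t) c (ZMod n))
    (h : ∀ v : c → ZMod n, A.mulVec v = 0 → B.mulVec v = 0) :
    ∃ D : Matrix (Fin t) m (ZMod n), B = D * A := by
  have hker : LinearMap.ker A.mulVecLin ≤ LinearMap.ker B.mulVecLin := by
    intro v hv
    rw [LinearMap.mem_ker, Matrix.mulVecLin_apply] at hv ⊢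
    exact h v hv
  let e := A.mulVecLin.quotKerEquivRange
  let g : LinearMap.range A.mulVecLin →ₗ[ZMod n] (Fin t → ZMod n) :=
    ((LinearMap.ker A.mulVecLin).liftQ B.mulVecLin hker) ∘ₗ e.symm.toLinearMap
  obtain ⟨D, hD⟩ := exists_extension_pi n (LinearMap.range A.mulVecLin).subtype
    (Submodule.injective_subtype _) g
  refine ⟨LinearMap.toMatrix' D, ?_⟩
  apply Matrix.mulVec_injective
  funext v
  rw [← Matrix.mulVec_mulVec, LinearMap.toMatrix'_mulVec]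
  have h1 : D (A.mulVec v) = g ⟨A.mulVecLin v, LinearMap.mem_range_self _ v⟩ := by
    rw [← hD]
    rfl
  rw [h1]
  show B.mulVec v = ((LinearMap.ker A.mulVecLin).liftQ B.mulVecLin hker)
    (e.symm ⟨A.mulVecLin v, LinearMap.mem_range_self _ v⟩)
  have h2 : e.symm ⟨A.mulVecLin v, LinearMap.mem_range_self _ v⟩ =
      (LinearMap.ker A.mulVecLin).mkQ v := by
    rw [LinearEquiv.symm_apply_eq]
    rfl
  rw [h2]
  rfl

/-- **Two blocks**: if `T` kills every `z = B₀ x₀ + B₁ x₁` with `p z = 0`, then `T B₀` and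
`T B₁` factor through `p B₀` and `p B₁` with the same left factor. -/
theorem exists_factor_two (n : ℕ) [NeZero n] {r : ℕ} (T B₀ B₁ : Matrix (Fin r) (Fin r) (ZMod n))
    (p : ℕ)
    (h : ∀ x₀ x₁ : Fin r → ZMod n, p • (B₀.mulVec x₀ + B₁.mulVec x₁) = 0 →
      T.mulVec (B₀.mulVec x₀ + B₁.mulVec x₁) = 0) :
    ∃ D : Matrix (Fin r) (Fin r) (ZMod n),
      T * B₀ = D * (p • B₀) ∧ T * B₁ = D * (p • B₁) := by
  classical
  obtain ⟨D, hD⟩ := exists_factor_gen n (Matrix.fromCols (p • B₀) (p • B₁))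
    (Matrix.fromCols (T * B₀) (T * B₁)) (fun v hv => by
      rw [Matrix.fromCols_mulVec] at hv ⊢
      rw [Matrix.smul_mulVec, Matrix.smul_mulVec, ← smul_add] at hv
      rw [← Matrix.mulVec_mulVec, ← Matrix.mulVec_mulVec, ← Matrix.mulVec_add]
      exact h _ _ hv)
  rw [Matrix.mul_fromCols] at hD
  obtain ⟨h0, h1⟩ := Matrix.fromCols_inj hD
  exact ⟨D, h0, h1⟩

/-- **Transport to a ring mapping onto a `ℤ/n`-algebra.** -/
theorem exists_lift_two {𝒪 R₁ R₂ : Type} [CommRing 𝒪] [CommRing R₁] [CommRing R₂]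
    (π : 𝒪 →+* R₂) (hπ : Function.Surjective π) (c : R₁ →+* R₂) {r : ℕ}
    (T B₀ B₁ : Matrix (Fin r) (Fin r) 𝒪) (T' B₀' B₁' D : Matrix (Fin r) (Fin r) R₁) (p : ℕ)
    (hT : π.mapMatrix T = c.mapMatrix T') (hB₀ : π.mapMatrix B₀ = c.mapMatrix B₀')
    (hB₁ : π.mapMatrix B₁ = c.mapMatrix B₁')
    (h₀ : T' * B₀' = D * (p • B₀')) (h₁ : T' * B₁' = D * (p • B₁')) :
    ∃ D' : Matrix (Fin r) (Fin r) 𝒪,
      π.mapMatrix (T * B₀ - p • (D' * B₀)) = 0 ∧
      π.mapMatrix (T * B₁ - p • (D' * B₁)) = 0 := by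
  have hsurj : ∀ Y : Matrix (Fin r) (Fin r) R₂, ∃ X : Matrix (Fin r) (Fin r) 𝒪,
      π.mapMatrix X = Y := by
    intro Y
    choose f hf using hπ
    exact ⟨Y.map f, by ext i j; simp [hf]⟩
  obtain ⟨D', hD'⟩ := hsurj (c.mapMatrix D)
  have key : ∀ (B : Matrix (Fin r) (Fin r) 𝒪) (B' : Matrix (Fin r) (Fin r) R₁),
      π.mapMatrix B = c.mapMatrix B' → T' * B' = D * (p • B') →
      π.mapMatrix (T * B - p • (D' * B)) = 0 := by
    intro B B' hB h
    have e1 : π.mapMatrix (p • (D' * B)) = c.mapMatrix (D * (p • B')) := by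
      rw [mul_smul_comm, map_nsmul, map_nsmul, map_mul, map_mul, hD', hB]
    rw [map_sub, map_mul, hT, hB, ← map_mul, h, e1, sub_self]
  exact ⟨D', key B₀ B₀' hB₀ h₀, key B₁ B₁' hB₁ h₁⟩

/-- In a module with a basis `b` indexed by `Fin 2` with `b 0 = f₀ v₀ - v₀`: if `c` is the second
coordinate of `f₁ v₁ - v₁`, then `c • v ∈ (f₀ - 1) V + (f₁ - 1) V` for every `v`. -/
theorem exists_decomp {𝒪 V : Type} [CommRing 𝒪] [AddCommGroup V] [Module 𝒪 V]
    (b : Module.Basis (Fin 2) 𝒪 V) (f₀ f₁ : Module.End 𝒪 V) (v₀ v₁ : V)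
    (hb0 : b 0 = f₀ v₀ - v₀) (v : V) :
    ∃ u₀ u₁ : V, (b.repr (f₁ v₁ - v₁) 1) • v = (f₀ u₀ - u₀) + (f₁ u₁ - u₁) := by
  set w₁ : V := f₁ v₁ - v₁ with hw₁
  set c : 𝒪 := b.repr w₁ 1 with hc
  set c₀ : 𝒪 := b.repr w₁ 0 with hc₀
  have e1 : w₁ = c₀ • b 0 + c • b 1 := by
    conv_lhs => rw [← b.sum_repr w₁, Fin.sum_univ_two]
  have e2 : v = b.repr v 0 • b 0 + b.repr v 1 • b 1 := by
    conv_lhs => rw [← b.sum_repr v, Fin.sum_univ_two]
  refine ⟨(c * b.repr v 0 - b.repr v 1 * c₀) • v₀, b.repr v 1 • v₁, ?_⟩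
  rw [map_smul, map_smul, ← smul_sub, ← smul_sub, ← hb0, ← hw₁, e1]
  conv_lhs => rw [e2]
  simp only [smul_add, smul_smul, sub_smul]
  rw [mul_comm (b.repr v 1) c₀, mul_comm (b.repr v 1) c]
  abel

/-- In a discrete valuation ring, multiplication by a non-zero element loses only a bounded
power of the maximal ideal. -/
theorem exists_pow_cancel {𝒪 : Type} [CommRing 𝒪] [IsDomain 𝒪] [IsDiscreteValuationRing 𝒪]
    {x : 𝒪} (hx : x ≠ 0) :
    ∃ k : ℕ, 1 ≤ k ∧ ∀ y : 𝒪, x * y ∈ IsLocalRing.maximalIdeal 𝒪 ^ k →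
      y ∈ IsLocalRing.maximalIdeal 𝒪 := by
  obtain ⟨ϖ, hϖ⟩ := IsDiscreteValuationRing.exists_irreducible 𝒪
  obtain ⟨j, u, hu⟩ := IsDiscreteValuationRing.eq_unit_mul_pow_irreducible hx hϖ
  refine ⟨j + 1, Nat.le_add_left 1 j, fun y hy => ?_⟩
  rw [hϖ.maximalIdeal_eq, Ideal.span_singleton_pow, Ideal.mem_span_singleton] at hy
  obtain ⟨t, ht⟩ := hy
  rw [hϖ.maximalIdeal_eq, Ideal.mem_span_singleton]
  have h1 : ϖ ^ j * ((u : 𝒪) * y) = ϖ ^ j * (ϖ * t) := by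
    rw [← mul_assoc, mul_comm (ϖ ^ j), ← hu, ht]
    ring
  have h2 := mul_left_cancel₀ (pow_ne_zero j hϖ.ne_zero) h1
  refine ⟨(↑u⁻¹ : 𝒪) * t, ?_⟩
  calc y = (↑u⁻¹ : 𝒪) * ((u : 𝒪) * y) := by rw [← mul_assoc, Units.inv_mul, one_mul]
    _ = (↑u⁻¹ : 𝒪) * (ϖ * t) := by rw [h2]
    _ = ϖ * ((↑u⁻¹ : 𝒪) * t) := by ring

end Fermat.Agent.S33.New.H54
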