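import Fermat.Agent.GTor.H81_Words
import Fermat.Agent.GTor.H81_Clauses
import Fermat.Agent.BAD.H91_B0
import Fermat.Agent.S33.New.H46_K1Sat
import Fermat.Agent.S36.H44_Y1
import Fermat.Agent.S33.New.H54_Factor

/-!
# S33, the `p`-new case: from the torsion-level statement (T3) to the Tate limit  (helper54)

Level `M p`, `C : TateCoords (M p) p S`, `L : TateLimit C 𝒪 hp`, `A` a valuation ring of `ℚ̄` over
`p`, `τ, σ₀, σ₁` in its inertia group, `τ ζ = ζ ^ a` on the `p`-th roots of unity, `w` an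
old-killer (`wordSH M S w = 0`), `W` its matrix, `B_i = (ρ(σ_i) - 1) W`.

* `K1Test A M p g` : `(g - 1)` maps the `p`-new classes of `J₀(M p)[p^k]` into `K1(p^k)`, for
  all `k`; it holds for `g` in the inertia group of `A` by (B0) (`k1Test_of_mem_inertia`).
  (`σ₁` is only assumed to satisfy the `K1`-test: this is used for strict ordinarity.)
* `tors_OrdNew` : (B0) + (T2) + (T3): a class `z = (σ₀ - 1) w x₀ + (σ₁ - 1) w x₁` of `p`-power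
  torsion with `p z = 0` satisfies `τ z = a z`.
* `rho_OrdNew`  : the same in the coordinates of level `p^k`.
* `limit_OrdNew` : for every `k` there is a matrix `D'` over `𝒪` with
  `(ρL(τ) - a) B_i ≡ p D' B_i` modulo `𝔪^k` (`i = 0, 1`).
* `vec_OrdNew` : if `x g = B₀ g₀ + B₁ g₁` with `x ≠ 0`, then `(ρL(τ) - a) g ∈ 𝔪 𝒪^r`.
-/

set_option autoImplicit false
set_option linter.unusedSectionVars false

noncomputable section

namespace Fermat.Agent.S33.New.H54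

open AlgebraicCurve ModularCurve Fermat.Agent.GTor Fermat.Agent.GTor.H81
  Fermat.Agent.GTor.H58T1 Fermat.Agent.Betti.H76 Fermat.Agent.S35.H89 Fermat.Agent.BAD

section K1

variable {A : ValuationSubring (AlgebraicClosure ℚ)} {N n : ℕ}

/-- a function of the Gauss valuation ring with reduction `1` is not zero. -/
theorem ne_zero_of_gaussRes_one {f : ↥(gaussV A N)} (h : gaussRes A N f = 1) :
    (f : ↥(FNbar N)) ≠ 0 := by
  intro h0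
  have : f = 0 := Subtype.ext h0
  rw [this, map_zero] at h
  exact zero_ne_one h

/-- `K1(n)` is closed under addition (as `Fermat.Agent.S43.BadQ.InK1.add`, restated here to keep
the import closure small). -/
theorem inK1_add {x y : JZero N} (hx : InK1 A N n x) (hy : InK1 A N n y) :
    InK1 A N n (x + y) := by
  obtain ⟨D, f, rfl, hf, hD⟩ := hx
  obtain ⟨E, g, rfl, hg, hE⟩ := hy
  refine ⟨D + E, f * g, (Pic0.mk_add D E).symm, by rw [map_mul, hf, hg, mul_one], fun P => ?_⟩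
  have h1 : (((f * g : ↥(gaussV A N)) : ↥(FNbar N))) = (f : ↥(FNbar N)) * (g : ↥(FNbar N)) := rfl
  rw [h1, Place.ord_mul _ (ne_zero_of_gaussRes_one hf) (ne_zero_of_gaussRes_one hg),
    ← hD P, ← hE P]
  show (n : ℤ) * ((D : Divisor (AlgebraicClosure ℚ) ↥(FNbar N)) +
    (E : Divisor (AlgebraicClosure ℚ) ↥(FNbar N))) P = _
  rw [Finsupp.add_apply, mul_add]

end K1

/-- **The `K1`-test** for `g ∈ G_ℚ`: `(g - 1)` maps the `p`-new classes of `J₀(M p)[p^k]` into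
`K1(p^k)`, for every `k`. -/
def K1Test (A : ValuationSubring (AlgebraicClosure ℚ)) (M p : ℕ) [NeZero M] [NeZero p]
    (g : GQ) : Prop :=
  ∀ (k : ℕ) (x : JZero (M * p)), p ^ k • x = 0 → IsQNew M p x →
    InK1 A (M * p) (p ^ k) (g • x - x)

/-- The elements of the inertia group satisfy the `K1`-test (B0). -/
theorem k1Test_of_mem_inertia (A : ValuationSubring (AlgebraicClosure ℚ)) (M p : ℕ) [NeZero M]
    [NeZero p] {g : GQ} (hg : g ∈ A.inertiaSubgroupIn ℚ) : K1Test A M p g :=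
  fun k x hx _ => Fermat.Agent.BAD.H91.stmt_B0 (M * p) A g hg (p ^ k) x hx

section Tors

variable {M p : ℕ} [NeZero M] [NeZero p] {S : Set ℕ}

/-- **(B0) + (T2) + (T3)** for the classes `(σ₀ - 1) w x₀ + (σ₁ - 1) w x₁`. -/
theorem tors_OrdNew (hT3 : Stmt_TorsOrdNew M p) (hp : p.Prime) (hp2 : p ≠ 2) (hpM : ¬ p ∣ M)
    (hS : ∀ l : ℕ, l.Prime → l ∣ M * p → l ∈ S)
    {A : ValuationSubring (AlgebraicClosure ℚ)} (hA : A.LiesOverPrime p)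
    {τ σ₀ σ₁ : GQ} (hτ : τ ∈ A.inertiaSubgroupIn ℚ) (hσ₀ : σ₀ ∈ A.inertiaSubgroupIn ℚ)
    (hσ₁ : K1Test A M p σ₁) (a : ℕ)
    (ha : ∀ ζ : AlgebraicClosure ℚ, ζ ^ p = 1 → τ ζ = ζ ^ a)
    {w : FreeAlgebra ℤ (Gen S)} (hw : wordSH M S w = 0) (k : ℕ)
    (x₀ x₁ : JZero (M * p)) (hx₀ : p ^ (1 + k) • x₀ = 0) (hx₁ : p ^ (1 + k) • x₁ = 0)
    (hz : p • ((σ₀ • wordJ (M * p) S w x₀ - wordJ (M * p) S w x₀) +
      (σ₁ • wordJ (M * p) S w x₁ - wordJ (M * p) S w x₁)) = 0) :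
    τ • ((σ₀ • wordJ (M * p) S w x₀ - wordJ (M * p) S w x₀) +
        (σ₁ • wordJ (M * p) S w x₁ - wordJ (M * p) S w x₁)) =
      a • ((σ₀ • wordJ (M * p) S w x₀ - wordJ (M * p) S w x₀) +
        (σ₁ • wordJ (M * p) S w x₁ - wordJ (M * p) S w x₁)) := by
  have hw₀ : p ^ (1 + k) • wordJ (M * p) S w x₀ = 0 := by rw [← map_nsmul, hx₀, map_zero]
  have hw₁ : p ^ (1 + k) • wordJ (M * p) S w x₁ = 0 := by rw [← map_nsmul, hx₁, map_zero]
  have hnew₁ : IsQNew M p (wordJ (M * p) S w x₁) :=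
    isQNew_word hp (Fermat.Agent.S36.H44.stmt_Y1 M p) hS hw _ ⟨1 + k, hx₁⟩
  -- `z` lies in `K1(p^(1+k))`
  have hK : InK1 A (M * p) (p ^ (1 + k))
      ((σ₀ • wordJ (M * p) S w x₀ - wordJ (M * p) S w x₀) +
        (σ₁ • wordJ (M * p) S w x₁ - wordJ (M * p) S w x₁)) :=
    inK1_add
      (Fermat.Agent.BAD.H91.stmt_B0 (M * p) A σ₀ hσ₀ (p ^ (1 + k)) _ hw₀)
      (hσ₁ (1 + k) _ hw₁ hnew₁)
  have hK1 : InK1 A (M * p) p
      ((σ₀ • wordJ (M * p) S w x₀ - wordJ (M * p) S w x₀) +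
        (σ₁ • wordJ (M * p) S w x₁ - wordJ (M * p) S w x₁)) := by
    have h1 : p ^ 1 • ((σ₀ • wordJ (M * p) S w x₀ - wordJ (M * p) S w x₀) +
        (σ₁ • wordJ (M * p) S w x₁ - wordJ (M * p) S w x₁)) = 0 := by rw [pow_one]; exact hz
    have h2 := Fermat.Agent.S33.H46.inK1_of_pow (M * p) A hp hA 1 k _ hK h1
    rwa [pow_one] at h2
  -- `z` is `p`-new
  have hznew : (σ₀ • wordJ (M * p) S w x₀ - wordJ (M * p) S w x₀) +
      (σ₁ • wordJ (M * p) S w x₁ - wordJ (M * p) S w x₁) =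
      wordJ (M * p) S w ((σ₀ • x₀ - x₀) + (σ₁ • x₁ - x₁)) := by
    rw [map_add, map_sub, map_sub, ← wordJ_gal w σ₀ x₀, ← wordJ_gal w σ₁ x₁]
  have e : ∀ (σ : GQ) (x : JZero (M * p)), p ^ (1 + k) • x = 0 →
      p ^ (1 + k) • (σ • x - x) = 0 := by
    intro σ x hx
    have h1 := map_nsmul (galHom (M * p) σ) (p ^ (1 + k)) x
    rw [hx, map_zero, galHom_apply] at h1
    rw [nsmul_sub, hx, sub_zero, ← h1]
  have htor : ∃ n : ℕ, p ^ n • ((σ₀ • x₀ - x₀) + (σ₁ • x₁ - x₁)) = 0 :=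
    ⟨1 + k, by rw [nsmul_add, e σ₀ x₀ hx₀, e σ₁ x₁ hx₁, add_zero]⟩
  have hnew : IsQNew M p ((σ₀ • wordJ (M * p) S w x₀ - wordJ (M * p) S w x₀) +
      (σ₁ • wordJ (M * p) S w x₁ - wordJ (M * p) S w x₁)) := by
    rw [hznew]
    exact isQNew_word hp (Fermat.Agent.S36.H44.stmt_Y1 M p) hS hw _ htor
  exact hT3 hp hp2 hpM A hA τ hτ a ha _ hz hnew hK1

end Tors

section Level

variable {M p : ℕ} [NeZero M] [NeZero p] [Fact p.Prime] {S : Set ℕ}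
  {C : TateCoords (M * p) p S}

/-- **(T3) at level `p^(1+k)`**, in coordinates. -/
theorem rho_OrdNew (hT3 : Stmt_TorsOrdNew M p) (hp2 : p ≠ 2) (hpM : ¬ p ∣ M)
    (hS : ∀ l : ℕ, l.Prime → l ∣ M * p → l ∈ S)
    {A : ValuationSubring (AlgebraicClosure ℚ)} (hA : A.LiesOverPrime p)
    {τ σ₀ σ₁ : GQ} (hτ : τ ∈ A.inertiaSubgroupIn ℚ) (hσ₀ : σ₀ ∈ A.inertiaSubgroupIn ℚ)
    (hσ₁ : K1Test A M p σ₁) (a : ℕ)
    (ha : ∀ ζ : AlgebraicClosure ℚ, ζ ^ p = 1 → τ ζ = ζ ^ a)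
    {w : FreeAlgebra ℤ (Gen S)} (hw : wordSH M S w = 0) (k : ℕ)
    (x₀ x₁ : Fin C.r → ZMod (p ^ (1 + k)))
    (hz : p • (((C.ρ (1 + k) σ₀ - 1) *
          Mc (ZMod (p ^ (1 + k))) C.M (wordSH (M * p) S w)).mulVec x₀ +
        ((C.ρ (1 + k) σ₁ - 1) *
          Mc (ZMod (p ^ (1 + k))) C.M (wordSH (M * p) S w)).mulVec x₁) = 0) :
    (C.ρ (1 + k) τ - ((a : ℕ) : Matrix (Fin C.r) (Fin C.r) (ZMod (p ^ (1 + k))))).mulVec
      (((C.ρ (1 + k) σ₀ - 1) *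
          Mc (ZMod (p ^ (1 + k))) C.M (wordSH (M * p) S w)).mulVec x₀ +
        ((C.ρ (1 + k) σ₁ - 1) *
          Mc (ZMod (p ^ (1 + k))) C.M (wordSH (M * p) S w)).mulVec x₁) = 0 := by
  have hpp : p.Prime := Fact.out
  obtain ⟨X₀, rfl⟩ := (C.θ (1 + k)).surjective x₀
  obtain ⟨X₁, rfl⟩ := (C.θ (1 + k)).surjective x₁
  -- the endomorphisms `(σ_i - 1) w`
  set f₀ : AddMonoid.End (Jtor (M * p) (p ^ (1 + k))) :=
    (TateCoords.galEnd (1 + k) σ₀ - 1) * resTor (M * p) (p ^ (1 + k)) (wordJ (M * p) S w)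
    with hf₀
  set f₁ : AddMonoid.End (Jtor (M * p) (p ^ (1 + k))) :=
    (TateCoords.galEnd (1 + k) σ₁ - 1) * resTor (M * p) (p ^ (1 + k)) (wordJ (M * p) S w)
    with hf₁
  have hm₀ : C.mat (1 + k) f₀ = (C.ρ (1 + k) σ₀ - 1) *
      Mc (ZMod (p ^ (1 + k))) C.M (wordSH (M * p) S w) := by
    rw [hf₀, map_mul, map_sub, map_one, C.mat_gal, C.mat_word hS]
  have hm₁ : C.mat (1 + k) f₁ = (C.ρ (1 + k) σ₁ - 1) *
      Mc (ZMod (p ^ (1 + k))) C.M (wordSH (M * p) S w) := by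
    rw [hf₁, map_mul, map_sub, map_one, C.mat_gal, C.mat_word hS]
  rw [← hm₀, ← hm₁, C.mat_mulVec, C.mat_mulVec, ← map_add] at hz ⊢
  set Z : Jtor (M * p) (p ^ (1 + k)) := f₀ X₀ + f₁ X₁ with hZ
  -- `p Z = 0`
  have hpZ : p • Z = 0 := by
    apply (C.θ (1 + k)).injective
    rw [map_nsmul, map_zero]
    exact hz
  have hZcoe : (Z : JZero (M * p)) =
      (σ₀ • wordJ (M * p) S w (X₀ : JZero (M * p)) - wordJ (M * p) S w (X₀ : JZero (M * p))) +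
      (σ₁ • wordJ (M * p) S w (X₁ : JZero (M * p)) - wordJ (M * p) S w (X₁ : JZero (M * p))) :=
    rfl
  have hpZ' : p • (Z : JZero (M * p)) = 0 := by
    have := congrArg (fun y : Jtor (M * p) (p ^ (1 + k)) => (y : JZero (M * p))) hpZ
    exact this
  rw [hZcoe] at hpZ'
  have key := tors_OrdNew hT3 hpp hp2 hpM hS hA hτ hσ₀ hσ₁ a ha hw k
    (X₀ : JZero (M * p)) (X₁ : JZero (M * p)) (pow_nsmul_coe X₀) (pow_nsmul_coe X₁) hpZ'
  rw [← hZcoe] at key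
  -- back to coordinates
  set fτ : AddMonoid.End (Jtor (M * p) (p ^ (1 + k))) :=
    TateCoords.galEnd (1 + k) τ - ((a : ℕ) : AddMonoid.End (Jtor (M * p) (p ^ (1 + k))))
    with hfτ
  have hn : C.mat (1 + k) ((a : ℕ) : AddMonoid.End (Jtor (M * p) (p ^ (1 + k)))) =
      ((a : ℕ) : Matrix (Fin C.r) (Fin C.r) (ZMod (p ^ (1 + k)))) :=
    map_natCast (C.mat (1 + k)) a
  have hT : C.mat (1 + k) fτ =
      C.ρ (1 + k) τ - ((a : ℕ) : Matrix (Fin C.r) (Fin C.r) (ZMod (p ^ (1 + k)))) := by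
    rw [hfτ, map_sub, C.mat_gal, hn]
  rw [← hT, C.mat_mulVec]
  have h0 : fτ Z = 0 := by
    apply Subtype.ext
    have h1 : ((fτ Z : Jtor (M * p) (p ^ (1 + k))) : JZero (M * p)) =
        τ • (Z : JZero (M * p)) - a • (Z : JZero (M * p)) := by
      show ((TateCoords.galEnd (1 + k) τ Z - ((a : ℕ) : AddMonoid.End
        (Jtor (M * p) (p ^ (1 + k)))) Z : Jtor (M * p) (p ^ (1 + k))) : JZero (M * p)) = _
      rw [AddMonoid.End.natCast_apply]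
      rfl
    rw [h1, key, sub_self]
    rfl
  rw [h0, map_zero]

end Level

section Limit

variable {M p : ℕ} [NeZero M] [NeZero p] [Fact p.Prime] {S : Set ℕ}
  {C : TateCoords (M * p) p S}
variable {𝒪 : Type} [CommRing 𝒪] [IsLocalRing 𝒪]
  [IsAdicComplete (IsLocalRing.maximalIdeal 𝒪) 𝒪]
  {hp : (p : 𝒪) ∈ IsLocalRing.maximalIdeal 𝒪} (L : TateLimit C 𝒪 hp)

/-- **(T3) in the limit**, modulo `𝔪^(1+k)`. -/
theorem limit_OrdNew (hT3 : Stmt_TorsOrdNew M p) (hp2 : p ≠ 2) (hpM : ¬ p ∣ M)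
    (hS : ∀ l : ℕ, l.Prime → l ∣ M * p → l ∈ S)
    {A : ValuationSubring (AlgebraicClosure ℚ)} (hA : A.LiesOverPrime p)
    {τ σ₀ σ₁ : GQ} (hτ : τ ∈ A.inertiaSubgroupIn ℚ) (hσ₀ : σ₀ ∈ A.inertiaSubgroupIn ℚ)
    (hσ₁ : K1Test A M p σ₁) (a : ℕ)
    (ha : ∀ ζ : AlgebraicClosure ℚ, ζ ^ p = 1 → τ ζ = ζ ^ a)
    {w : FreeAlgebra ℤ (Gen S)} (hw : wordSH M S w = 0) (k : ℕ) :
    ∃ D' : Matrix (Fin C.r) (Fin C.r) 𝒪,
      (piK (IsLocalRing.maximalIdeal 𝒪) (1 + k)).mapMatrix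
        ((L.ρL τ - ((a : ℕ) : Matrix (Fin C.r) (Fin C.r) 𝒪)) *
            ((L.ρL σ₀ - 1) * Mc 𝒪 C.M (wordSH (M * p) S w)) -
          p • (D' * ((L.ρL σ₀ - 1) * Mc 𝒪 C.M (wordSH (M * p) S w)))) = 0 ∧
      (piK (IsLocalRing.maximalIdeal 𝒪) (1 + k)).mapMatrix
        ((L.ρL τ - ((a : ℕ) : Matrix (Fin C.r) (Fin C.r) 𝒪)) *
            ((L.ρL σ₁ - 1) * Mc 𝒪 C.M (wordSH (M * p) S w)) -
          p • (D' * ((L.ρL σ₁ - 1) * Mc 𝒪 C.M (wordSH (M * p) S w)))) = 0 := by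
  have hpp : p.Prime := Fact.out
  have : NeZero (p ^ (1 + k)) := ⟨pow_ne_zero _ hpp.ne_zero⟩
  obtain ⟨D, hD₀, hD₁⟩ := exists_factor_two (p ^ (1 + k))
    (C.ρ (1 + k) τ - ((a : ℕ) : Matrix (Fin C.r) (Fin C.r) (ZMod (p ^ (1 + k)))))
    ((C.ρ (1 + k) σ₀ - 1) * Mc (ZMod (p ^ (1 + k))) C.M (wordSH (M * p) S w))
    ((C.ρ (1 + k) σ₁ - 1) * Mc (ZMod (p ^ (1 + k))) C.M (wordSH (M * p) S w)) p
    (fun x₀ x₁ hz => rho_OrdNew hT3 hp2 hpM hS hA hτ hσ₀ hσ₁ a ha hw k x₀ x₁ hz)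
  exact exists_lift_two (piK (IsLocalRing.maximalIdeal 𝒪) (1 + k))
    Ideal.Quotient.mk_surjective (cK (IsLocalRing.maximalIdeal 𝒪) p hp (1 + k)) _ _ _ _ _ _ D p
    (((L.spec τ).sub (compat_natCast a)) (1 + k))
    ((((L.spec σ₀).sub compat_one).mul (compat_Mc C.M _)) (1 + k))
    ((((L.spec σ₁).sub compat_one).mul (compat_Mc C.M _)) (1 + k)) hD₀ hD₁

end Limit

section Vec

variable {M p : ℕ} [NeZero M] [NeZero p] [Fact p.Prime] {S : Set ℕ}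
  {C : TateCoords (M * p) p S}
variable {𝒪 : Type} [CommRing 𝒪] [IsDomain 𝒪] [IsDiscreteValuationRing 𝒪]
  [IsAdicComplete (IsLocalRing.maximalIdeal 𝒪) 𝒪]
  {hp : (p : 𝒪) ∈ IsLocalRing.maximalIdeal 𝒪} (L : TateLimit C 𝒪 hp)

/-- entries of a matrix with vanishing reduction -/
theorem mem_of_piK_mapMatrix_eq_zero {r : ℕ} {k : ℕ} {X : Matrix (Fin r) (Fin r) 𝒪}
    (h : (piK (IsLocalRing.maximalIdeal 𝒪) k).mapMatrix X = 0) (i j : Fin r) :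
    X i j ∈ IsLocalRing.maximalIdeal 𝒪 ^ k := by
  have h1 := congrFun (congrFun h i) j
  simp only [RingHom.mapMatrix_apply, Matrix.map_apply, Matrix.zero_apply] at h1
  exact Ideal.Quotient.eq_zero_iff_mem.mp h1

/-- a matrix with entries in an ideal maps vectors to vectors with entries in the ideal -/
theorem mulVec_mem_of_entries {r : ℕ} {I : Ideal 𝒪} {X : Matrix (Fin r) (Fin r) 𝒪}
    (h : ∀ i j, X i j ∈ I) (g : Fin r → 𝒪) (i : Fin r) : X.mulVec g i ∈ I := by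
  simp only [Matrix.mulVec, dotProduct]
  exact Ideal.sum_mem _ fun j _ => Ideal.mul_mem_right _ _ (h i j)

/-- **(T3) on vectors**: if `x g = B₀ g₀ + B₁ g₁` with `x ≠ 0`, then `(ρL(τ) - a) g` has
entries in the maximal ideal. -/
theorem vec_OrdNew (hT3 : Stmt_TorsOrdNew M p) (hp2 : p ≠ 2) (hpM : ¬ p ∣ M)
    (hS : ∀ l : ℕ, l.Prime → l ∣ M * p → l ∈ S)
    {A : ValuationSubring (AlgebraicClosure ℚ)} (hA : A.LiesOverPrime p)
    {τ σ₀ σ₁ : GQ} (hτ : τ ∈ A.inertiaSubgroupIn ℚ) (hσ₀ : σ₀ ∈ A.inertiaSubgroupIn ℚ)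
    (hσ₁ : K1Test A M p σ₁) (a : ℕ)
    (ha : ∀ ζ : AlgebraicClosure ℚ, ζ ^ p = 1 → τ ζ = ζ ^ a)
    {w : FreeAlgebra ℤ (Gen S)} (hw : wordSH M S w = 0)
    {x : 𝒪} (hx : x ≠ 0) (g g₀ g₁ : Fin C.r → 𝒪)
    (hg : x • g = ((L.ρL σ₀ - 1) * Mc 𝒪 C.M (wordSH (M * p) S w)).mulVec g₀ +
      ((L.ρL σ₁ - 1) * Mc 𝒪 C.M (wordSH (M * p) S w)).mulVec g₁) (i : Fin C.r) :
    (L.ρL τ - ((a : ℕ) : Matrix (Fin C.r) (Fin C.r) 𝒪)).mulVec g i ∈
      IsLocalRing.maximalIdeal 𝒪 := by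
  obtain ⟨k, hk1, hk⟩ := exists_pow_cancel hx
  obtain ⟨k', rfl⟩ : ∃ k', k = 1 + k' := ⟨k - 1, by omega⟩
  obtain ⟨D', hD₀, hD₁⟩ := limit_OrdNew L hT3 hp2 hpM hS hA hτ hσ₀ hσ₁ a ha hw k'
  set T : Matrix (Fin C.r) (Fin C.r) 𝒪 := L.ρL τ - ((a : ℕ) : Matrix (Fin C.r) (Fin C.r) 𝒪)
    with hT
  set B₀ : Matrix (Fin C.r) (Fin C.r) 𝒪 := (L.ρL σ₀ - 1) * Mc 𝒪 C.M (wordSH (M * p) S w)
    with hB₀
  set B₁ : Matrix (Fin C.r) (Fin C.r) 𝒪 := (L.ρL σ₁ - 1) * Mc 𝒪 C.M (wordSH (M * p) S w)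
    with hB₁
  -- the error terms
  have hE₀ := mulVec_mem_of_entries (mem_of_piK_mapMatrix_eq_zero hD₀) g₀ i
  have hE₁ := mulVec_mem_of_entries (mem_of_piK_mapMatrix_eq_zero hD₁) g₁ i
  have hsum : x * (T.mulVec g i - (p : 𝒪) * D'.mulVec g i) =
      (T * B₀ - p • (D' * B₀)).mulVec g₀ i + (T * B₁ - p • (D' * B₁)).mulVec g₁ i := by
    have e1 : T.mulVec (x • g) = x • T.mulVec g := Matrix.mulVec_smul _ _ _
    have e2 : D'.mulVec (x • g) = x • D'.mulVec g := Matrix.mulVec_smul _ _ _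
    have e3 : T.mulVec (x • g) - p • D'.mulVec (x • g) =
        (T * B₀ - p • (D' * B₀)).mulVec g₀ + (T * B₁ - p • (D' * B₁)).mulVec g₁ := by
      rw [hg]
      simp only [Matrix.sub_mulVec, Matrix.mulVec_add, Matrix.smul_mulVec, Matrix.mulVec_mulVec,
        smul_add]
      abel
    have e4 := congrFun e3 i
    rw [e1, e2] at e4
    have e5 : x * T.mulVec g i - p • (x * D'.mulVec g i) =
        (T * B₀ - p • (D' * B₀)).mulVec g₀ i + (T * B₁ - p • (D' * B₁)).mulVec g₁ i := e4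
    rw [← e5, nsmul_eq_mul]
    ring
  have h1 : x * (T.mulVec g i - (p : 𝒪) * D'.mulVec g i) ∈
      IsLocalRing.maximalIdeal 𝒪 ^ (1 + k') := by
    rw [hsum]
    exact Ideal.add_mem _ hE₀ hE₁
  have h2 := hk _ h1
  have h3 : T.mulVec g i = (T.mulVec g i - (p : 𝒪) * D'.mulVec g i) +
      (p : 𝒪) * D'.mulVec g i := by ring
  rw [h3]
  exact Ideal.add_mem _ h2 (Ideal.mul_mem_right _ _ hp)

end Vec

end Fermat.Agent.S33.New.H54
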