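import Fermat.Agent.S33.New.H86_Core
import Fermat.Agent.S33.New.H54_Level
import Fermat.Agent.BAD.H91_Rho

/-!
# S33 / S59, package STRICT (helper36): the Kummer form of (FROB2), interface statements

Level `N = M p`, `p ∤ M`, `A` a valuation ring of `ℚ̄` over `p`, `g ∈ G_ℚ` (in the application
`g = σ²`, `σ` in the decomposition group of `A`).

* `Frob2Core A M p g` : **(FROB2), Kummer form**: if `f ≠ 0` has divisor divisible by `n = p^k`
  and its norms along the two degeneracy maps are `n`-th powers up to constants, then a constant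
  multiple of `g f / f` is, up to an `n`-th power, a function of the Gauss valuation ring with
  reduction `1`.
* `Stmt_Frob2Tame` : (FROB2) at the tame `(M, p)`, for `g = σ²`, `σ` in the decomposition group
  (first half of `S35.H89.st_abs`; file `H36_Frob2Mod.lean`).
* `Stmt_Frob2Desc3` : descent of the Kummer form from level `2 M · 3` to level `M · 3`.
  [hypotheses lift by base change of the norm (`S35.H44.norm_alpha_up`, `norm_beta_up`); the
  conclusion descends because the residue field extension `k(X₀(2M)) / k(X₀(M))` is separable: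
  `h ∈ F~_{6M}`, `h ^ (3^k) ∈ F~_{3M}` implies `h ∈ F~_{3M}`.]
* `k1Test_of_core` (file `H36_Frob2Mod.lean`) : `Frob2Core A M p g → H54.K1Test A M p g`.

Definitions only.
-/

set_option autoImplicit false

noncomputable section

open AlgebraicCurve ModularCurve Fermat.Agent.S28.H73 Fermat.Agent.RED.H73

namespace Fermat.Agent.S33.New.H36

open Fermat.Agent.BAD Fermat.Agent.S33.New.H86

local notation "Kb" => AlgebraicClosure ℚ

/-- **(FROB2), Kummer form**, at level `M p` for `g ∈ G_ℚ`. -/
def Frob2Core (A : ValuationSubring Kb) (M p : ℕ) [NeZero M] [NeZero p] (g : GalQ) : Prop :=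
  ∀ (k : ℕ) (f : ↥(FNbar (M * p))), f ≠ 0 →
    (∀ P : Place Kb ↥(FNbar (M * p)), ((p ^ k : ℕ) : ℤ) ∣ P.ord f) →
    IsNormPow (heckeAlphaBar Kb M p) (p ^ k) f →
    IsNormPow (heckeBetaBar Kb M p) (p ^ k) f →
    ∃ (c : Kb) (t : ↥(FNbar (M * p))), c ≠ 0 ∧ t ≠ 0 ∧
      ∃ h : algebraMap Kb ↥(FNbar (M * p)) c * ((galF (M * p) g • f) / f) * t ^ (p ^ k)
          ∈ gaussV A (M * p),
        gaussRes A (M * p) ⟨_, h⟩ = 1

/-- **(FROB2) at the tame levels**: `g = σ²` for `σ` in the decomposition group. -/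
def Stmt_Frob2Tame : Prop :=
  ∀ (M p : ℕ) [NeZero M] [NeZero p], p.Prime → ¬ p ∣ M → H91.TameAt M p →
    ∀ A : ValuationSubring Kb, A.LiesOverPrime p →
      ∀ σ ∈ A.decompositionSubgroup ℚ, Frob2Core A M p (σ * σ)

/-- **Descent of (FROB2)** from level `2 M · 3` to level `M · 3`. -/
def Stmt_Frob2Desc3 : Prop :=
  ∀ (M : ℕ) [NeZero M] [NeZero (2 * M)], ¬ 2 ∣ M → ¬ 3 ∣ M →
    ∀ A : ValuationSubring Kb, A.LiesOverPrime 3 →
      ∀ g : GalQ, Frob2Core A (2 * M) 3 g → Frob2Core A M 3 g

end Fermat.Agent.S33.New.H36
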