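import Fermat.Agent.BAD.H73_Beta

/-!
# S33 / S59, package STRICT (helper36): the decomposition group acts on the reductions through
powers of the coefficientwise Frobenius

`k` a field of characteristic `q`, algebraic over the prime field (`∀ c, ∃ f > 0, c^(q^f) = c`).

* `fixF q f` : the finite subfield `{c | c ^ (q ^ f) = c}` of `k`;
* `exists_pow_of_ringHom` : a ring endomorphism `s` of `k` acts on `fixF q f` as a power of the
  Frobenius (`Gal(𝔽_{q^f} / 𝔽_q)` is generated by Frobenius);
* `CoeffFix q f x` : all coefficients of the Laurent series `x` lie in `fixF q f`;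
* `exists_coeffFix_of_mem_adjoin` : every element of a field generated over `k` by series with
  coefficients in the prime field has its coefficients in some `fixF q f`;
* `exists_coeffMap_eq_pow` : for such a series `x` and a ring endomorphism `s` of `k`,
  `coeffMap s x` is obtained by raising the coefficients of `x` to the power `q ^ m`.
-/

set_option autoImplicit false
set_option linter.style.haveILetI false

noncomputable section

open ModularCurve AlgebraicCurve

namespace Fermat.Agent.S33.New.H36

section Fin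

variable {k : Type*} [Field k] (q : ℕ) [hq : Fact q.Prime] [CharP k q]

/-- The finite subfield `{c | c ^ (q ^ f) = c}`. -/
def fixF (f : ℕ) : Subfield k := (iterateFrobenius k q f).eqLocusField (RingHom.id k)

theorem mem_fixF {f : ℕ} {c : k} : c ∈ fixF (k := k) q f ↔ c ^ (q ^ f) = c := by
  unfold fixF
  rw [RingHom.mem_eqLocusField, iterateFrobenius_def, RingHom.id_apply]

theorem finite_fixF {f : ℕ} (hf : 0 < f) : Finite (fixF (k := k) q f) := by
  classical
  have hne : (Polynomial.X ^ q ^ f - Polynomial.X : Polynomial k) ≠ 0 :=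
    FiniteField.X_pow_card_pow_sub_X_ne_zero k hf.ne' hq.out.one_lt
  have hsub : (fixF (k := k) q f : Set k) ⊆
      ((Polynomial.X ^ q ^ f - Polynomial.X : Polynomial k).roots.toFinset : Set k) := by
    intro c hc
    have hc' : c ^ (q ^ f) = c := (mem_fixF q).mp hc
    simp only [Finset.mem_coe, Multiset.mem_toFinset, Polynomial.mem_roots hne,
      Polynomial.IsRoot, Polynomial.eval_sub, Polynomial.eval_pow, Polynomial.eval_X]
    rw [hc', sub_self]
  exact Set.Finite.subset (Finset.finite_toSet _) hsub

/-- A ring endomorphism of a field of characteristic `q` acts on the finite subfield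
`{c | c ^ (q ^ f) = c}` as a power of the Frobenius. -/
theorem exists_pow_of_ringHom (s : k →+* k) {f : ℕ} (hf : 0 < f) :
    ∃ m : ℕ, ∀ c : k, c ^ (q ^ f) = c → s c = c ^ (q ^ m) := by
  classical
  let L : Subfield k := fixF (k := k) q f
  haveI : Finite L := finite_fixF q hf
  haveI : CharP L q := by
    refine (RingHom.charP_iff (L.subtype) L.subtype_injective q).mpr ?_
    infer_instance
  letI : Algebra (ZMod q) L := ZMod.algebra L q
  have hmem : ∀ c : L, s (c : k) ∈ L := by
    intro c
    show s (c : k) ∈ fixF (k := k) q f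
    rw [mem_fixF, ← map_pow, (mem_fixF q).mp c.2]
  let s' : L →+* L := (s.comp L.subtype).codRestrict L hmem
  let sA : L →ₐ[ZMod q] L :=
    { s' with
      commutes' := fun z => by
        have h : s'.comp (algebraMap (ZMod q) L) = algebraMap (ZMod q) L :=
          Subsingleton.elim _ _
        exact congrArg (fun g : ZMod q →+* L => g z) h }
  obtain ⟨n, hn⟩ := (FiniteField.bijective_frobeniusAlgHom_pow (ZMod q) L).2 sA
  refine ⟨n.1, fun c hc => ?_⟩
  have hcL : c ∈ L := (mem_fixF q).mpr hc
  have h1 : sA ⟨c, hcL⟩ = (FiniteField.frobeniusAlgHom (ZMod q) L ^ n.1) ⟨c, hcL⟩ := by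
    rw [← hn]
  have h2 : ((sA ⟨c, hcL⟩ : L) : k) = s c := rfl
  rw [← h2, h1, AlgHom.coe_pow, FiniteField.coe_frobeniusAlgHom, pow_iterate, ZMod.card]
  rfl

/-- `c ^ (q ^ f) = c` implies `c ^ (q ^ (f * g)) = c`. -/
theorem pow_fix_mul {c : k} {f : ℕ} (h : c ^ (q ^ f) = c) (g : ℕ) : c ^ (q ^ (f * g)) = c := by
  induction g with
  | zero => simp
  | succ g ih =>
    rw [Nat.mul_succ, pow_add, pow_mul, ih, h]

/-- All coefficients of `x` lie in the finite field `fixF q f`. -/
def CoeffFix (f : ℕ) (x : LaurentSeries k) : Prop := ∀ n : ℤ, x.coeff n ^ (q ^ f) = x.coeff n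

theorem coeffFix_iff (f : ℕ) (x : LaurentSeries k) :
    CoeffFix q f x ↔ coeffMap (iterateFrobenius k q f) x = x := by
  constructor
  · intro h
    ext n
    rw [coeffMap_coeff, iterateFrobenius_def]
    exact h n
  · intro h n
    have := congrArg (fun y : LaurentSeries k => y.coeff n) h
    simp only [coeffMap_coeff, iterateFrobenius_def] at this
    exact this

theorem CoeffFix.mono {f : ℕ} {x : LaurentSeries k} (h : CoeffFix q f x) (g : ℕ) :
    CoeffFix q (f * g) x := fun n => pow_fix_mul q (h n) g

theorem CoeffFix.add {f : ℕ} {x y : LaurentSeries k} (hx : CoeffFix q f x)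
    (hy : CoeffFix q f y) : CoeffFix q f (x + y) := by
  rw [coeffFix_iff] at hx hy ⊢
  rw [map_add, hx, hy]

theorem CoeffFix.mul {f : ℕ} {x y : LaurentSeries k} (hx : CoeffFix q f x)
    (hy : CoeffFix q f y) : CoeffFix q f (x * y) := by
  rw [coeffFix_iff] at hx hy ⊢
  rw [map_mul, hx, hy]

theorem CoeffFix.inv {f : ℕ} {x : LaurentSeries k} (hx : CoeffFix q f x) :
    CoeffFix q f x⁻¹ := by
  rw [coeffFix_iff] at hx ⊢
  rw [map_inv₀, hx]

theorem coeffFix_algebraMap {f : ℕ} {c : k} (h : c ^ (q ^ f) = c) (hf : 0 < f) :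
    CoeffFix q f (algebraMap k (LaurentSeries k) c) := by
  rw [coeffFix_iff, Fermat.Agent.BAD.H73.algebraMap_eq_single, coeffMap_single,
    iterateFrobenius_def, h]

/-- Every element of a field generated over `k` (algebraic over the prime field) by series with
coefficients fixed by Frobenius has its coefficients in a finite field. -/
theorem exists_coeffFix_of_mem_adjoin (hk : ∀ c : k, ∃ f : ℕ, 0 < f ∧ c ^ (q ^ f) = c)
    (S : Set (LaurentSeries k)) (hS : ∀ s ∈ S, CoeffFix q 1 s) {x : LaurentSeries k}
    (hx : x ∈ IntermediateField.adjoin k S) : ∃ f : ℕ, 0 < f ∧ CoeffFix q f x := by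
  induction hx using IntermediateField.adjoin_induction with
  | mem x hx => exact ⟨1, Nat.one_pos, hS x hx⟩
  | algebraMap c =>
    obtain ⟨f, hf, hc⟩ := hk c
    exact ⟨f, hf, coeffFix_algebraMap q hc hf⟩
  | add x y _ _ hx hy =>
    obtain ⟨f, hf, hx⟩ := hx
    obtain ⟨g, hg, hy⟩ := hy
    refine ⟨f * g, Nat.mul_pos hf hg, (hx.mono q g).add q ?_⟩
    rw [mul_comm]
    exact hy.mono q f
  | inv x _ hx =>
    obtain ⟨f, hf, hx⟩ := hx
    exact ⟨f, hf, hx.inv q⟩
  | mul x y _ _ hx hy =>
    obtain ⟨f, hf, hx⟩ := hx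
    obtain ⟨g, hg, hy⟩ := hy
    refine ⟨f * g, Nat.mul_pos hf hg, (hx.mono q g).mul q ?_⟩
    rw [mul_comm]
    exact hy.mono q f

/-- For a series with coefficients in a finite field, a coefficientwise ring endomorphism is a
coefficientwise power of Frobenius. -/
theorem exists_coeffMap_eq_pow (s : k →+* k) {f : ℕ} (hf : 0 < f) :
    ∃ m : ℕ, ∀ x : LaurentSeries k, CoeffFix q f x →
      coeffMap s x = coeffMap (iterateFrobenius k q m) x := by
  obtain ⟨m, hm⟩ := exists_pow_of_ringHom q s hf
  refine ⟨m, fun x hx => ?_⟩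
  ext n
  rw [coeffMap_coeff, coeffMap_coeff, iterateFrobenius_def]
  exact hm _ (hx n)

/-- `CoeffFix` is preserved by coefficientwise ring endomorphisms. -/
theorem CoeffFix.coeffMap {f : ℕ} {x : LaurentSeries k} (hx : CoeffFix q f x) (s : k →+* k) :
    CoeffFix q f (ModularCurve.coeffMap s x) := by
  intro n
  rw [coeffMap_coeff, ← map_pow, hx n]

end Fin

end Fermat.Agent.S33.New.H36
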