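import Fermat.Agent.S33.New.H36_Frob2Abs
import Fermat.Agent.S33.New.H36_FrobFin
import Fermat.Agent.S33.New.H36_Frob2Defs
import Fermat.Agent.S35.H89_ModStFinal
import Fermat.Agent.S35.H44_TotFrobMod
import Fermat.Agent.FL.H38_UnrConst
attribute [local instance 10000] SubalgebraClass.toAlgebra
attribute [local instance 10000] HahnSeries.powerSeriesAlgebra

/-!
# S33 / S59, package STRICT (helper36): (FROB2) at the tame levels

`q ∤ M` tame, `A` over `q`, `σ` in the decomposition group of `A`.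

* `kV_pow_fix` : the residue field of `A` is a union of finite fields;
* `coeffFix_F1` : every function of `F₁` has its coefficients in a finite field;
* `red1_galF_sq_dec` : `red₁ (σ² f) = (φ̄²)^m (red₁ f)` for some `m` (depending on `f`);
* `isPrincipal_of_isNormPow`, `new_of_cons` : from the Kummer form of newness to the reduced form
  (via helper89's `cons_alpha`, `cons_beta`);
* `stmt_Frob2Tame : Stmt_Frob2Tame` : instance of the abstract core `frob2_abs` at the modular
  total conservation datum `S35.H89.modTot`.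
-/

set_option autoImplicit false
set_option linter.style.haveILetI false
set_option linter.unusedSectionVars false
set_option synthInstance.maxHeartbeats 400000
set_option maxHeartbeats 1000000

noncomputable section

open HahnSeries IntermediateField AlgebraicCurve ModularCurve
open Fermat.Agent.S28.H73 Fermat.Agent.RED.H73 Fermat.Agent.RED Fermat.Agent.S24
open Fermat.Agent.BAD.H88 Fermat.Agent.BAD Fermat.Agent.S35.H89

namespace Fermat.Agent.S33.New.H36

section Dec

variable (A : ValuationSubring Kbar) (q M : ℕ) (a b : ℤ) (hab : a * q + b * M = 1)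
  (hq : q.Prime) [NeZero M] [NeZero (M * q)] (hA : A.LiesOverPrime q)

include hq hA in
/-- The residue field of `A` is a union of finite fields. -/
theorem kV_pow_fix (c : kV A) : ∃ f : ℕ, 0 < f ∧ c ^ (q ^ f) = c := by
  classical
  haveI : Fact q.Prime := ⟨hq⟩
  haveI := Fermat.Agent.FL.H38.charP_residue A hq hA
  letI : Algebra (ZMod q) (IsLocalRing.ResidueField A) := ZMod.algebra _ q
  obtain ⟨x, rfl⟩ := IsLocalRing.residue_surjective c
  have halg : IsAlgebraic (ZMod q) (IsLocalRing.residue A x) := by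
    obtain ⟨R, hR0, hR⟩ := Fermat.Agent.FL.H38.isAlgebraic_residue A (ℓ := q) x
    exact ⟨R, hR0, hR⟩
  have hint : IsIntegral (ZMod q) (IsLocalRing.residue A x) := halg.isIntegral
  haveI : FiniteDimensional (ZMod q) (ZMod q)⟮IsLocalRing.residue A x⟯ :=
    IntermediateField.adjoin.finiteDimensional hint
  haveI : Finite (ZMod q)⟮IsLocalRing.residue A x⟯ := Module.finite_of_finite (ZMod q)
  letI : Fintype (ZMod q)⟮IsLocalRing.residue A x⟯ := Fintype.ofFinite _
  set y : (ZMod q)⟮IsLocalRing.residue A x⟯ :=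
    ⟨IsLocalRing.residue A x, IntermediateField.mem_adjoin_simple_self _ _⟩ with hy
  obtain ⟨n, -, hn⟩ := FiniteField.card (ZMod q)⟮IsLocalRing.residue A x⟯ q
  have h1 := FiniteField.pow_card y
  rw [hn] at h1
  refine ⟨n, n.pos, ?_⟩
  have h2 := congrArg Subtype.val h1
  simpa using h2

include hab hq hA in
/-- Every function of `F₁` has its coefficients in a finite field. -/
theorem coeffFix_F1 (ψ : F1 A q M) :
    ∃ f : ℕ, 0 < f ∧ ∀ n : ℤ, (ψ : LaurentSeries (kV A)).coeff n ^ (q ^ f)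
      = (ψ : LaurentSeries (kV A)).coeff n := by
  haveI : Fact q.Prime := ⟨hq⟩
  haveI := BAD.H82.charP_kV A hq hA
  have hmem : (ψ : LaurentSeries (kV A)) ∈ modularFunctionFieldFullC (kV A) M := by
    rw [← H82.redField_eq_fullC q M a b hab hq A hA]
    exact ψ.2
  obtain ⟨f, hf, hfix⟩ := exists_coeffFix_of_mem_adjoin q (kV_pow_fix A q hq hA) _ (by
    rintro s ⟨d, hd, -, rfl⟩
    rw [coeffFix_iff, iterateFrobenius_one, coeffMap_qExpand, coeffMap_jqModC]) hmem
  exact ⟨f, hf, hfix⟩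

/-- The coefficients of the iterates of `φ̄²`. -/
theorem coe_iter_phi_coeff (m : ℕ) (ψ : F1 A q M) (n : ℤ) :
    ((((fun y : F1 A q M => phiSemiMod A q M a b hab hq hA •
        (phiSemiMod A q M a b hab hq hA • y))^[m] ψ : F1 A q M)) : LaurentSeries (kV A)).coeff n
      = (ψ : LaurentSeries (kV A)).coeff n ^ (q ^ (2 * m)) := by
  induction m generalizing ψ with
  | zero => simp
  | succ m ih =>
    rw [Function.iterate_succ_apply, ih, phiSemiMod_smul, phiSemiMod_smul,
      BAD.H73.coe_phiF1_coeff, BAD.H73.coe_phiF1_coeff, ← pow_mul, ← pow_mul]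
    congr 1
    ring

/-- **The decomposition group acts on the first reduction by powers of `φ̄²`** (squares of its
elements). -/
theorem red1_galF_sq_dec {σ : GalQ} (hσ : σ ∈ A.decompositionSubgroup ℚ) (f : FN (M * q))
    (h : f ∈ V1 A q M) (h' : galF (M * q) (σ * σ) • f ∈ V1 A q M) :
    ∃ m : ℕ, red1 A q M ⟨_, h'⟩
      = (fun y : F1 A q M => phiSemiMod A q M a b hab hq hA •
          (phiSemiMod A q M a b hab hq hA • y))^[m] (red1 A q M ⟨f, h⟩) := by
  haveI : Fact q.Prime := ⟨hq⟩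
  haveI := BAD.H82.charP_kV A hq hA
  have h1 : galF (M * q) σ • f ∈ V1 A q M := S35.H44.galF_mem_V1 A q M hσ h
  have h2 : galF (M * q) σ • (galF (M * q) σ • f) ∈ V1 A q M :=
    S35.H44.galF_mem_V1 A q M hσ h1
  have e := galF_sq_smul q M σ f
  have e' : (⟨galF (M * q) (σ * σ) • f, h'⟩ : ↥(V1 A q M))
      = ⟨galF (M * q) σ • (galF (M * q) σ • f), h2⟩ := Subtype.ext e
  obtain ⟨f₀, hf₀, hfix⟩ := coeffFix_F1 A q M a b hab hq hA (red1 A q M ⟨f, h⟩)
  obtain ⟨m, hm⟩ := exists_coeffMap_eq_pow q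
    (H33.autkHom A σ.toRingEquiv (H33.mem_iff_of_mem_decompositionSubgroup A hσ)) hf₀
  have hfix' : CoeffFix q f₀ ((red1 A q M ⟨f, h⟩ : F1 A q M) : LaurentSeries (kV A)) := hfix
  refine ⟨m, ?_⟩
  apply Subtype.ext
  rw [e', S35.H44.coe_red1_galF A q M hσ _ h1 h2, S35.H44.coe_red1_galF A q M hσ f h h1,
    hm _ hfix', hm _ (hfix'.coeffMap q _)]
  ext n
  rw [coe_iter_phi_coeff, coeffMap_coeff, coeffMap_coeff, iterateFrobenius_def,
    iterateFrobenius_def, ← pow_mul, ← _root_.pow_add]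
  congr 2
  ring

end Dec

section Generic

variable {K F F' : Type} [Field K] [Field F] [Field F'] [Algebra K F] [Algebra K F']

/-- If `n D = div f` and the norm of `f` is a constant times an `n`-th power, the push-forward
of `D` is principal. -/
theorem isPrincipal_of_isNormPow (φ : F →ₐ[K] F')
    (hφ : φ.toRingHom.IsIntegral) (hfin : FiniteAlong K φ) (hN : NormFormulaAlong K φ hfin)
    (n : ℕ) (hn : 0 < n) (D : Divisor K F') (f : F') (hf : f ≠ 0)
    (hD : ∀ P : Place K F', (n : ℤ) * D P = P.ord f)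
    (hnorm : S33.New.H86.IsNormPow φ n f) :
    (Divisor.pushforwardAlong φ hφ D).IsPrincipal := by
  obtain ⟨t, c, htc⟩ := hnorm
  letI := algebraAlong φ
  haveI := isScalarTower_along φ
  haveI := isIntegral_along φ hφ
  haveI : Module.Finite F F' := hfin
  have hN' : Divisor.PushforwardNormFormula K F F' := hN
  have htc' : Algebra.norm F f = algebraMap K F c * t ^ n := htc
  have hn0 : Algebra.norm F f ≠ 0 := by
    rw [Ne, Algebra.norm_eq_zero_iff]
    exact hf
  have hc0 : c ≠ 0 := by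
    rintro rfl
    rw [map_zero, zero_mul] at htc'
    exact hn0 htc'
  have ht0 : t ≠ 0 := by
    rintro rfl
    rw [zero_pow hn.ne', mul_zero] at htc'
    exact hn0 htc'
  have h1 : ∀ v : Place K F, Divisor.pushforward F (n • D) v = v.ord (Algebra.norm F f) :=
    hN' f hf (n • D) (fun w => by
      rw [Finsupp.smul_apply, ← hD w]
      simp)
  refine ⟨t, ht0, fun v => ?_⟩
  have h2 := h1 v
  rw [map_nsmul, Finsupp.smul_apply, htc', Fermat.Agent.RED.H17.ord_algebraMap_mul v hc0] at h2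
  have h3 := Place.ord_zpow v t (n : ℤ)
  rw [zpow_natCast] at h3
  rw [h3, nsmul_eq_mul] at h2
  have hnZ : (n : ℤ) ≠ 0 := by exact_mod_cast hn.ne'
  exact mul_left_cancel₀ hnZ h2

variable {k E : Type} [Field k] [Field E] [Algebra k E]

/-- From conservation for a divisor `D` with `n D = div f` to the reduced form of newness. -/
theorem new_of_cons (H : Fermat.Agent.RED.H17.FFHyp K F') (n : ℕ) (hn : 0 < n) (f : F')
    (hdiv : ∀ P : Place K F', (n : ℤ) ∣ P.ord f)
    (r : Place K F' → Place k E)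
    (hcons : ∀ D : Divisor K F', (∀ P : Place K F', (n : ℤ) * D P = P.ord f) →
      ∃ h : E, h ≠ 0 ∧ ∀ z : Place k E, Finsupp.mapDomain r D z = z.ord h) :
    ∃ h : E, h ≠ 0 ∧ ∀ D : Divisor K F', (∀ P, D P = P.ord f) →
      ∀ z : Place k E, Finsupp.mapDomain r D z = n * z.ord h := by
  have hnZ : (n : ℤ) ≠ 0 := by exact_mod_cast hn.ne'
  set D₀ : Divisor K F' := Fermat.Agent.RED.H17.dv H.principal f with hD₀
  set D₁ : Divisor K F' := D₀.mapRange (fun x => x / (n : ℤ)) (by simp) with hD₁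
  have hD₁' : ∀ P : Place K F', (n : ℤ) * D₁ P = P.ord f := by
    intro P
    rw [hD₁, Finsupp.mapRange_apply, hD₀, Fermat.Agent.RED.H17.dv_apply]
    exact Int.mul_ediv_cancel' (hdiv P)
  obtain ⟨h, hh0, hh⟩ := hcons D₁ hD₁'
  refine ⟨h, hh0, fun D hD z => ?_⟩
  have e : D = (n : ℤ) • D₁ := by
    ext P
    rw [hD P, Finsupp.smul_apply, smul_eq_mul, hD₁' P]
  rw [e, Finsupp.mapDomain_smul, Finsupp.smul_apply, hh z, smul_eq_mul]

end Generic

/-- **(FROB2) at the tame levels.** -/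
theorem stmt_Frob2Tame : Stmt_Frob2Tame := by
  intro M p _ _ hp hpM ht A hA σ hσ k f hf hdiv hNα hNβ
  haveI : NeZero (M * p) := ⟨Nat.mul_ne_zero (NeZero.ne M) hp.ne_zero⟩
  haveI : IsAlgClosed (kV A) := isAlgClosed_kV A
  obtain ⟨a₀, b₀, hab⟩ : ∃ a b : ℤ, a * p + b * M = 1 := by
    have hcop : Nat.Coprime p M := (Nat.Prime.coprime_iff_not_dvd hp).2 hpM
    obtain ⟨a, b, h⟩ := Nat.isCoprime_iff_coprime.2 hcop
    exact ⟨a, b, h⟩
  have H : Fermat.Agent.RED.H17.FFHyp Kbar (FN (M * p)) := S33.New.H86.ffHyp_FNbar (M * p)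
  have HE : Fermat.Agent.RED.H17.FFHyp (kV A) (F1 A p M) :=
    Fermat.Agent.RED.H17.ffHyp_of_isFF _ _ (H91.isFF_F1 a₀ b₀ hab hp hA hpM ht)
  have hn : 0 < p ^ k := pow_pos hp.pos k
  have hτmem : ∀ g : FN (M * p), g ∈ (modTot A p M a₀ b₀ hab hp hA hpM ht).b₁.V →
      galF (M * p) (σ * σ) • g ∈ (modTot A p M a₀ b₀ hab hp hA hpM ht).b₁.V := by
    intro g hg
    rw [galF_sq_smul p M σ g]
    exact S35.H44.galF_mem_V1 A p M hσ (S35.H44.galF_mem_V1 A p M hσ hg)
  have hnewα := new_of_cons (k := kV A) (E := F1 A p M) H (p ^ k) hn f hdiv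
    (H91.rhoF1 a₀ b₀ hab hp hA hpM ht) (fun D hD =>
      cons_alpha A p M a₀ b₀ hab hp hA hpM ht (S36.H44.alpha_integral M p) D
        (isPrincipal_of_isNormPow (heckeAlphaBar Kbar M p) (S36.H44.alpha_integral M p)
          (S36.H44.alpha_finite M p) (S36.H44.alpha_norm M p) (p ^ k) hn D f hf hD hNα))
  have hnewβ := new_of_cons (k := kV A) (E := F1 A p M) H (p ^ k) hn f hdiv
    (fun P => H91.rhoF1 a₀ b₀ hab hp hA hpM ht (wq p M a₀ b₀ hab hp • P)) (fun D hD =>
      cons_beta A p M a₀ b₀ hab hp hA hpM ht (S36.H44.beta_integral M p) D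
        (isPrincipal_of_isNormPow (heckeBetaBar Kbar M p) (S36.H44.beta_integral M p)
          (S36.H44.beta_finite M p) (S36.H44.beta_norm M p) (p ^ k) hn D f hf hD hNβ))
  exact frob2_abs (modTot A p M a₀ b₀ hab hp hA hpM ht).b₁
    (modTot A p M a₀ b₀ hab hp hA hpM ht).b₂ H HE (p ^ k) hn (galF (M * p) (σ * σ))
    (phiSemiMod A p M a₀ b₀ hab hp hA) hτmem
    (fun g h h' => red1_galF_sq_dec A p M a₀ b₀ hab hp hA hσ g h h')
    (H91.rhoF1 a₀ b₀ hab hp hA hpM ht)
    (fun P => H91.rhoF1 a₀ b₀ hab hp hA hpM ht (wq p M a₀ b₀ hab hp • P))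
    (betaMod A p M a₀ b₀ hab hp hA)
    (modTot A p M a₀ b₀ hab hp hA hpM ht).tot
    ((modTot A p M a₀ b₀ hab hp hA hpM ht).mirror_smul (wq p M a₀ b₀ hab hp)
      (wq_wq p M a₀ b₀ hab hp) (fun x => mem_V2_iff A p M a₀ b₀ hab hp x)
      (fun x h₂ h₁ => red2_mk A p M a₀ b₀ hab hp x h₂))
    (S35.H44.betaMod_ord A p M a₀ b₀ hab hp hA) f hf hnewα hnewβ

end Fermat.Agent.S33.New.H36
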