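import Fermat.Agent.S33.New.H51_Desc3Norm
import Fermat.Agent.BAD.H91_Descend

/-!
# S33 leaf L5: descent of the Kummer form of (T3) from level `2 M · 3` to level `M · 3`  (helper51)

`stmt_Desc3 : H86.Stmt_Desc3`.

The function `f ∈ F_{3M}` is seen in `F_{6M}`; the hypotheses transfer:
* Gauss valuation / reduction / divisibility of the divisor: as in `H91.b1core_descend`;
* the norm conditions: `N_{F_{6M} / α F_{2M}} f = N_{F_{3M} / α F_M} f` (and the same for `β`),
  by base change of the norm (`norm_bc_along`: the degrees `4 = [F_{3M} : F_M]` and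
  `3 = [F_{2M} : F_M]` are coprime).
The conclusion descends by Kummer descent (`Stmt_KD`, helper22).
-/

set_option autoImplicit false
set_option linter.style.haveILetI false
set_option linter.unusedSectionVars false
set_option synthInstance.maxHeartbeats 400000
set_option maxHeartbeats 400000

noncomputable section

open HahnSeries IntermediateField AlgebraicCurve ModularCurve
open Fermat.Agent.S28.H73 Fermat.Agent.RED.H73 Fermat.Agent.RED

namespace Fermat.Agent.S33.New.H51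

open Fermat.Agent.BAD Fermat.Agent.S36.H44 Fermat.Agent.S33.New.H86 Fermat.Agent.BAD.H91

local notation "Kb" => AlgebraicClosure ℚ

/-- **L5**: descent of the Kummer form of (T3) from level `2 M · 3` to level `M · 3`. -/
theorem stmt_Desc3 : Stmt_Desc3 := by
  intro M _ _ h2M h3M hbig hp hp2 hpM A hA τ hτ a hζ f hres hdiv hNα hNβ
  have h3M2 : ¬ 3 ∣ 2 * M := by
    intro h
    rcases (Nat.Prime.dvd_mul Nat.prime_three).1 h with h' | h'
    · omega
    · exact h3M h'
  have hNM : M * 3 ∣ 2 * M * 3 := ⟨2, by ring⟩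
  have hM36 : 2 * M * 3 ∣ 36 * (M * 3) := ⟨18, by ring⟩
  have hle : modularFunctionFieldBar (M * 3) ≤ modularFunctionFieldBar (2 * M * 3) :=
    S18.modularFunctionFieldBar_mono hNM
  have hle0 : modularFunctionFieldBar M ≤ modularFunctionFieldBar (2 * M) :=
    S18.modularFunctionFieldBar_mono (Dvd.intro_left 2 rfl)
  have hint : (IntermediateField.inclusion hle).toRingHom.IsIntegral :=
    (H51.stmt_FFB_finite _ _ _ (H95.stmt_HKA_isFF (M * 3)) (H95.stmt_HKA_isFF (2 * M * 3)) _).1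
  set φ : ↥(FNbar (M * 3)) →ₐ[AlgebraicClosure ℚ] ↥(FNbar (2 * M * 3)) :=
    IntermediateField.inclusion hle with hφdef
  set ι : ↥(FNbar M) →ₐ[AlgebraicClosure ℚ] ↥(FNbar (2 * M)) :=
    IntermediateField.inclusion hle0 with hιdef
  set f' : ↥(FNbar (2 * M * 3)) := φ (f : ↥(FNbar (M * 3))) with hf'
  have hcoe : ((f' : ↥(FNbar (2 * M * 3))) : LaurentSeries (AlgebraicClosure ℚ))
      = ((f : ↥(FNbar (M * 3))) : LaurentSeries (AlgebraicClosure ℚ)) :=
    IntermediateField.coe_inclusion hle (f : ↥(FNbar (M * 3)))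
  have hfV : ((f : ↥(FNbar (M * 3))) : LaurentSeries (AlgebraicClosure ℚ)) ∈ gaussRingV A :=
    (mem_gaussValSub_iff A (hasScale_laurentBaseChange A (M * 3)) _).mp f.2
  have hf'V : f' ∈ gaussV A (2 * M * 3) := by
    show ((f' : ↥(FNbar (2 * M * 3))) : LaurentSeries (AlgebraicClosure ℚ)) ∈ gaussRingV A
    rw [hcoe]
    exact hfV
  have hres' : gaussRes A (2 * M * 3) ⟨f', hf'V⟩ = 1 := by
    apply Subtype.ext
    have e1 : gaussResF A (hasScale_laurentBaseChange A (M * 3)) f = 1 :=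
      congrArg Subtype.val hres
    rw [gaussResF_apply] at e1
    show gaussResF A (hasScale_laurentBaseChange A (2 * M * 3)) ⟨f', hf'V⟩ = 1
    rw [gaussResF_apply, ← e1]
    congr 1
  have hdiv' : ∀ P' : Place (AlgebraicClosure ℚ) ↥(FNbar (2 * M * 3)),
      ((3 : ℕ) : ℤ) ∣ P'.ord f' := by
    intro P'
    letI := algebraAlong φ
    haveI := isScalarTower_along φ
    haveI := isIntegral_along φ hint
    have h1 := P'.ord_restrict (F := ↥(FNbar (M * 3))) (f : ↥(FNbar (M * 3)))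
    have h2 : f' = algebraMap ↥(FNbar (M * 3)) ↥(FNbar (2 * M * 3)) (f : ↥(FNbar (M * 3))) := rfl
    rw [h2, h1]
    exact Dvd.dvd.mul_left (hdiv _) _
  -- the norm conditions
  have hNα' : IsNormPow (heckeAlphaBar Kb (2 * M) 3) 3 f' := by
    refine isNormPow_bc (heckeAlphaBar Kb M 3) (heckeAlphaBar Kb (2 * M) 3) ι φ ?_ 4 3
      (by norm_num) (by norm_num) (by norm_num) ?_ ?_ ?_ 3 _ hNα
    · exact incl_comm_alpha M hle hle0
    · exact Fermat.Agent.RED.H95.finrankAlong_alpha Nat.prime_three h3M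
    · exact finrankAlong_incl_two M h2M hle0
    · exact Fermat.Agent.RED.H95.finrankAlong_alpha Nat.prime_three h3M2
  have hNβ' : IsNormPow (heckeBetaBar Kb (2 * M) 3) 3 f' := by
    refine isNormPow_bc (heckeBetaBar Kb M 3) (heckeBetaBar Kb (2 * M) 3) ι φ ?_ 4 3
      (by norm_num) (by norm_num) (by norm_num) ?_ ?_ ?_ 3 _ hNβ
    · exact incl_comm_beta M hle hle0
    · exact Fermat.Agent.RED.H95.finrankAlong_beta Nat.prime_three h3M
    · exact finrankAlong_incl_two M h2M hle0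
    · exact Fermat.Agent.RED.H95.finrankAlong_beta Nat.prime_three h3M2
  obtain ⟨t, ht⟩ := hbig hp hp2 h3M2 A hA τ hτ a hζ ⟨f', hf'V⟩ hres' hdiv' hNα' hNβ'
  -- the quotient `τ f / f ^ a` at level `M * 3`
  have hf0 : ((f : ↥(gaussV A (M * 3))) : ↥(FNbar (M * 3))) ≠ 0 := by
    intro h0
    have e : f = 0 := Subtype.ext h0
    rw [e, map_zero] at hres
    exact zero_ne_one hres
  have hσf0 : galF (M * 3) τ • ((f : ↥(gaussV A (M * 3))) : ↥(FNbar (M * 3))) ≠ 0 := by
    intro h0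
    apply hf0
    have h1 := congrArg (fun z => (galF (M * 3) τ)⁻¹ • z) h0
    simp only [inv_smul_smul, smul_zero] at h1
    exact h1
  have hfa0 : ((f : ↥(gaussV A (M * 3))) : ↥(FNbar (M * 3))) ^ a ≠ 0 := pow_ne_zero _ hf0
  have hdivg : ∀ P : Place (AlgebraicClosure ℚ) ↥(FNbar (M * 3)),
      ((3 : ℕ) : ℤ) ∣ P.ord ((galF (M * 3) τ • ((f : ↥(gaussV A (M * 3))) : ↥(FNbar (M * 3))))
        / ((f : ↥(gaussV A (M * 3))) : ↥(FNbar (M * 3))) ^ a) := by
    intro P
    have h2 : P.ord (((f : ↥(gaussV A (M * 3))) : ↥(FNbar (M * 3))) ^ a)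
        = (a : ℤ) * P.ord ((f : ↥(gaussV A (M * 3))) : ↥(FNbar (M * 3))) := by
      have := Place.ord_zpow P ((f : ↥(gaussV A (M * 3))) : ↥(FNbar (M * 3))) (a : ℤ)
      rw [zpow_natCast] at this
      exact this
    rw [div_eq_mul_inv, Place.ord_mul _ hσf0 (inv_ne_zero hfa0), Place.ord_inv, ord_galF_smul, h2]
    exact dvd_add (hdiv _) ((dvd_neg).2 (Dvd.dvd.mul_left (hdiv _) _))
  refine Fermat.Agent.RED.KD.H22.stmt_KD (M * 3) (2 * M * 3) 3 hNM hM36 (by norm_num) _ hdivg
    ⟨(t : LaurentSeries (AlgebraicClosure ℚ)), t.2, ?_⟩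
  have h3 := congrArg (Subtype.val : ↥(FNbar (2 * M * 3)) → LaurentSeries (AlgebraicClosure ℚ)) ht
  have h4 : ((t : ↥(FNbar (2 * M * 3))) : LaurentSeries (AlgebraicClosure ℚ)) ^ 3
      = ((galF (2 * M * 3) τ • f' : ↥(FNbar (2 * M * 3))) : LaurentSeries (AlgebraicClosure ℚ))
        / ((f' : ↥(FNbar (2 * M * 3))) : LaurentSeries (AlgebraicClosure ℚ)) ^ a := h3
  rw [h4]
  show ((galF (2 * M * 3) τ • f' : ↥(FNbar (2 * M * 3))) : LaurentSeries (AlgebraicClosure ℚ))
      / ((f' : ↥(FNbar (2 * M * 3))) : LaurentSeries (AlgebraicClosure ℚ)) ^ a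
    = ((galF (M * 3) τ • ((f : ↥(gaussV A (M * 3))) : ↥(FNbar (M * 3))) : ↥(FNbar (M * 3))) :
        LaurentSeries (AlgebraicClosure ℚ))
      / (((f : ↥(gaussV A (M * 3))) : ↥(FNbar (M * 3))) : LaurentSeries (AlgebraicClosure ℚ)) ^ a
  rw [coe_arithmeticGalois_smul, coe_arithmeticGalois_smul, hcoe]

end Fermat.Agent.S33.New.H51
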