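import Fermat.Agent.S33.New.H86_Leaves
import Fermat.Agent.BADP.H86_AbsP
import Fermat.Agent.BAD.H91_ModSSD
import Fermat.Agent.BADP.H97_Bridge

/-!
# S33, the `p`-new case: assembly of the Kummer form of (T3) at the tame levels  (helper86)

* `exists_modSSD` : the modular semistable Deuring datum of level `M p` at `A` over `p` (tame),
  with its two valuation rings `V₁`, `V₂` and reductions `red₁`, `red₂` explicit.
* `core_tame : Stmt_ABSP → Stmt_NormWq → Stmt_Red2 → Stmt_PW1 → TameAt M p →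
  Stmt_TorsOrdNewCore M p`.
* `core_all` : with `Stmt_Desc3`, at all `(M, p)`.
* `torsOrdNew_all` : `H54.Stmt_TorsOrdNew M p` at all `(M, p)`.
-/

set_option autoImplicit false
set_option linter.style.haveILetI false
set_option linter.unusedSectionVars false
set_option synthInstance.maxHeartbeats 400000
set_option maxHeartbeats 1000000

noncomputable section

open HahnSeries IntermediateField AlgebraicCurve ModularCurve
open Fermat.Agent.S28.H73 Fermat.Agent.RED.H73 Fermat.Agent.RED Fermat.Agent.S24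
open Fermat.Agent.BAD.H88

namespace Fermat.Agent.S33.New.H86

open Fermat.Agent.BAD

/-- **The modular semistable Deuring datum**, explicit form. -/
theorem exists_modSSD (A : ValuationSubring Kbar) (q M : ℕ) (a b : ℤ)
    (hab : a * q + b * M = 1) (hq : q.Prime) [NeZero M] [NeZero (M * q)] [NeZero q]
    (hA : A.LiesOverPrime q) (hqM : ¬ q ∣ M) (ht : H91.TameAt M q) :
    ∃ (S : SSD Kbar (FN (M * q)) (kV A) (F1 A q M) (F1 A q M))
      (_ : RED.H17.FFHyp Kbar (FN (M * q))) (_ : RED.H17.FFHyp (kV A) (F1 A q M))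
      (g g₁ : ℕ) (c c₁ : ℤ),
      RED.H17.IsGenus Kbar (FN (M * q)) g c ∧
      RED.H17.IsGenus (kV A) (F1 A q M) g₁ c₁ ∧
      g + 1 ≤ g₁ + g₁ + S.nodes.card ∧
      S.c₁.V = V1 A q M ∧ S.c₂.V = V2 A q M a b hab hq ∧
      (∀ (f : FN (M * q)) (h : f ∈ S.c₁.V) (h' : f ∈ V1 A q M),
        S.c₁.red ⟨f, h⟩ = red1 A q M ⟨f, h'⟩) ∧
      (∀ (f : FN (M * q)) (h : f ∈ S.c₂.V) (h' : f ∈ V2 A q M a b hab hq),
        S.c₂.red ⟨f, h⟩ = red2 A q M a b hab hq ⟨f, h'⟩) ∧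
      ∀ σ ∈ A.inertiaSubgroupIn ℚ, S.IsInertial (galF (M * q) σ) := by
  haveI : IsAlgClosed (kV A) := isAlgClosed_kV A
  have hFFL : IsFF Kbar ↥(FNbar (M * q)) := H95.stmt_HKA_isFF (M * q)
  have hFF1 : IsFF (kV A) (F1 A q M) := H91.isFF_F1 a b hab hq hA hqM ht
  have H := RED.H17.ffHyp_of_isFF _ _ hFFL
  have H₁ := RED.H17.ffHyp_of_isFF _ _ hFF1
  obtain ⟨g, c, hg⟩ := RED.H17.exists_isGenus _ _ hFFL
  obtain ⟨g₁, c₁, hg₁⟩ := RED.H17.exists_isGenus _ _ hFF1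
  have hg₁' : RED.H17.IsGenus (kV A) ↥(H91.redM A M) g₁ c₁ :=
    H91.isGenus_congr (H82.redField_eq_redField q M a b hab hq A hA) hg₁
  obtain ⟨Z, hZne, hZc, hZo, hnum⟩ :=
    Fermat.Agent.BAD.H30.num_final_tame M q hq ht hqM A hA (Dvd.intro_left M rfl)
  have htot := Fermat.Agent.BAD.H23.tot_mod A q M a b hab hq hA hqM ht
    (Fermat.Agent.BAD.H82.redField_eq_fullC q M a b hab hq A hA)
  have hZ' : ∀ z ∈ Z.map (H91.kappa A q M a b hab hq hA).symm.toEmbedding,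
      (H91.modT a b hab hq hA hqM ht
        (H73.betaF1 A q M hq hA M (H82.redField_eq_fullC q M a b hab hq A hA)) htot).IsNode z := by
    intro z hz
    obtain ⟨z₀, hz₀, rfl⟩ := Finset.mem_map.mp hz
    exact H91.isNode_modT a b hab hq hA hqM ht _ htot _ z₀ (hZc z₀ hz₀) (hZo z₀ hz₀)
  have hnum' : g + 1 ≤ g₁ + g₁
      + (Z.map (H91.kappa A q M a b hab hq hA).symm.toEmbedding).card := by
    rw [Finset.card_map]
    exact Fermat.Agent.BAD.H17.genus_ineq hq hqM ht hA hg hg₁' Z.card hnum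
  have hne : ∃ z, (H91.modT a b hab hq hA hqM ht
      (H73.betaF1 A q M hq hA M (H82.redField_eq_fullC q M a b hab hq A hA)) htot).IsNode z := by
    obtain ⟨z, hz⟩ := (hZne.map (f := (H91.kappa A q M a b hab hq hA).symm.toEmbedding))
    exact ⟨z, hZ' z hz⟩
  refine ⟨(H91.modT a b hab hq hA hqM ht
      (H73.betaF1 A q M hq hA M (H82.redField_eq_fullC q M a b hab hq A hA)) htot).toSSD
      H.principal H.deg_one H₁.principal H₁.deg_one H₁.deg_one hne, H, H₁,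
    g, g₁, c, c₁, hg, hg₁, ?_, rfl, rfl, fun _ _ _ => rfl, fun _ _ _ => rfl, ?_⟩
  · have h1 := (H91.modT a b hab hq hA hqM ht
      (H73.betaF1 A q M hq hA M (H82.redField_eq_fullC q M a b hab hq A hA)) htot).card_le_toSSD_nodes
      H.principal H.deg_one H₁.principal H₁.deg_one H₁.deg_one hne _ hZ'
    omega
  · intro s hs
    exact (H91.inert_totDataOf A q M a b hab hq hA _ _ htot (H91.hunif_mod a b hab hq hA hqM ht)
      hs (fun P => H91.rhoF1_inertia a b hab hq hA hqM ht hs P)).isInertial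
      H.principal H.deg_one H₁.principal H₁.deg_one H₁.deg_one hne

/-- `w_p` is compatible with `IsNormPow`: the `β`-norm of `f` is the `α`-norm of `w_p f`. -/
theorem isNormPow_wq (hL1 : Stmt_NormWq) (p M : ℕ) [NeZero M] [NeZero p] [NeZero (M * p)]
    (a b : ℤ) (hab : a * p + b * M = 1) (hp : p.Prime) (f : FN (M * p))
    (h : IsNormPow (heckeBetaBar Kbar M p) p f) :
    IsNormPow (heckeAlphaBar Kbar M p) p (wq p M a b hab hp f) := by
  obtain ⟨t, c, htc⟩ := h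
  exact ⟨t, c, (hL1 p M a b hab hp f).trans htc⟩

/-- **The Kummer form of (T3) at the tame levels.** -/
theorem core_tame (hABSP : Fermat.Agent.BADP.H86.Stmt_ABSP) (hL1 : Stmt_NormWq)
    (hL2 : Stmt_Red2) (hL3 : Stmt_PW1) (M p : ℕ) [NeZero M] [NeZero p]
    (ht : H91.TameAt M p) : Stmt_TorsOrdNewCore M p := by
  intro hp hp2 hpM A hA τ hτ a hζ f hres hdiv hNα hNβ
  haveI : NeZero (M * p) := ⟨Nat.mul_ne_zero (NeZero.ne M) hp.ne_zero⟩
  haveI : IsAlgClosed (kV A) := isAlgClosed_kV A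
  obtain ⟨a₀, b₀, hab⟩ : ∃ a b : ℤ, a * p + b * M = 1 := by
    have hcop : Nat.Coprime p M := (Nat.Prime.coprime_iff_not_dvd hp).2 hpM
    obtain ⟨a, b, h⟩ := Nat.isCoprime_iff_coprime.2 hcop
    exact ⟨a, b, h⟩
  obtain ⟨S, H, H₁, g, g₁, c, c₁, hg, hg₁, hnum, hV₁, hV₂, hr₁, hr₂, hin⟩ :=
    exists_modSSD A p M a₀ b₀ hab hp hA hpM ht
  -- constants
  have hT : ∀ c : AlgebraicClosure ℚ,
      algebraMap (AlgebraicClosure ℚ) (FN (M * p)) c ∈ S.c₁.V ↔ c ∈ A := by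
    intro c
    rw [hV₁]
    exact const_mem1 A p M c
  -- a primitive root of unity
  have hp0 : (p : Kbar) ≠ 0 := by exact_mod_cast hp.ne_zero
  obtain ⟨ζ, hζprim⟩ : ∃ ζ : Kbar, IsPrimitiveRoot ζ p := by
    haveI : NeZero (p : Kbar) := ⟨hp0⟩
    exact HasEnoughRootsOfUnity.exists_primitiveRoot Kbar p
  have hζp : ζ ^ p = 1 := hζprim.pow_eq_one
  have hζ1 : ζ ≠ 1 := hζprim.ne_one hp.one_lt
  -- the function
  have hfV : ((f : ↥(gaussV A (M * p))) : FN (M * p)) ∈ S.c₁.V := by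
    rw [hV₁]
    exact f.2
  have hrd : S.c₁.rd ((f : ↥(gaussV A (M * p))) : FN (M * p)) = 1 := by
    rw [S.c₁.rd_of_mem hfV, hr₁ _ hfV f.2]
    exact hres
  refine hABSP Kbar (FN (M * p)) (kV A) (F1 A p M) (F1 A p M) S H H₁ H₁ g g₁ g₁ c c₁ c₁ hg hg₁
    hg₁ hnum p hp hp2 (H82.charP_kV A hp hA) hp0 ζ hζp hζ1 (galF (M * p) τ) (hin τ hτ) a
    (hζ ζ hζp) _ hfV hrd hdiv ?_ ?_
  · -- (R2)
    obtain ⟨f', h₀, a', hf', hred', hff'⟩ := hL2 A p M a₀ b₀ hab hp hA hpM ht _ f.2 hres hNα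
    have hf'V : f' ∈ S.c₂.V := by
      rw [hV₂]
      exact hf'
    refine ⟨f', h₀, a', hf'V, ?_, hff'⟩
    rw [S.c₂.rd_of_mem hf'V, hr₂ _ hf'V hf']
    exact hred'
  · -- (PW)
    intro u φ e c₀ hu he hc₀ hcm hdepth heq hφ₁ hφ₂
    have hφ₁' : φ ∈ V1 A p M := hV₁ ▸ hφ₁
    have hφ₂' : φ ∈ V2 A p M a₀ b₀ hab hp := hV₂ ▸ hφ₂
    have hvc : A.valuation c₀ < 1 :=
      (Fermat.Agent.BADP.H97.val_const_lt_one_iff hT c₀).1
        (Fermat.Agent.BADP.H97.val_lt_of_rd_eq_zero hcm.1 hcm.2)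
    have hvd : A.valuation ((p : Kbar) ^ p / c₀ ^ (p - 1)) < 1 :=
      (Fermat.Agent.BADP.H97.val_const_lt_one_iff hT _).1
        (Fermat.Agent.BADP.H97.val_lt_of_rd_eq_zero hdepth.1 hdepth.2)
    have hdep : A.valuation (p : Kbar) ^ p < A.valuation c₀ ^ (p - 1) := by
      rw [map_div₀, map_pow, map_pow] at hvd
      have hpos : 0 < A.valuation c₀ ^ (p - 1) :=
        pow_pos (zero_lt_iff.2 ((Valuation.ne_zero_iff _).2 hc₀)) _
      exact (div_lt_one₀ hpos).1 hvd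
    constructor
    · obtain ⟨ψ, hψ⟩ := hL3 A p M a₀ b₀ hab hp hA hpM ht _ hNα u φ e c₀ hu he hc₀ hvc hdep heq
        hφ₁' hφ₂'
      refine ⟨ψ, ?_⟩
      rw [S.c₁.rd_of_mem hφ₁, hr₁ _ hφ₁ hφ₁']
      exact hψ
    · have hwu : wq p M a₀ b₀ hab hp u ≠ 0 :=
        (map_ne_zero_iff _ (wq p M a₀ b₀ hab hp).injective).2 hu
      have heq' : algebraMap Kbar (FN (M * p)) e * wq p M a₀ b₀ hab hp (f : FN (M * p))
          * wq p M a₀ b₀ hab hp u ^ p
          = 1 + algebraMap Kbar (FN (M * p)) c₀ * wq p M a₀ b₀ hab hp φ := by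
        have h1 := congrArg (wq p M a₀ b₀ hab hp) heq
        rw [map_mul, map_mul, map_pow, AlgEquiv.commutes, map_add, map_one, map_mul,
          AlgEquiv.commutes] at h1
        exact h1
      have hw₁ : wq p M a₀ b₀ hab hp φ ∈ V1 A p M :=
        (wq_mem_V1_iff A p M a₀ b₀ hab hp φ).2 hφ₂'
      have hw₂ : wq p M a₀ b₀ hab hp φ ∈ V2 A p M a₀ b₀ hab hp :=
        (wq_mem_V2_iff A p M a₀ b₀ hab hp φ).2 hφ₁'
      obtain ⟨ψ, hψ⟩ := hL3 A p M a₀ b₀ hab hp hA hpM ht _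
        (isNormPow_wq hL1 p M a₀ b₀ hab hp _ hNβ) _ _ e c₀ hwu he hc₀ hvc hdep heq' hw₁ hw₂
      refine ⟨ψ, ?_⟩
      rw [S.c₂.rd_of_mem hφ₂, hr₂ _ hφ₂ hφ₂', red2_mk]
      exact hψ

/-- **The Kummer form of (T3) at all levels.** -/
theorem core_all (hABSP : Fermat.Agent.BADP.H86.Stmt_ABSP) (hL1 : Stmt_NormWq)
    (hL2 : Stmt_Red2) (hL3 : Stmt_PW1) (hL5 : Stmt_Desc3) (M p : ℕ) [NeZero M] [NeZero p] :
    Stmt_TorsOrdNewCore M p := by
  intro hp hp2 hpM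
  by_cases h5 : 5 ≤ p
  · exact core_tame hABSP hL1 hL2 hL3 M p (Or.inl h5) hp hp2 hpM
  have hp3 : p = 3 := by
    have h2 := hp.two_le
    have h4 : p ≠ 4 := by
      rintro rfl
      exact absurd hp (by decide)
    omega
  subst hp3
  by_cases h2 : 2 ∣ M
  · exact core_tame hABSP hL1 hL2 hL3 M 3 (Or.inr (Or.inl ⟨rfl, h2⟩)) hp hp2 hpM
  · haveI : NeZero (2 * M) := ⟨Nat.mul_ne_zero (by norm_num) (NeZero.ne M)⟩
    exact hL5 M h2 hpM
      (core_tame hABSP hL1 hL2 hL3 (2 * M) 3 (Or.inr (Or.inl ⟨rfl, Dvd.intro M rfl⟩)))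
      hp hp2 hpM

/-- **(T3) at all levels.** -/
theorem torsOrdNew_all (hABSP : Fermat.Agent.BADP.H86.Stmt_ABSP) (hL1 : Stmt_NormWq)
    (hL2 : Stmt_Red2) (hL3 : Stmt_PW1) (hL5 : Stmt_Desc3) (M p : ℕ) [NeZero M] [NeZero p] :
    H54.Stmt_TorsOrdNew M p :=
  torsOrdNew_of_core M p (core_all hABSP hL1 hL2 hL3 hL5 M p)

end Fermat.Agent.S33.New.H86
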