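import Fermat.Agent.S33.New.H36_Frob2Defs
import Fermat.Agent.GTor.H33_CurveQbar

/-!
# S33 / S59, package STRICT: the `K1`-test from the Kummer form of (FROB2)  (helper86)

* `k1Test_of_core : H36.Frob2Core A M p g → H54.K1Test A M p g`.

For a `p`-new class `x = [D₁]` killed by `n = p^k`, write `n D₁ = div f₀`; the norms of `f₀` along
the two degeneracy maps are `n`-th powers up to constants, so (FROB2) gives `c`, `t` with
`f = c (g f₀ / f₀) t^n` in the Gauss valuation ring with reduction `1`.  Then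
`D = g D₁ - D₁ + div t` represents `g x - x` and `n D = div f`.
-/

set_option autoImplicit false
set_option linter.style.haveILetI false
set_option linter.unusedSectionVars false

noncomputable section

open AlgebraicCurve ModularCurve Fermat.Agent.S28.H73 Fermat.Agent.RED.H73

namespace Fermat.Agent.S33.New.H86

open Fermat.Agent.BAD Fermat.Agent.S36.H44

local notation "Kb" => AlgebraicClosure ℚ

/-- **The `K1`-test from (FROB2), Kummer form.** -/
theorem k1Test_of_core (A : ValuationSubring Kb) (M p : ℕ) [NeZero M] [NeZero p] (g : GalQ)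
    (h : H36.Frob2Core A M p g) : H54.K1Test A M p g := by
  intro k x hx hnew
  obtain ⟨D₁, rfl⟩ := Pic0.mk_surjective x
  obtain ⟨f₀, hf0, hfD⟩ := H91.exists_kummer_of_nsmul_eq_zero (M * p) (p ^ k) D₁ hx
  obtain ⟨h1, h2⟩ := (isQNew_iff M p _).1 hnew
  have hα := (pic0Push_mk_eq_zero_iff (heckeAlphaBar Kb M p) (alpha_integral M p)
    (alpha_finite M p) (alpha_norm M p) D₁).1 h1
  have hβ := (pic0Push_mk_eq_zero_iff (heckeBetaBar Kb M p) (beta_integral M p)
    (beta_finite M p) (beta_norm M p) D₁).1 h2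
  have hNα := isNormPow_of_isPrincipal (ffHyp_FNbar M) (heckeAlphaBar Kb M p)
    (alpha_integral M p) (alpha_finite M p) (alpha_norm M p) (p ^ k) _ _ hf0 hfD hα
  have hNβ := isNormPow_of_isPrincipal (ffHyp_FNbar M) (heckeBetaBar Kb M p)
    (beta_integral M p) (beta_finite M p) (beta_norm M p) (p ^ k) _ _ hf0 hfD hβ
  obtain ⟨c, t, hc, ht, hmem, hres⟩ := h k f₀ hf0 (fun P => ⟨_, (hfD P).symm⟩) hNα hNβ
  haveI := Fermat.Agent.GTor.H33.hasPrincipalDivisors_FN (M * p)
  obtain ⟨E, hE, hdeg⟩ := HasPrincipalDivisors.exists_divisor (K := Kb)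
    (F := ↥(FNbar (M * p))) t ht
  let E' : Divisor.degZero (K := Kb) (F := ↥(FNbar (M * p))) := ⟨E, Divisor.mem_degZero.2 hdeg⟩
  have hE0 : (Pic0.mk E' : JZero (M * p)) = 0 :=
    (QuotientAddGroup.eq_zero_iff _).2 (AddSubgroup.mem_addSubgroupOf.2 ⟨t, ht, hE⟩)
  have hσf0 : galF (M * p) g • f₀ ≠ 0 := by
    intro h0
    apply hf0
    have h1 := congrArg (fun z => (galF (M * p) g)⁻¹ • z) h0
    simp only [inv_smul_smul, smul_zero] at h1
    exact h1
  refine ⟨SemilinearAut.degZeroSMulHom (galF (M * p) g) D₁ - D₁ + E', ⟨_, hmem⟩, ?_, hres,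
    fun P => ?_⟩
  · show galF (M * p) g • (Pic0.mk D₁) - Pic0.mk D₁ = _
    rw [SemilinearAut.pic0_smul_mk, Pic0.mk_add, hE0, add_zero]
    rfl
  · have e : ((SemilinearAut.degZeroSMulHom (galF (M * p) g) D₁ - D₁ + E' :
        Divisor.degZero (K := Kb) (F := ↥(FNbar (M * p)))) : Divisor Kb ↥(FNbar (M * p))) P
        = (D₁ : Divisor Kb ↥(FNbar (M * p))) ((galF (M * p) g)⁻¹ • P)
          - (D₁ : Divisor Kb ↥(FNbar (M * p))) P + P.ord t := by
      rw [AddSubgroup.coe_add, AddSubgroup.coe_sub, SemilinearAut.coe_degZeroSMulHom,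
        Finsupp.add_apply, Finsupp.sub_apply, SemilinearAut.divisor_smul_apply]
      congr 1
      exact hE P
    have h3 : P.ord (t ^ (p ^ k)) = ((p ^ k : ℕ) : ℤ) * P.ord t := by
      have := Place.ord_zpow P t ((p ^ k : ℕ) : ℤ)
      rw [zpow_natCast] at this
      exact this
    have hc0 : algebraMap Kb ↥(FNbar (M * p)) c ≠ 0 := (map_ne_zero _).2 hc
    have hq0 : (galF (M * p) g • f₀) / f₀ ≠ 0 := div_ne_zero hσf0 hf0
    show ((p ^ k : ℕ) : ℤ) * _ = P.ord (algebraMap Kb ↥(FNbar (M * p)) c *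
      ((galF (M * p) g • f₀) / f₀) * t ^ (p ^ k))
    rw [e, Place.ord_mul _ (mul_ne_zero hc0 hq0) (pow_ne_zero _ ht), Place.ord_mul _ hc0 hq0,
      H91.ord_algebraMap_zero, zero_add, div_eq_mul_inv,
      Place.ord_mul _ hσf0 (inv_ne_zero hf0), Place.ord_inv, H91.ord_galF_smul, h3,
      ← hfD, ← hfD]
    ring

end Fermat.Agent.S33.New.H86
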