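import Fermat.Agent.S33.New.H86_Frob2Desc3
import Fermat.Agent.S33.New.H86_K1Core

/-!
# S33 / S59, package STRICT: (FROB2) and the `K1`-test for `σ²` at all levels  (helper86)

* `frob2_all_of : Stmt_Frob2Tame → Stmt_Frob2Desc3 → Frob2Core A M p (σ σ)` for every odd prime
  `p ∤ M`, `A` over `p`, `σ` in the decomposition group of `A` (tame levels directly; at `p = 3`,
  `2 ∤ M` by descent from level `2 M`).
* `frob2_all : Stmt_Frob2Tame → Frob2Core A M p (σ σ)` (with the descent `stmt_Frob2Desc3`).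
* `k1Test_sq_all : Stmt_Frob2Tame → H54.K1Test A M p (σ σ)`.
-/

set_option autoImplicit false
set_option linter.style.haveILetI false
set_option linter.unusedSectionVars false

noncomputable section

open AlgebraicCurve ModularCurve Fermat.Agent.S28.H73 Fermat.Agent.RED.H73

namespace Fermat.Agent.S33.New.H86

open Fermat.Agent.BAD

local notation "Kb" => AlgebraicClosure ℚ

/-- **(FROB2) at all levels**, from the tame levels and the descent at `p = 3`. -/
theorem frob2_all_of (hT : H36.Stmt_Frob2Tame) (hD : H36.Stmt_Frob2Desc3)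
    (M p : ℕ) [NeZero M] [NeZero p] (hp : p.Prime) (hp2 : p ≠ 2) (hpM : ¬ p ∣ M)
    (A : ValuationSubring Kb) (hA : A.LiesOverPrime p) (σ : GalQ)
    (hσ : σ ∈ A.decompositionSubgroup ℚ) : H36.Frob2Core A M p (σ * σ) := by
  by_cases h5 : 5 ≤ p
  · exact hT M p hp hpM (Or.inl h5) A hA σ hσ
  have hp3 : p = 3 := by
    have h2 := hp.two_le
    have h4 : p ≠ 4 := by
      rintro rfl
      exact absurd hp (by decide)
    omega
  subst hp3
  by_cases h2 : 2 ∣ M
  · exact hT M 3 hp hpM (Or.inr (Or.inl ⟨rfl, h2⟩)) A hA σ hσ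
  · haveI : NeZero (2 * M) := ⟨Nat.mul_ne_zero (by norm_num) (NeZero.ne M)⟩
    have h32M : ¬ 3 ∣ 2 * M := by
      intro hd
      rcases (Nat.Prime.dvd_mul hp).1 hd with h | h
      · exact absurd h (by decide)
      · exact hpM h
    exact hD M h2 hpM A hA (σ * σ)
      (hT (2 * M) 3 hp h32M (Or.inr (Or.inl ⟨rfl, Dvd.intro M rfl⟩)) A hA σ hσ)

/-- **(FROB2) at all levels**, from the tame levels. -/
theorem frob2_all (hT : H36.Stmt_Frob2Tame)
    (M p : ℕ) [NeZero M] [NeZero p] (hp : p.Prime) (hp2 : p ≠ 2) (hpM : ¬ p ∣ M)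
    (A : ValuationSubring Kb) (hA : A.LiesOverPrime p) (σ : GalQ)
    (hσ : σ ∈ A.decompositionSubgroup ℚ) : H36.Frob2Core A M p (σ * σ) :=
  frob2_all_of hT stmt_Frob2Desc3 M p hp hp2 hpM A hA σ hσ

/-- **The `K1`-test for `σ²`**, `σ` in the decomposition group, at all levels. -/
theorem k1Test_sq_all (hT : H36.Stmt_Frob2Tame)
    (M p : ℕ) [NeZero M] [NeZero p] (hp : p.Prime) (hp2 : p ≠ 2) (hpM : ¬ p ∣ M)
    (A : ValuationSubring Kb) (hA : A.LiesOverPrime p) (σ : GalQ)
    (hσ : σ ∈ A.decompositionSubgroup ℚ) : H54.K1Test A M p (σ * σ) :=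
  k1Test_of_core A M p (σ * σ) (frob2_all hT M p hp hp2 hpM A hA σ hσ)

end Fermat.Agent.S33.New.H86
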