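import Fermat.Agent.S33.New.H86_Leaves
import Fermat.Agent.BADP.H18_TraceRed
import Fermat.Agent.BADP.H86_PthRoot

/-!
# S33, the `p`-new case, leaf L3: the leading terms of the Kummer functions  (helper86)

`stmt_PW1 : Stmt_PW1` : TRACE-RED (`BADP.H18.traceRed_insep`) at the modular datum of level
`M p` and PTH-ROOT (`BADP.H86.pthRoot`) at level `M`.
-/

set_option autoImplicit false
set_option linter.style.haveILetI false
set_option linter.unusedSectionVars false
set_option synthInstance.maxHeartbeats 400000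
set_option maxHeartbeats 1000000

noncomputable section

open AlgebraicCurve ModularCurve
open Fermat.Agent.S28.H73 Fermat.Agent.RED.H73 Fermat.Agent.RED Fermat.Agent.S24
open Fermat.Agent.BAD.H88

namespace Fermat.Agent.S33.New.H86

open Fermat.Agent.BAD

section Generic

variable {K F : Type*} [Field K] [Field F] [Algebra K F]

/-- The valuation of a valuation ring `V` of `F` on the constants is equivalent to the valuation
of the valuation ring `A = V ∩ K`. -/
theorem val_const_le_iff' (V : ValuationSubring F) (A : ValuationSubring K)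
    (hT : ∀ c : K, algebraMap K F c ∈ V ↔ c ∈ A) (c d : K) :
    V.valuation (algebraMap K F c) ≤ V.valuation (algebraMap K F d) ↔
      A.valuation c ≤ A.valuation d := by
  by_cases hd : d = 0
  · rw [hd, map_zero, map_zero, map_zero, le_zero_iff, le_zero_iff, map_eq_zero, map_eq_zero,
      map_eq_zero]
  have hdF : algebraMap K F d ≠ 0 := (map_ne_zero_iff _ (algebraMap K F).injective).mpr hd
  have h1 : V.valuation (algebraMap K F c) ≤ V.valuation (algebraMap K F d) ↔
      V.valuation (algebraMap K F (c / d)) ≤ 1 := by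
    rw [map_div₀, map_div₀, div_le_one₀ (zero_lt_iff.2 ((Valuation.ne_zero_iff _).2 hdF))]
  have h2 : A.valuation c ≤ A.valuation d ↔ A.valuation (c / d) ≤ 1 := by
    rw [map_div₀, div_le_one₀ (zero_lt_iff.2 ((Valuation.ne_zero_iff _).2 hd))]
  rw [h1, h2, ValuationSubring.valuation_le_one_iff, ValuationSubring.valuation_le_one_iff]
  exact hT _

theorem val_const_lt_iff' (V : ValuationSubring F) (A : ValuationSubring K)
    (hT : ∀ c : K, algebraMap K F c ∈ V ↔ c ∈ A) (c d : K) :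
    V.valuation (algebraMap K F c) < V.valuation (algebraMap K F d) ↔
      A.valuation c < A.valuation d := by
  rw [← not_le, ← not_le, val_const_le_iff' V A hT]

end Generic

/-- The norm along `α` is the norm of the tower `F_M ⊂ F_{M p}` of helper23. -/
theorem normAlong_alpha_eq (p M : ℕ) [NeZero M] [NeZero p] [NeZero (M * p)] (x : FN (M * p)) :
    normAlong (heckeAlphaBar Kbar M p) x
      = @Algebra.norm (FN M) (FN (M * p)) _ _ (H23.algEL p M) x := rfl

/-- The trace of the second structure (`Fr ∘ e`) of `F₁` over the residue field of level `M`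
vanishes. -/
theorem trace_alg2_eq_zero (A : ValuationSubring Kbar) (p M : ℕ) (a b : ℤ)
    (hab : a * p + b * M = 1) (hp : p.Prime) [NeZero M] [NeZero (M * p)]
    (hA : A.LiesOverPrime p) (hpM : ¬ p ∣ M)
    (hD : redField A (modularFunctionFieldBar (M * p)) (hSc A p M)
      = modularFunctionFieldFullC (kV A) M) (x : F1 A p M) :
    @Algebra.trace ↥(H91.redM A M) (F1 A p M) _ _ (H23.alg2 A p M a b hab hp hA hD) x = 0 := by
  letI := H23.alg2 A p M a b hab hp hA hD
  haveI : Module.Finite ↥(H91.redM A M) (F1 A p M) := H23.finite_alg2 A p M a b hab hp hA hD hpM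
  haveI : Fact p.Prime := ⟨hp⟩
  haveI : CharP (kV A) p := H82.charP_kV A hp hA
  haveI : CharP ↥(H91.redM A M) p :=
    charP_of_injective_algebraMap (algebraMap (kV A) ↥(H91.redM A M)).injective p
  refine Fermat.Agent.BADP.H18.trace_eq_zero_of_pow_mem ↥(H91.redM A M) (F1 A p M) p ?_ ?_ x
  · intro y
    refine ⟨(H23.eRed A p M a b hab hp hA).symm (H73.phiF1 A p M hp hA M hD y), ?_⟩
    rw [H23.algebraMap_alg2]
    show H73.FrF1 A p M hp hA M hD ((H23.eRed A p M a b hab hp hA)
      ((H23.eRed A p M a b hab hp hA).symm (H73.phiF1 A p M hp hA M hD y))) = y ^ p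
    rw [AlgEquiv.apply_symm_apply, H73.FrF1_phiF1]
  · rw [H23.finrank_alg2 A p M a b hab hp hA hD hpM]
    exact hp.one_lt.ne'

/-- **L3**: the leading term of a Kummer function of a `p`-new class is a `p`-th power. -/
theorem stmt_PW1 : Stmt_PW1 := by
  intro A p M a b hab hp _ _ _ hA hpM ht f hN u φ e c₀ hu he hc₀ hvc hdep heq h₁ h₂
  haveI : IsAlgClosed (kV A) := isAlgClosed_kV A
  have hD := H82.redField_eq_fullC p M a b hab hp A hA
  have h0 : @Module.finrank (FN M) (FN (M * p)) _ _ (H23.algEL p M).toModule = p + 1 :=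
    H23.finrank_EL p M hp hpM
  have hf1 : @Module.finrank ↥(H91.redM A M) (F1 A p M) _ _
      (H23.alg1 A p M a b hab hp hA).toModule = 1 := H23.finrank_alg1 A p M a b hab hp hA
  have hf2 : @Module.finrank ↥(H91.redM A M) (F1 A p M) _ _
      (H23.alg2 A p M a b hab hp hA hD).toModule = p :=
    H23.finrank_alg2 A p M a b hab hp hA hD hpM
  -- constants of level `M`
  have hT : ∀ c : Kbar, algebraMap Kbar (FN M) c ∈ (H91.seM hp hpM ht hA).V ↔ c ∈ A :=
    fun c => const_memM A M c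
  have hc₀A : c₀ ∈ A := (A.valuation_le_one_iff c₀).1 hvc.le
  have hcV : algebraMap Kbar (FN M) c₀ ∈ (H91.seM hp hpM ht hA).V := (hT c₀).2 hc₀A
  have hvcE : (H91.seM hp hpM ht hA).V.valuation (algebraMap Kbar (FN M) c₀) < 1 := by
    have := (val_const_lt_iff' (H91.seM hp hpM ht hA).V A hT c₀ 1).2 (by rwa [map_one])
    rwa [map_one, map_one] at this
  have hkerE : ∀ x : ↥(H91.seM hp hpM ht hA).V, ¬ IsUnit x →
      (H91.seM hp hpM ht hA).red x = 0 := fun x hx =>
    ((H91.seM hp hpM ht hA).red_eq_zero_iff x).2 ((IsLocalRing.mem_maximalIdeal x).2 hx)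
  have hcred : (H91.seM hp hpM ht hA).red ⟨_, hcV⟩ = 0 := by
    rw [(H91.seM hp hpM ht hA).red_eq_zero_iff]
    exact ((H91.seM hp hpM ht hA).V.valuation_lt_one_iff ⟨_, hcV⟩).2 hvcE
  -- TRACE-RED
  obtain ⟨θ, hθ, hθ'⟩ := @Fermat.Agent.BADP.H18.traceRed_insep (FN M) (FN (M * p))
    ↥(H91.redM A M) (F1 A p M) (F1 A p M) _ _ _ _ _ (H23.algEL p M)
    (H23.alg1 A p M a b hab hp hA) (H23.alg2 A p M a b hab hp hA hD)
    (H23.finite_EL p M) (H23.finite_alg1 A p M a b hab hp hA)
    (H23.finite_alg2 A p M a b hab hp hA hD hpM)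
    (H91.seM hp hpM ht hA).V (V1 A p M) (V2 A p M a b hab hp) (H91.seM hp hpM ht hA).red
    (red1 A p M) (red2 A p M a b hab hp)
    (H23.hV1_mod A p M hp hA hpM ht) (H23.hV2_mod A p M a b hab hp hA hpM ht)
    hkerE (red1_surjective A p M) (red2_surjective A p M a b hab hp)
    (H23.hker1_mod A p M) (H23.hker2_mod A p M a b hab hp)
    (H23.hcompat1_mod A p M a b hab hp hA hpM ht)
    (H23.hcompat2_mod A p M a b hab hp hA hpM ht hD)
    (H73.not_V1_le_V2 A p M a b hab hp hA) (H73.not_V2_le_V1 A p M a b hab hp hA)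
    (by rw [h0, hf1, hf2, add_comm]) hf1
    (trace_alg2_eq_zero A p M a b hab hp hA hpM hD) φ h₁ h₂ ⟨_, hcV⟩ hcred
  -- the norm of the Kummer function is a `p`-th power
  obtain ⟨t, κ, hκ⟩ := hN
  rw [normAlong_alpha_eq] at hκ
  letI := H23.algEL p M
  haveI := H23.isScalarTower_EL p M
  haveI := H23.finite_EL p M
  have hnorm : Algebra.norm (FN M) (algebraMap Kbar (FN (M * p)) e * f * u ^ p)
      = algebraMap Kbar (FN M) (e ^ (p + 1) * κ) * (t * Algebra.norm (FN M) u) ^ p := by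
    rw [map_mul, map_mul, map_pow, hκ, IsScalarTower.algebraMap_apply Kbar (FN M) (FN (M * p)) e,
      Algebra.norm_algebraMap, h0, map_mul, map_pow]
    ring
  obtain ⟨κ₁, hκ₁⟩ := IsAlgClosed.exists_pow_nat_eq (e ^ (p + 1) * κ) hp.pos
  obtain ⟨c₁, hc₁⟩ := IsAlgClosed.exists_pow_nat_eq c₀ hp.pos
  have hT' : (algebraMap Kbar (FN M) κ₁ * (t * Algebra.norm (FN M) u)) ^ p
      = 1 + algebraMap Kbar (FN M) c₀ * (θ : FN M) := by
    rw [mul_pow, ← map_pow, hκ₁, ← hnorm, heq, ← hθ,
      IsScalarTower.algebraMap_apply Kbar (FN M) (FN (M * p)) c₀]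
  -- PTH-ROOT
  have hdepE : (H91.seM hp hpM ht hA).V.valuation ((p : ℕ) : FN M) ^ p
      < (H91.seM hp hpM ht hA).V.valuation (algebraMap Kbar (FN M) c₀) ^ (p - 1) := by
    have h1 : A.valuation ((p : Kbar) ^ p) < A.valuation (c₀ ^ (p - 1)) := by
      rw [map_pow, map_pow]
      exact hdep
    have h2 := (val_const_lt_iff' (H91.seM hp hpM ht hA).V A hT _ _).2 h1
    rw [map_pow, map_pow, map_pow, map_pow, map_natCast] at h2
    exact h2
  obtain ⟨ψ, hψV, hψ⟩ := Fermat.Agent.BADP.H86.pthRoot (H91.seM hp hpM ht hA).V hp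
    (t := algebraMap Kbar (FN M) κ₁ * (t * Algebra.norm (FN M) u))
    (c₀ := algebraMap Kbar (FN M) c₀) (c₁ := algebraMap Kbar (FN M) c₁) (θ := (θ : FN M))
    θ.2 (by rw [← map_pow, hc₁])
    ((map_ne_zero_iff _ (algebraMap Kbar (FN M)).injective).2 hc₀) hvcE hdepE hT'
  -- conclusion
  have hred : (H91.seM hp hpM ht hA).red θ = (H91.seM hp hpM ht hA).red ⟨ψ, hψV⟩ ^ p := by
    have hmem : (θ : FN M) - ψ ^ p ∈ (H91.seM hp hpM ht hA).V :=
      (H91.seM hp hpM ht hA).V.sub_mem θ.2 (pow_mem hψV p)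
    have h1 : (H91.seM hp hpM ht hA).red ⟨_, hmem⟩ = 0 := by
      rw [(H91.seM hp hpM ht hA).red_eq_zero_iff]
      exact ((H91.seM hp hpM ht hA).V.valuation_lt_one_iff ⟨_, hmem⟩).2 hψ
    have h2 : (⟨_, hmem⟩ : ↥(H91.seM hp hpM ht hA).V) = θ - ⟨ψ, hψV⟩ ^ p := Subtype.ext rfl
    rw [h2, map_sub, map_pow, sub_eq_zero] at h1
    exact h1
  refine ⟨H23.eRed A p M a b hab hp hA ((H91.seM hp hpM ht hA).red ⟨ψ, hψV⟩), ?_⟩
  rw [← hθ', hred, map_pow]
  rfl

end Fermat.Agent.S33.New.H86
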