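import Fermat.Agent.S33.New.H86_Leaves
import Fermat.Agent.BAD.H88_VM2

/-!
# S33, the `p`-new case, leaf L1 (helper9): `Stmt_NormWq`

`N_α (w_p x) = N_β x` for `x ∈ F_{M p}`: the Atkin–Lehner involution `w_p` is an isomorphism of
`F_M`-algebras from `F_{M p}` with the `β`-structure to `F_{M p}` with the `α`-structure
(`w_p ∘ β = α`, helper88), and the norm is invariant under isomorphisms
(`Algebra.norm_eq_of_equiv_equiv`).

This file contains no `sorry`.
-/

set_option autoImplicit false
set_option synthInstance.maxHeartbeats 400000
set_option maxHeartbeats 1000000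
set_option linter.unusedSectionVars false
set_option linter.style.haveILetI false

noncomputable section

open AlgebraicCurve ModularCurve

namespace Fermat.Agent.S33.New.H9

open Fermat.Agent.BAD Fermat.Agent.BAD.H88 Fermat.Agent.S24 Fermat.Agent.S33.New.H86

/-- The norm is invariant under an automorphism exchanging two algebra structures (abstract
form). -/
theorem normAlong_equiv {K F F' : Type*} [Field K] [Field F] [Field F'] [Algebra K F]
    [Algebra K F'] (φ ψ : F →ₐ[K] F') (w : F' ≃+* F') (h : ∀ y : F, w (ψ y) = φ y) (x : F') :
    normAlong φ (w x) = normAlong ψ x := by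
  have key := @Algebra.norm_eq_of_equiv_equiv F F' F F' _ _ _ _ (algebraAlong ψ)
    (algebraAlong φ) (RingEquiv.refl F) w (RingHom.ext fun y => (h y).symm) x
  exact key.symm

/-- **L1**: `N_α (w_p x) = N_β x`. -/
theorem stmt_NormWq : Stmt_NormWq := by
  intro p M _ _ _ a b hab hp x
  exact normAlong_equiv (heckeAlphaBar Kbar M p) (heckeBetaBar Kbar M p)
    ((wq p M a b hab hp).toRingEquiv) (fun y => wq_beta p M a b hab hp y) x

end Fermat.Agent.S33.New.H9
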