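import Fermat.Agent.S33.New.H36_Strict
import Fermat.Agent.S33.New.H36_Frob2Mod
import Fermat.Agent.S33.New.H86_Frob2All
import Fermat.Agent.S33.New.H86_Asm
import Fermat.Agent.S33.New.H86_PW1
import Fermat.Agent.S33.New.H9_NormWq
import Fermat.Agent.S33.New.H28_Red2
import Fermat.Agent.S33.New.H51_Desc3
import Fermat.Agent.BADP.H19_AbsP

/-!
# S59, package COND, leaf STRICT (helper36): `Stmt_OrdNewStrict`, unconditional

`stmt_OrdNewStrict : S59.Asm.Stmt_OrdNewStrict` : in the `p`-new case the representation is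
STRICTLY ordinary at `p`.

* (T3) at all levels: helper86's `torsOrdNew_all` (as in `Fermat/Agent/S33.lean`);
* the `K1`-test for `σ²`, `σ` in the decomposition group: (FROB2) at the tame levels
  (`H36.stmt_Frob2Tame`), descent at `p = 3` (`H86.stmt_Frob2Desc3`), `H86.k1Test_sq_all`;
* the line and the characters: `H54.ordNew_line`, `H36.ordNewStrict_of_k1`.
-/

set_option autoImplicit false

noncomputable section

namespace Fermat.Agent.S33.New.H36

/-- **(T3)** at all levels (as in `Fermat/Agent/S33.lean`). -/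
theorem stmt_TorsOrdNew_all (M p : ℕ) [NeZero M] [NeZero p] :
    Fermat.Agent.S33.New.H54.Stmt_TorsOrdNew M p :=
  Fermat.Agent.S33.New.H86.torsOrdNew_all Fermat.Agent.BADP.H19.stmt_ABSP
    Fermat.Agent.S33.New.H9.stmt_NormWq Fermat.Agent.S33.New.H28.stmt_Red2
    Fermat.Agent.S33.New.H86.stmt_PW1 Fermat.Agent.S33.New.H51.stmt_Desc3 M p

/-- **`Stmt_OrdNewStrict`**, unconditional. -/
theorem stmt_OrdNewStrict : Fermat.Agent.S59.Asm.Stmt_OrdNewStrict :=
  ordNewStrict_of_k1 (fun M p _ _ => stmt_TorsOrdNew_all M p)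
    (fun M p _ _ hp hp2 hpM A hA σ hσ =>
      Fermat.Agent.S33.New.H86.k1Test_sq_all stmt_Frob2Tame M p hp hp2 hpM A hA σ hσ)

end Fermat.Agent.S33.New.H36
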