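import Mathlib.FieldTheory.LinearDisjoint
import Mathlib.RingTheory.Norm.Basic
import Fermat.Prelude.Def_AlgebraicCurve_Correspondence

/-!
# S33 leaf L5, generic part: base change of the norm  (helper51)

* `norm_bc_abs` : in a tower `F ⊆ L₁, L₂ ⊆ E` with `[L₁ : F] = [E : L₂] = d`, `[L₂ : F] = e`,
  `gcd (d, e) = 1`: `N_{E / L₂} x = N_{L₁ / F} x` for `x ∈ L₁`.
* `norm_bc_along` : the same for a commutative square of morphisms of fields.
-/

set_option autoImplicit false
set_option linter.style.haveILetI false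
set_option linter.unusedSectionVars false

noncomputable section

namespace Fermat.Agent.S33.New.H51

open AlgebraicCurve IntermediateField

section Abs

variable {F E : Type*} [Field F] [Field E] [Algebra F E]

/-- Base change of the norm, abstract form. -/
theorem norm_bc_abs (L₁ L₂ : Type*) [Field L₁] [Field L₂] [Algebra F L₁] [Algebra F L₂]
    [Algebra L₁ E] [Algebra L₂ E] [IsScalarTower F L₁ E] [IsScalarTower F L₂ E]
    (d e : ℕ) (hd0 : d ≠ 0) (he0 : e ≠ 0) (hcop : Nat.Coprime d e)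
    (h1 : Module.finrank F L₁ = d) (h2 : Module.finrank F L₂ = e)
    (h3 : Module.finrank L₂ E = d) (x : L₁) :
    Algebra.norm L₂ (algebraMap L₁ E x) = algebraMap F L₂ (Algebra.norm F x) := by
  haveI fin2 : Module.Finite F L₂ := Module.finite_of_finrank_pos (by omega)
  haveI fin3 : Module.Finite L₂ E := Module.finite_of_finrank_pos (by omega)
  haveI fin1 : Module.Finite F L₁ := Module.finite_of_finrank_pos (by omega)
  haveI finE : Module.Finite F E := Module.Finite.trans L₂ E
  have hFE : Module.finrank F E = e * d := by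
    rw [← Module.finrank_mul_finrank F L₂ E, h2, h3]
  let A : IntermediateField F E := (IsScalarTower.toAlgHom F L₂ E).fieldRange
  let B : IntermediateField F E := (IsScalarTower.toAlgHom F L₁ E).fieldRange
  let e₂ : L₂ ≃ₐ[F] A := AlgEquiv.ofInjectiveField (IsScalarTower.toAlgHom F L₂ E)
  let e₁ : L₁ ≃ₐ[F] B := AlgEquiv.ofInjectiveField (IsScalarTower.toAlgHom F L₁ E)
  have hA : Module.finrank F A = e := by rw [← e₂.toLinearEquiv.finrank_eq, h2]
  have hB : Module.finrank F B = d := by rw [← e₁.toLinearEquiv.finrank_eq, h1]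
  have hld : A.LinearDisjoint B :=
    IntermediateField.LinearDisjoint.of_finrank_coprime (by rw [hA, hB]; exact hcop.symm)
  have hsup : A ⊔ B = ⊤ := by
    apply IntermediateField.eq_of_le_of_finrank_eq le_top
    rw [hld.finrank_sup, hA, hB, IntermediateField.finrank_top', hFE]
  have key := hld.norm_algebraMap hsup (e₁ x)
  have hx : algebraMap B E (e₁ x) = algebraMap L₁ E x := rfl
  rw [hx, Algebra.norm_eq_of_algEquiv e₁ x] at key
  have h4 : e₂ (Algebra.norm L₂ (algebraMap L₁ E x)) = Algebra.norm A (algebraMap L₁ E x) :=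
    Algebra.norm_eq_of_ringEquiv (e₂ : L₂ ≃+* A) (by ext y; rfl) _
  rw [← h4] at key
  apply e₂.injective
  rw [key, e₂.commutes]

end Abs

section Along

variable {K F₁ F₁' F₂ F₂' : Type*} [Field K] [Field F₁] [Field F₁'] [Field F₂] [Field F₂']
  [Algebra K F₁] [Algebra K F₁'] [Algebra K F₂] [Algebra K F₂']

/-- Base change of the norm along a commutative square of morphisms of fields:
`φ₁ : F₁ → F₁'`, `φ₂ : F₂ → F₂'` of degree `d`, `ι : F₁ → F₂` of degree `e` prime to `d`,
`ι' : F₁' → F₂'` with `ι' ∘ φ₁ = φ₂ ∘ ι`. -/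
theorem norm_bc_along (φ₁ : F₁ →ₐ[K] F₁') (φ₂ : F₂ →ₐ[K] F₂') (ι : F₁ →ₐ[K] F₂)
    (ι' : F₁' →ₐ[K] F₂') (hcomm : ∀ x, ι' (φ₁ x) = φ₂ (ι x))
    (d e : ℕ) (hd0 : d ≠ 0) (he0 : e ≠ 0) (hcop : Nat.Coprime d e)
    (h1 : finrankAlong K φ₁ = d) (h2 : finrankAlong K ι = e) (h3 : finrankAlong K φ₂ = d)
    (x : F₁') :
    (letI := algebraAlong φ₂; Algebra.norm F₂ (ι' x))
      = ι (letI := algebraAlong φ₁; Algebra.norm F₁ x) := by
  letI a₁ : Algebra F₁ F₁' := algebraAlong φ₁
  letI a₂ : Algebra F₂ F₂' := algebraAlong φ₂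
  letI a₃ : Algebra F₁ F₂ := algebraAlong ι
  letI a₄ : Algebra F₁' F₂' := algebraAlong ι'
  letI a₅ : Algebra F₁ F₂' := (φ₂.toRingHom.comp ι.toRingHom).toAlgebra
  haveI : IsScalarTower F₁ F₂ F₂' := IsScalarTower.of_algebraMap_eq (fun _ => rfl)
  haveI : IsScalarTower F₁ F₁' F₂' := IsScalarTower.of_algebraMap_eq (fun y => (hcomm y).symm)
  exact norm_bc_abs (F := F₁) (E := F₂') F₁' F₂ d e hd0 he0 hcop h1 h2 h3 x

end Along

end Fermat.Agent.S33.New.H51
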