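import Fermat.Agent.BAD.H79_Defs

/-!
# S33 / S59, package STRICT (helper36): the abstract core of (FROB2)

Setting: a function field `F / K` with two valuation rings `B₁`, `B₂` with the SAME residue
function field `E / k` (modular: `F = F_{Mp} ℚ̄`, `E` = the function field of `X₀(M)` over
`k = 𝔽̄_p`, `red₂ = red₁ ∘ w_p`), the two laws of TOTAL conservation for the degeneracy maps
(`ρ`, `ρ'` = reduction of the image of a point under `α`, `β`) and a semilinear automorphism `τ`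
of `F` which preserves `B₁` and acts on the reduction by `φ̄²` (`φ̄` = coefficientwise Frobenius).

If `f` is `new` (`ρ_* div f = n div h_α`, `ρ'_* div f = n div h_β`), then a constant multiple of
`τ f / f` is, up to an `n`-th power, a function of `B₁` with reduction `1`:

  `ψ₁ · φ̄ψ₂ = b₁ h_αⁿ`,  `ψ₂ · φ̄ψ₁ = b₂ h_βⁿ`  ⟹  `φ̄²ψ₁ / ψ₁ = (d₁ φ̄h_β / h_α)ⁿ`.

This is the first half of `S35.H89.st_abs` (helper89); no hypothesis on `n` (in particular `n`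
may be a power of the residue characteristic), no genus, no nodes, no GLUE.
-/

set_option autoImplicit false
set_option linter.style.haveILetI false
set_option maxHeartbeats 1000000

noncomputable section

open AlgebraicCurve

attribute [local instance] Classical.propDecidable

namespace Fermat.Agent.S33.New.H36

open Fermat.Agent.RED.H17 Fermat.Agent.RED Fermat.Agent.BAD Fermat.Agent.BAD.H79

section OneField

variable {k E : Type*} [Field k] [Field E] [Algebra k E]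

/-- A function all of whose orders vanish is a non-zero constant. -/
theorem const_of_ord_zero (HE : FFHyp k E) {w : E} (hw : w ≠ 0)
    (h : ∀ z : Place k E, z.ord w = 0) : ∃ a : k, a ≠ 0 ∧ w = algebraMap k E a := by
  obtain ⟨a, ha⟩ := HE.const_of_regular (f := w) (fun z => le_of_eq (h z).symm)
  refine ⟨a, ?_, ha⟩
  rintro rfl
  rw [map_zero] at ha
  exact hw ha

theorem semi_smul_ne_zero (σ : SemilinearAut k E) {ψ : E} (hψ : ψ ≠ 0) : σ • ψ ≠ 0 := by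
  intro h0
  apply hψ
  have := congrArg (fun z => σ⁻¹ • z) h0
  simpa using this

end OneField

section Core

variable {K F k E : Type} [Field K] [Field F] [Algebra K F] [Field k] [Field E] [Algebra k E]

/-- **The relation of a new function**: `φ̄² ψ₁ = θⁿ ψ₁` for the first reduction `ψ₁` of a
function `f` whose divisor has push-forwards `n div h_α`, `n div h_β` on the reduction. -/
theorem new_rel [IsAlgClosed k]
    (B₁ B₂ : VRed K F k E) (H : FFHyp K F) (HE : FFHyp k E)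
    (n : ℕ) (hn : 0 < n) (φb : SemilinearAut k E)
    (ρ ρ' : Place K F → Place k E) (β : Place k E → Place k E)
    (htot : ∀ (u₁ : B₁.V) (u₂ : B₂.V), B₁.red u₁ ≠ 0 → B₂.red u₂ ≠ 0 →
      (∃ a : K, (u₂ : F) = algebraMap K F a * (u₁ : F)) →
      ∀ D : Divisor K F, (∀ P, D P = P.ord (u₁ : F)) → ∀ z : Place k E,
        Finsupp.mapDomain ρ D z = z.ord (B₁.red u₁) + (β z).ord (B₂.red u₂))
    (htot' : ∀ (u₁ : B₁.V) (u₂ : B₂.V), B₁.red u₁ ≠ 0 → B₂.red u₂ ≠ 0 →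
      (∃ a : K, (u₂ : F) = algebraMap K F a * (u₁ : F)) →
      ∀ D : Divisor K F, (∀ P, D P = P.ord (u₁ : F)) → ∀ z : Place k E,
        Finsupp.mapDomain ρ' D z = z.ord (B₂.red u₂) + (β z).ord (B₁.red u₁))
    (hβ : ∀ (z : Place k E) (ψ : E), (β z).ord ψ = z.ord (φb • ψ))
    (f : F) (hf : f ≠ 0)
    (hnewα : ∃ hα : E, hα ≠ 0 ∧ ∀ D : Divisor K F, (∀ P, D P = P.ord f) →
      ∀ z : Place k E, Finsupp.mapDomain ρ D z = n * z.ord hα)
    (hnewβ : ∃ hβ : E, hβ ≠ 0 ∧ ∀ D : Divisor K F, (∀ P, D P = P.ord f) →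
      ∀ z : Place k E, Finsupp.mapDomain ρ' D z = n * z.ord hβ)
    (a₁ : K) (ha₁ : a₁ ≠ 0) (hm₁ : algebraMap K F a₁ * f ∈ B₁.V)
    (hψ₁ : B₁.red ⟨_, hm₁⟩ ≠ 0) :
    ∃ θ : E, θ ≠ 0 ∧ φb • (φb • (B₁.red ⟨_, hm₁⟩)) = θ ^ n * B₁.red ⟨_, hm₁⟩ := by
  obtain ⟨a₂, ha₂, hm₂, hψ₂⟩ := B₂.exists_scale f hf
  set ψ₁ : E := B₁.red ⟨_, hm₁⟩ with hψ₁def
  set ψ₂ : E := B₂.red ⟨_, hm₂⟩ with hψ₂def
  have hA₁ : algebraMap K F a₁ ≠ 0 := fun h0 => ha₁ ((map_eq_zero (algebraMap K F)).mp h0)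
  have hA₂ : algebraMap K F a₂ ≠ 0 := fun h0 => ha₂ ((map_eq_zero (algebraMap K F)).mp h0)
  have hrel : ∃ a : K, algebraMap K F a₂ * f = algebraMap K F a * (algebraMap K F a₁ * f) := by
    refine ⟨a₂ / a₁, ?_⟩
    rw [map_div₀]
    field_simp
  have hordu : ∀ P : Place K F, P.ord (algebraMap K F a₁ * f) = P.ord f := by
    intro P
    rw [P.ord_mul hA₁ hf, ord_algebraMap, zero_add]
  obtain ⟨hα, hα0, hαD⟩ := hnewα
  obtain ⟨hβ', hβ0, hβD⟩ := hnewβ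
  have hφψ₁ : φb • ψ₁ ≠ 0 := semi_smul_ne_zero φb hψ₁
  have hφψ₂ : φb • ψ₂ ≠ 0 := semi_smul_ne_zero φb hψ₂
  -- the two norm relations
  have hN₁ : ∀ z : Place k E, z.ord (ψ₁ * (φb • ψ₂) / hα ^ n) = 0 := by
    intro z
    have h1 := htot ⟨_, hm₁⟩ ⟨_, hm₂⟩ hψ₁ hψ₂ hrel (dv H.principal f)
      (fun P => by rw [dv_apply]; exact (hordu P).symm) z
    have h2 := hαD (dv H.principal f) (fun P => dv_apply H.principal f P) z
    rw [h2, hβ] at h1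
    rw [ord_div z (mul_ne_zero hψ₁ hφψ₂) (pow_ne_zero _ hα0),
      z.ord_mul hψ₁ hφψ₂, ord_pow]
    change (n : ℤ) * z.ord hα = z.ord ψ₁ + z.ord (φb • ψ₂) at h1
    omega
  have hN₂ : ∀ z : Place k E, z.ord (ψ₂ * (φb • ψ₁) / hβ' ^ n) = 0 := by
    intro z
    have h1 := htot' ⟨_, hm₁⟩ ⟨_, hm₂⟩ hψ₁ hψ₂ hrel (dv H.principal f)
      (fun P => by rw [dv_apply]; exact (hordu P).symm) z
    have h2 := hβD (dv H.principal f) (fun P => dv_apply H.principal f P) z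
    rw [h2, hβ] at h1
    rw [ord_div z (mul_ne_zero hψ₂ hφψ₁) (pow_ne_zero _ hβ0),
      z.ord_mul hψ₂ hφψ₁, ord_pow]
    change (n : ℤ) * z.ord hβ' = z.ord ψ₂ + z.ord (φb • ψ₁) at h1
    omega
  obtain ⟨b₁, hb₁0, hb₁⟩ := const_of_ord_zero HE
    (div_ne_zero (mul_ne_zero hψ₁ hφψ₂) (pow_ne_zero _ hα0)) hN₁
  obtain ⟨b₂, hb₂0, hb₂⟩ := const_of_ord_zero HE
    (div_ne_zero (mul_ne_zero hψ₂ hφψ₁) (pow_ne_zero _ hβ0)) hN₂
  -- `ψ₁ φ̄ψ₂ = b₁ hαⁿ`, `ψ₂ φ̄ψ₁ = b₂ hβⁿ`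
  have e₁ : ψ₁ * (φb • ψ₂) = algebraMap k E b₁ * hα ^ n := by
    rw [← hb₁]
    field_simp
  have e₂ : ψ₂ * (φb • ψ₁) = algebraMap k E b₂ * hβ' ^ n := by
    rw [← hb₂]
    field_simp
  -- apply `φ̄`
  have e₂' : (φb • ψ₂) * (φb • (φb • ψ₁)) =
      algebraMap k E (SemilinearAut.baseAut φb b₂) * (φb • hβ') ^ n := by
    have := congrArg (fun w => φb • w) e₂
    simp only [smul_mul', smul_pow', SemilinearAut.smul_algebraMap] at this
    exact this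
  have hB₁ : algebraMap k E b₁ ≠ 0 := fun h0 => hb₁0 ((map_eq_zero (algebraMap k E)).mp h0)
  have hφβ0 : φb • hβ' ≠ 0 := semi_smul_ne_zero φb hβ0
  -- `n`-th root of the constant
  obtain ⟨d₁, hd₁⟩ := IsAlgClosed.exists_pow_nat_eq (SemilinearAut.baseAut φb b₂ / b₁) hn
  have hD₁ : algebraMap k E d₁ ^ n =
      algebraMap k E (SemilinearAut.baseAut φb b₂) / algebraMap k E b₁ := by
    rw [← map_pow, hd₁, map_div₀]
  have hn0 : n ≠ 0 := Nat.pos_iff_ne_zero.mp hn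
  have hd₁0 : d₁ ≠ 0 := by
    rintro rfl
    rw [zero_pow hn0] at hd₁
    exact div_ne_zero ((map_ne_zero _).mpr hb₂0) hb₁0 hd₁.symm
  refine ⟨algebraMap k E d₁ * (φb • hβ') / hα,
    div_ne_zero (mul_ne_zero (fun h0 => hd₁0 ((map_eq_zero (algebraMap k E)).mp h0)) hφβ0) hα0,
    ?_⟩
  rw [div_pow, mul_pow, hD₁]
  have hx : (φb • (φb • ψ₁)) * (φb • ψ₂) * (algebraMap k E b₁ * hα ^ n) =
      (algebraMap k E (SemilinearAut.baseAut φb b₂) * (φb • hβ') ^ n) *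
        (ψ₁ * (φb • ψ₂)) := by
    rw [← e₂', ← e₁]
    ring
  have hαn : hα ^ n ≠ 0 := pow_ne_zero _ hα0
  have hx' := mul_right_cancel₀ hφψ₂ (by
    linear_combination (exp := 1) hx :
      (φb • (φb • ψ₁)) * (algebraMap k E b₁ * hα ^ n) * (φb • ψ₂) =
        (algebraMap k E (SemilinearAut.baseAut φb b₂) * (φb • hβ') ^ n) * ψ₁ * (φb • ψ₂))
  field_simp
  linear_combination hx'

/-- Iteration of the relation `φ̄² ψ = θⁿ ψ`. -/
theorem iter_rel (φb : SemilinearAut k E) (n : ℕ) {ψ θ : E} (hθ : θ ≠ 0)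
    (h : φb • (φb • ψ) = θ ^ n * ψ) (m : ℕ) :
    ∃ Θ : E, Θ ≠ 0 ∧ (fun y : E => φb • (φb • y))^[m] ψ = Θ ^ n * ψ := by
  induction m with
  | zero => exact ⟨1, one_ne_zero, by simp⟩
  | succ m ih =>
    obtain ⟨Θ, hΘ, hm⟩ := ih
    refine ⟨(φb • (φb • Θ)) * θ,
      mul_ne_zero (semi_smul_ne_zero φb (semi_smul_ne_zero φb hΘ)) hθ, ?_⟩
    rw [Function.iterate_succ_apply', hm]
    simp only [smul_mul', smul_pow']
    rw [h]
    ring

/-- If the reduction of `τ u` is `Θⁿ` times the reduction of the unit `u`, then a constant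
multiple of `τ f / f` (`u = a f`) is, up to an `n`-th power, a function with reduction `1`. -/
theorem k1_of_rel (B₁ : VRed K F k E) (n : ℕ) (τ : SemilinearAut K F)
    (f : F) (a₁ : K) (ha₁ : a₁ ≠ 0) (hm₁ : algebraMap K F a₁ * f ∈ B₁.V)
    (hψ₁ : B₁.red ⟨_, hm₁⟩ ≠ 0) (hτm : τ • (algebraMap K F a₁ * f) ∈ B₁.V)
    {Θ : E} (hΘ : Θ ≠ 0) (hτr : B₁.red ⟨_, hτm⟩ = Θ ^ n * B₁.red ⟨_, hm₁⟩) :
    ∃ (c : K) (t : F), c ≠ 0 ∧ t ≠ 0 ∧
      ∃ h : algebraMap K F c * ((τ • f) / f) * t ^ n ∈ B₁.V, B₁.red ⟨_, h⟩ = 1 := by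
  have hf : f ≠ 0 := by
    rintro rfl
    apply hψ₁
    have e : (⟨algebraMap K F a₁ * 0, hm₁⟩ : B₁.V) = 0 := Subtype.ext (mul_zero _)
    rw [e, map_zero]
  set ψ₁ : E := B₁.red ⟨_, hm₁⟩ with hψ₁def
  -- `u₁ = a₁ f` is a unit of the valuation ring
  have hu₁ : IsUnit (⟨_, hm₁⟩ : B₁.V) := by
    by_contra h
    exact hψ₁ ((B₁.red_eq_zero_iff _).mpr ((IsLocalRing.mem_maximalIdeal _).mpr h))
  obtain ⟨U, hU⟩ := hu₁
  have hUred : B₁.red (U : B₁.V) = ψ₁ := by rw [hU]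
  have hUinv : B₁.red ((U⁻¹ : (B₁.V)ˣ) : B₁.V) = ψ₁⁻¹ := by
    have h1 : B₁.red ((U⁻¹ : (B₁.V)ˣ) : B₁.V) * B₁.red (U : B₁.V) = 1 := by
      rw [← map_mul, Units.inv_mul, map_one]
    rw [hUred] at h1
    exact eq_inv_of_mul_eq_one_left h1
  have hUcoe : (((U⁻¹ : (B₁.V)ˣ) : B₁.V) : F) = (algebraMap K F a₁ * f)⁻¹ := by
    have h1 : (((U⁻¹ : (B₁.V)ˣ) : B₁.V) : F) * (((U : B₁.V)) : F) = 1 := by
      have h2 : ((U⁻¹ : (B₁.V)ˣ) : B₁.V) * (U : B₁.V) = 1 := Units.inv_mul U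
      have h3 := congrArg (fun x : B₁.V => (x : F)) h2
      exact h3
    rw [hU] at h1
    exact eq_inv_of_mul_eq_one_left h1
  -- a lift of `Θ⁻¹`
  obtain ⟨t₀, ht₀⟩ := B₁.red_surj Θ⁻¹
  have ht₀0 : (t₀ : F) ≠ 0 := by
    intro h0
    have : B₁.red t₀ = 0 := by
      have e : t₀ = 0 := Subtype.ext h0
      rw [e, map_zero]
    rw [ht₀] at this
    exact inv_ne_zero hΘ this
  have hc0 : SemilinearAut.baseAut τ a₁ / a₁ ≠ 0 :=
    div_ne_zero ((map_ne_zero _).mpr ha₁) ha₁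
  set w : B₁.V := ⟨_, hτm⟩ * ((U⁻¹ : (B₁.V)ˣ) : B₁.V) * t₀ ^ n with hw
  have hwred : B₁.red w = 1 := by
    rw [hw, map_mul, map_mul, map_pow, hτr, hUinv, ht₀, inv_pow]
    field_simp
  have hwcoe : (w : F) =
      algebraMap K F (SemilinearAut.baseAut τ a₁ / a₁) * ((τ • f) / f) * (t₀ : F) ^ n := by
    have h1 : (w : F) = (τ • (algebraMap K F a₁ * f)) * (algebraMap K F a₁ * f)⁻¹
        * (t₀ : F) ^ n := by
      rw [hw]
      push_cast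
      rw [hUcoe]
    have hA₁ : algebraMap K F a₁ ≠ 0 := fun h0 => ha₁ ((map_eq_zero (algebraMap K F)).mp h0)
    rw [h1, smul_mul', SemilinearAut.smul_algebraMap, map_div₀]
    field_simp
  refine ⟨SemilinearAut.baseAut τ a₁ / a₁, (t₀ : F), hc0, ht₀0, hwcoe ▸ w.2, ?_⟩
  have e : (⟨algebraMap K F (SemilinearAut.baseAut τ a₁ / a₁) * ((τ • f) / f) * (t₀ : F) ^ n,
      hwcoe ▸ w.2⟩ : B₁.V) = w := Subtype.ext hwcoe.symm
  rw [e]
  exact hwred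

/-- **(FROB2), abstract core.**  `τ` acts on the first reduction by a power of `φ̄²`. -/
theorem frob2_abs [IsAlgClosed k]
    (B₁ B₂ : VRed K F k E) (H : FFHyp K F) (HE : FFHyp k E)
    (n : ℕ) (hn : 0 < n)
    (τ : SemilinearAut K F) (φb : SemilinearAut k E)
    (hτmem : ∀ f : F, f ∈ B₁.V → τ • f ∈ B₁.V)
    (hτred : ∀ (f : F) (h : f ∈ B₁.V) (h' : τ • f ∈ B₁.V), ∃ m : ℕ,
      B₁.red ⟨_, h'⟩ = (fun y : E => φb • (φb • y))^[m] (B₁.red ⟨f, h⟩))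
    (ρ ρ' : Place K F → Place k E) (β : Place k E → Place k E)
    (htot : ∀ (u₁ : B₁.V) (u₂ : B₂.V), B₁.red u₁ ≠ 0 → B₂.red u₂ ≠ 0 →
      (∃ a : K, (u₂ : F) = algebraMap K F a * (u₁ : F)) →
      ∀ D : Divisor K F, (∀ P, D P = P.ord (u₁ : F)) → ∀ z : Place k E,
        Finsupp.mapDomain ρ D z = z.ord (B₁.red u₁) + (β z).ord (B₂.red u₂))
    (htot' : ∀ (u₁ : B₁.V) (u₂ : B₂.V), B₁.red u₁ ≠ 0 → B₂.red u₂ ≠ 0 →
      (∃ a : K, (u₂ : F) = algebraMap K F a * (u₁ : F)) →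
      ∀ D : Divisor K F, (∀ P, D P = P.ord (u₁ : F)) → ∀ z : Place k E,
        Finsupp.mapDomain ρ' D z = z.ord (B₂.red u₂) + (β z).ord (B₁.red u₁))
    (hβ : ∀ (z : Place k E) (ψ : E), (β z).ord ψ = z.ord (φb • ψ))
    (f : F) (hf : f ≠ 0)
    (hnewα : ∃ hα : E, hα ≠ 0 ∧ ∀ D : Divisor K F, (∀ P, D P = P.ord f) →
      ∀ z : Place k E, Finsupp.mapDomain ρ D z = n * z.ord hα)
    (hnewβ : ∃ hβ : E, hβ ≠ 0 ∧ ∀ D : Divisor K F, (∀ P, D P = P.ord f) →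
      ∀ z : Place k E, Finsupp.mapDomain ρ' D z = n * z.ord hβ) :
    ∃ (c : K) (t : F), c ≠ 0 ∧ t ≠ 0 ∧
      ∃ h : algebraMap K F c * ((τ • f) / f) * t ^ n ∈ B₁.V, B₁.red ⟨_, h⟩ = 1 := by
  obtain ⟨a₁, ha₁, hm₁, hψ₁⟩ := B₁.exists_scale f hf
  obtain ⟨θ, hθ, hrel⟩ := new_rel B₁ B₂ H HE n hn φb ρ ρ' β htot htot' hβ f hf hnewα hnewβ
    a₁ ha₁ hm₁ hψ₁
  have hτm := hτmem _ hm₁
  obtain ⟨m, hm⟩ := hτred _ hm₁ hτm
  obtain ⟨Θ, hΘ, hiter⟩ := iter_rel φb n hθ hrel m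
  exact k1_of_rel B₁ n τ f a₁ ha₁ hm₁ hψ₁ hτm hΘ (hm.trans hiter)

end Core

end Fermat.Agent.S33.New.H36
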