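import Fermat.Agent.S33.New.H54_Wire
import Fermat.Agent.S59.Asm.Cond

/-!
# S33 / S59, package STRICT (helper36): `Stmt_OrdNewStrict` from (T3) and the `K1`-test for the
squares of the elements of the decomposition group

* `mem_span_b0_iff`, `strict_of_line` : linear algebra of the ordinary line;
* `ordNewStrict_of_k1 : (∀ M p, Stmt_TorsOrdNew M p) → (K1-test for `σ²`, `σ ∈ D_P`) →
  S59.Asm.Stmt_OrdNewStrict`.

`L` = the ordinary line of `H54.ordNew_line`, `x`, `z` the characters of `D_P` on `L`, `V / L`.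
The `K1`-test for `σ²` gives `(ρ(σ)² - 1) V ⊆ L`, i.e. `z² = 1`; with `x z = det ρ(σ) ≡ a`
modulo `p^n` (cyclotomic determinant) we get `x - a z = z (x z - a) ∈ (p^n)`.
-/

set_option autoImplicit false
set_option linter.unusedSectionVars false
set_option linter.unusedVariables false
set_option linter.style.haveILetI false

open Polynomial IsLocalRing

noncomputable section

namespace Fermat.Agent.S33.New.H36

section Line

variable {A V : Type} [CommRing A] [AddCommGroup V] [Module A V]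

theorem mem_span_b0_iff (b : Module.Basis (Fin 2) A V) (v : V) :
    v ∈ Submodule.span A {b 0} ↔ b.repr v 1 = 0 := by
  constructor
  · intro h
    obtain ⟨c, rfl⟩ := Submodule.mem_span_singleton.1 h
    rw [map_smul, Finsupp.smul_apply, Module.Basis.repr_self, Finsupp.single_apply]
    simp
  · intro h
    have h1 := b.sum_repr v
    rw [Fin.sum_univ_two, h, zero_smul, add_zero] at h1
    rw [← h1]
    exact Submodule.smul_mem _ _ (Submodule.subset_span rfl)

/-- An endomorphism which preserves the line `A b₀` and whose square is the identity modulo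
the line: the diagonal entries `x`, `z` of its (triangular) matrix satisfy `z² = 1`,
`det = x z`. -/
theorem strict_of_line (b : Module.Basis (Fin 2) A V) (f : Module.End A V)
    (hf : f (b 0) ∈ Submodule.span A {b 0})
    (hsq : f (f (b 1)) - b 1 ∈ Submodule.span A {b 0}) :
    ∃ x z : A, (∀ w ∈ Submodule.span A {b 0}, f w = x • w) ∧
      (∀ v : V, f v - z • v ∈ Submodule.span A {b 0}) ∧ z * z = 1 ∧
      LinearMap.det f = x * z := by
  classical
  obtain ⟨x, hx⟩ := Submodule.mem_span_singleton.1 hf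
  set z : A := b.repr (f (b 1)) 1 with hz
  set y : A := b.repr (f (b 1)) 0 with hy
  have hb1 : f (b 1) = y • b 0 + z • b 1 := by
    have h1 := b.sum_repr (f (b 1))
    rw [Fin.sum_univ_two] at h1
    exact h1.symm
  have hrep : ∀ v : V, b.repr (f v) 1 = b.repr v 1 * z := by
    intro v
    have h1 := b.sum_repr v
    rw [Fin.sum_univ_two] at h1
    conv_lhs => rw [← h1]
    rw [map_add, map_smul, map_smul, ← hx, hb1]
    simp only [map_add, map_smul, Finsupp.add_apply, Finsupp.smul_apply,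
      Module.Basis.repr_self, Finsupp.single_apply, smul_eq_mul]
    simp
  refine ⟨x, z, ?_, ?_, ?_, ?_⟩
  · intro w hw
    obtain ⟨c, rfl⟩ := Submodule.mem_span_singleton.1 hw
    rw [map_smul, ← hx, smul_comm]
  · intro v
    rw [mem_span_b0_iff, map_sub, map_smul, Finsupp.sub_apply, Finsupp.smul_apply, hrep,
      smul_eq_mul, mul_comm, sub_self]
  · have h1 := (mem_span_b0_iff b _).1 hsq
    rw [map_sub, Finsupp.sub_apply, hrep, ← hz, Module.Basis.repr_self, Finsupp.single_apply,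
      if_pos rfl] at h1
    exact sub_eq_zero.1 h1
  · rw [← LinearMap.det_toMatrix b, Matrix.det_fin_two]
    simp only [LinearMap.toMatrix_apply]
    rw [← hx, ← hz]
    simp only [map_smul, Finsupp.smul_apply, Module.Basis.repr_self, Finsupp.single_apply,
      smul_eq_mul]
    simp

end Line

/-- **`Stmt_OrdNewStrict`** from (T3) and the `K1`-test for the squares of the elements of the
decomposition groups. -/
theorem ordNewStrict_of_k1
    (hT3 : ∀ (M p : ℕ) [NeZero M] [NeZero p], H54.Stmt_TorsOrdNew M p)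
    (hK : ∀ (M p : ℕ) [NeZero M] [NeZero p], p.Prime → p ≠ 2 → ¬ p ∣ M →
      ∀ A : ValuationSubring (AlgebraicClosure ℚ), A.LiesOverPrime p →
        ∀ σ ∈ A.decompositionSubgroup ℚ, H54.K1Test A M p (σ * σ)) :
    Fermat.Agent.S59.Asm.Stmt_OrdNewStrict := by
  intro p N M _ _ S 𝒪 _ _ _ _ _ _ hp hp2 hp𝒪 hNM hpM hNS χ ρ hρ habs hnocc
  subst hNM
  haveI : NeZero p := ⟨hp.ne_zero⟩
  haveI : Fact p.Prime := ⟨hp⟩
  refine ⟨hp𝒪, fun P hP => ?_⟩
  obtain ⟨L, ⟨b, hLb⟩, hD, hI, hK1⟩ :=
    H54.ordNew_line hT3 p M S 𝒪 hp hp2 hp𝒪 hpM hNS χ ρ hρ habs hnocc P hP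
  have hdetcyc : ρ.DetIsCyclotomic p :=
    Fermat.Agent.S59.Datum.H41.stmt_DetCyc 𝒪 p hp𝒪
      (fun n => H54.exists_pow_le_span_natCast hp n) ρ S
      (fun ℓ hℓ hℓS B hB σ hσ => by
        have hℓN : ¬ ℓ ∣ M * p := fun h => hℓS (hNS ℓ hℓ h)
        have hℓS' : ℓ ∉ (↑S : Set ℕ) := by exact_mod_cast hℓS
        exact (Fermat.Agent.S32.H86.trace_det_of_charpoly ρ.finrank_eq (ρ.ρ σ)
          (hρ ℓ hℓ hℓN hℓS' B hB σ hσ)).2)
  refine ⟨L, ⟨b, hLb⟩, hD, hI, fun σ hσ => ?_⟩
  have hb0 : b 0 ∈ L := by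
    rw [hLb]
    exact Submodule.subset_span rfl
  have hf : ρ.ρ σ (b 0) ∈ Submodule.span 𝒪 {b 0} := by
    rw [← hLb]
    exact hD σ hσ _ hb0
  have hsq : ρ.ρ σ (ρ.ρ σ (b 1)) - b 1 ∈ Submodule.span 𝒪 {b 0} := by
    rw [← hLb]
    have h1 := hK1 (σ * σ) (hK M p hp hp2 hpM P hP σ hσ) (b 1)
    rwa [map_mul] at h1
  obtain ⟨x, z, hx, hz, hzz, hdet⟩ := strict_of_line b (ρ.ρ σ) hf hsq
  refine ⟨x, z, ?_, ?_, ?_⟩
  · intro w hw
    exact hx w (hLb ▸ hw)
  · intro v
    rw [hLb]
    exact hz v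
  · intro n a ha
    have h1 := hdetcyc.2 n σ a ha
    rw [hdet] at h1
    have e : x - (a : 𝒪) * z = z * (x * z - (a : 𝒪)) := by
      have : x = x * (z * z) := by rw [hzz, mul_one]
      calc x - (a : 𝒪) * z = x * (z * z) - (a : 𝒪) * z := by rw [← this]
        _ = z * (x * z - (a : 𝒪)) := by ring
    rw [e]
    exact Ideal.mul_mem_left _ _ h1

end Fermat.Agent.S33.New.H36
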