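import Fermat.Agent.S33.New.H86_Leaves
import Fermat.Agent.S33.New.H51_NormBC
import Fermat.Agent.RED.ES.H95_NormAlpha
import Fermat.Agent.BAD.H82_Deg
import Fermat.Agent.Lib.HeckeComm.H2_Deg

/-!
# S33 leaf L5: descent of the Kummer form of (T3) from level `2 M · 3` to level `M · 3`  (helper51)

`stmt_Desc3 : H86.Stmt_Desc3`.

The function `f ∈ F_{3M}` is seen in `F_{6M}`; the hypotheses transfer:
* Gauss valuation / reduction / divisibility of the divisor: as in `H91.b1core_descend`;
* the norm conditions: `N_{F_{6M} / α F_{2M}} f = N_{F_{3M} / α F_M} f` (and the same for `β`),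
  by base change of the norm (`norm_bc_along`: the degrees `4 = [F_{3M} : F_M]` and
  `3 = [F_{2M} : F_M]` are coprime).
The conclusion descends by Kummer descent (`Stmt_KD`, helper22).
-/

set_option autoImplicit false
set_option linter.style.haveILetI false
set_option linter.unusedSectionVars false

noncomputable section

open HahnSeries IntermediateField AlgebraicCurve ModularCurve
open Fermat.Agent.S28.H73 Fermat.Agent.RED.H73 Fermat.Agent.RED

namespace Fermat.Agent.S33.New.H51

open Fermat.Agent.BAD Fermat.Agent.S36.H44 Fermat.Agent.S33.New.H86 Fermat.Agent.BAD.H91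

local notation "Kb" => AlgebraicClosure ℚ

/-- `[F_{2M} : F_M] = 3` for odd `M`, along the inclusion. -/
theorem finrankAlong_incl_two (M : ℕ) [NeZero M] [NeZero (2 * M)] (h2M : ¬ 2 ∣ M)
    (hle : modularFunctionFieldBar M ≤ modularFunctionFieldBar (2 * M)) :
    finrankAlong Kb (IntermediateField.inclusion hle) = 3 := by
  have hd : M ∣ 2 * M := Dvd.intro_left 2 rfl
  have h1 := Fermat.Agent.Lib.HeckeComm.relfinrank_FN M (2 * M) hd
  have h2 : (modularFunctionFieldBar M).relfinrank (modularFunctionFieldBar (2 * M)) = 3 := by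
    haveI : NeZero (M * 2) := ⟨by have := NeZero.ne M; omega⟩
    have h3 := Fermat.Agent.BAD.H82.relfinrank_FM_FN 2 M Nat.prime_two h2M
    rw [mul_comm M 2] at h3
    exact h3
  rw [h2] at h1
  exact h1.symm

/-- Transfer of `IsNormPow` along a commutative square with coprime degrees. -/
theorem isNormPow_bc {K F₁ F₁' F₂ F₂' : Type*} [Field K] [Field F₁] [Field F₁'] [Field F₂]
    [Field F₂'] [Algebra K F₁] [Algebra K F₁'] [Algebra K F₂] [Algebra K F₂']
    (φ₁ : F₁ →ₐ[K] F₁') (φ₂ : F₂ →ₐ[K] F₂') (ι : F₁ →ₐ[K] F₂)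
    (ι' : F₁' →ₐ[K] F₂') (hcomm : ∀ x, ι' (φ₁ x) = φ₂ (ι x))
    (d e : ℕ) (hd0 : d ≠ 0) (he0 : e ≠ 0) (hcop : Nat.Coprime d e)
    (h1 : finrankAlong K φ₁ = d) (h2 : finrankAlong K ι = e) (h3 : finrankAlong K φ₂ = d)
    (p : ℕ) (x : F₁') (hx : IsNormPow φ₁ p x) : IsNormPow φ₂ p (ι' x) := by
  obtain ⟨t, c, ht⟩ := hx
  refine ⟨ι t, c, ?_⟩
  have key := norm_bc_along φ₁ φ₂ ι ι' hcomm d e hd0 he0 hcop h1 h2 h3 x
  show (letI := algebraAlong φ₂; Algebra.norm F₂ (ι' x)) = _
  rw [key]
  have ht' : (letI := algebraAlong φ₁; Algebra.norm F₁ x) = algebraMap K F₁ c * t ^ p := ht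
  rw [ht', map_mul, map_pow, AlgHom.commutes]


section Up

variable (M : ℕ) [NeZero M] [NeZero (2 * M)]

theorem incl_comm_alpha (hle : modularFunctionFieldBar (M * 3) ≤ modularFunctionFieldBar (2 * M * 3))
    (hle0 : modularFunctionFieldBar M ≤ modularFunctionFieldBar (2 * M)) (x : ↥(FNbar M)) :
    IntermediateField.inclusion hle (heckeAlphaBar Kb M 3 x)
      = heckeAlphaBar Kb (2 * M) 3 (IntermediateField.inclusion hle0 x) := by
  have h1 : ((IntermediateField.inclusion hle (heckeAlphaBar Kb M 3 x) : ↥(FNbar (2 * M * 3))) :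
      LaurentSeries Kb) = ((heckeAlphaBar Kb M 3 x : ↥(FNbar (M * 3))) : LaurentSeries Kb) :=
    IntermediateField.coe_inclusion hle _
  have h2 : ((heckeAlphaBar Kb M 3 x : ↥(FNbar (M * 3))) : LaurentSeries Kb)
      = (x : LaurentSeries Kb) := coe_heckeAlphaBar M 3 x
  have h3 : ((heckeAlphaBar Kb (2 * M) 3 (IntermediateField.inclusion hle0 x) :
      ↥(FNbar (2 * M * 3))) : LaurentSeries Kb)
      = ((IntermediateField.inclusion hle0 x : ↥(FNbar (2 * M))) : LaurentSeries Kb) :=
    coe_heckeAlphaBar (2 * M) 3 _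
  have h4 : ((IntermediateField.inclusion hle0 x : ↥(FNbar (2 * M))) : LaurentSeries Kb)
      = (x : LaurentSeries Kb) := IntermediateField.coe_inclusion hle0 x
  exact Subtype.ext ((h1.trans h2).trans (h3.trans h4).symm)

theorem incl_comm_beta (hle : modularFunctionFieldBar (M * 3) ≤ modularFunctionFieldBar (2 * M * 3))
    (hle0 : modularFunctionFieldBar M ≤ modularFunctionFieldBar (2 * M)) (x : ↥(FNbar M)) :
    IntermediateField.inclusion hle (heckeBetaBar Kb M 3 x)
      = heckeBetaBar Kb (2 * M) 3 (IntermediateField.inclusion hle0 x) := by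
  have h1 : ((IntermediateField.inclusion hle (heckeBetaBar Kb M 3 x) : ↥(FNbar (2 * M * 3))) :
      LaurentSeries Kb) = ((heckeBetaBar Kb M 3 x : ↥(FNbar (M * 3))) : LaurentSeries Kb) :=
    IntermediateField.coe_inclusion hle _
  have h2 : ((heckeBetaBar Kb M 3 x : ↥(FNbar (M * 3))) : LaurentSeries Kb)
      = qExpand Kb 3 (x : LaurentSeries Kb) := coe_heckeBetaBar M 3 x
  have h3 : ((heckeBetaBar Kb (2 * M) 3 (IntermediateField.inclusion hle0 x) :
      ↥(FNbar (2 * M * 3))) : LaurentSeries Kb)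
      = qExpand Kb 3 ((IntermediateField.inclusion hle0 x : ↥(FNbar (2 * M))) :
          LaurentSeries Kb) :=
    coe_heckeBetaBar (2 * M) 3 _
  have h4 : ((IntermediateField.inclusion hle0 x : ↥(FNbar (2 * M))) : LaurentSeries Kb)
      = (x : LaurentSeries Kb) := IntermediateField.coe_inclusion hle0 x
  rw [h4] at h3
  exact Subtype.ext ((h1.trans h2).trans h3.symm)

end Up

end Fermat.Agent.S33.New.H51
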