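import Fermat.Agent.BAD.Defs
import Fermat.Agent.S35.H89_TorsDefs

/-!
# S33, the `p`-new case (`R.Stmt_OrdNew`): torsion-level interface statements  (helper54)

Route: `NOTES/plan/R_S33_NEW.md`.  Level `N = M p`, `p ∤ M`, `p` odd, `A` a valuation ring of
`ℚ̄` over `p`, `K1(n) = BAD.InK1 A N n` (classes with a Kummer function `≡ 1` for the Gauss
valuation).

* `Stmt_K1Sat N p` **(T2)**: `K1(p^(k+1)) ∩ J₀(N)[p^k] ⊆ K1(p^k)`  (every level `N`).
* `Stmt_TorsOrdNew M p` **(T3)**: the inertia group of `A` acts through the mod `p` cyclotomic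
  character on the `p`-new classes of `J₀(M p)[p] ∩ K1(p)`.

`Fermat.Agent.S33.New.H54.ordNew_of_tors` (file `H54_Wire.lean`) deduces `R.Stmt_OrdNew` from
these two statements.  Definitions only.
-/

set_option autoImplicit false

noncomputable section

open AlgebraicCurve ModularCurve

namespace Fermat.Agent.S33.New.H54

/-- **(T2)**: a class of `K1(p^(k+1))` killed by `p^k` lies in `K1(p^k)`, for a valuation ring
over `p`.  [If `p^(k+1) D = div f`, `f ≡ 1`, and `p^k D = div g`, then `f = c g^p`; normalise `g`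
to a Gauss unit; then `red(g)^p` is a constant, hence so is `red(g)` (the residue field of `A` is
perfect and `x^p = 1` implies `x = 1` in characteristic `p`).] -/
def Stmt_K1Sat (N p : ℕ) : Prop :=
  p.Prime → ∀ A : ValuationSubring (AlgebraicClosure ℚ), A.LiesOverPrime p →
    ∀ (k : ℕ) (x : JZero N), BAD.InK1 A N (p ^ (k + 1)) x → p ^ k • x = 0 →
      BAD.InK1 A N (p ^ k) x

/-- **(T3)**: at level `M p`, `p ∤ M`, `p` odd: an element `τ` of the inertia group of `A`
(over `p`) which acts on the `p`-th roots of unity by `ζ ↦ ζ ^ a` acts by multiplication by `a`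
on every `p`-new class of order `p` lying in `K1(p)`. -/
def Stmt_TorsOrdNew (M p : ℕ) [NeZero M] [NeZero p] : Prop :=
  p.Prime → p ≠ 2 → ¬ p ∣ M →
    ∀ A : ValuationSubring (AlgebraicClosure ℚ), A.LiesOverPrime p →
      ∀ τ ∈ A.inertiaSubgroupIn ℚ, ∀ a : ℕ,
        (∀ ζ : AlgebraicClosure ℚ, ζ ^ p = 1 → τ ζ = ζ ^ a) →
        ∀ y : JZero (M * p), p • y = 0 → S35.H89.IsQNew M p y → BAD.InK1 A (M * p) p y →
          τ • y = a • y

end Fermat.Agent.S33.New.H54
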