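import Fermat.Agent.S33.New.H54_Defs
import Fermat.Agent.S36.H44_Push
import Fermat.Agent.BAD.H91_B0
import Fermat.Agent.RED.H17_LiftMove

/-!
# S33, the `p`-new case: the Kummer form of (T3)  (helper86)

* `normAlong φ x` : the norm of `x` along a morphism of function fields `φ`.
* `IsNormPow φ p f` : the norm of `f` along `φ` is a constant times a `p`-th power.
* `Stmt_TorsOrdNewCore M p` : **(T3), Kummer form**: `f ∈ V₁ = gaussV A (M p)` with reduction `1`,
  `p ∣ div f`, whose norms along the two degeneracy maps are `p`-th powers up to constants; `τ` in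
  the inertia group of `A` with `τ ζ = ζ ^ a` on `μ_p`.  Then `τ f / f ^ a` is a `p`-th power.
* `isNormPow_of_isPrincipal` : if `p D = div f` and the push-forward of `D` is principal, then the
  norm of `f` is a constant times a `p`-th power.
* `torsOrdNew_of_core : Stmt_TorsOrdNewCore M p → H54.Stmt_TorsOrdNew M p`.
-/

set_option autoImplicit false
set_option linter.style.haveILetI false
set_option linter.unusedSectionVars false

noncomputable section

open AlgebraicCurve ModularCurve Fermat.Agent.S28.H73 Fermat.Agent.RED.H73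

namespace Fermat.Agent.S33.New.H86

open Fermat.Agent.BAD Fermat.Agent.S36.H44

local notation "Kb" => AlgebraicClosure ℚ

section Generic

variable {K F F' : Type*} [Field K] [Field F] [Field F'] [Algebra K F] [Algebra K F']

/-- The norm along a morphism of function fields. -/
def normAlong (φ : F →ₐ[K] F') (x : F') : F :=
  letI := algebraAlong φ
  Algebra.norm F x

/-- The norm of `f` along `φ` is a constant times a `p`-th power. -/
def IsNormPow (φ : F →ₐ[K] F') (p : ℕ) (f : F') : Prop :=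
  ∃ (t : F) (c : K), normAlong φ f = algebraMap K F c * t ^ p

theorem normAlong_mul (φ : F →ₐ[K] F') (x y : F') :
    normAlong φ (x * y) = normAlong φ x * normAlong φ y := by
  letI := algebraAlong φ
  exact map_mul (Algebra.norm F) x y

theorem normAlong_pow (φ : F →ₐ[K] F') (x : F') (n : ℕ) :
    normAlong φ (x ^ n) = normAlong φ x ^ n := by
  letI := algebraAlong φ
  exact map_pow (Algebra.norm F) x n

theorem normAlong_one (φ : F →ₐ[K] F') : normAlong φ (1 : F') = 1 := by
  letI := algebraAlong φ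
  exact map_one (Algebra.norm F)

end Generic

/-- **(T3), Kummer form**, at level `M p`. -/
def Stmt_TorsOrdNewCore (M p : ℕ) [NeZero M] [NeZero p] : Prop :=
  p.Prime → p ≠ 2 → ¬ p ∣ M →
    ∀ A : ValuationSubring Kb, A.LiesOverPrime p →
      ∀ τ ∈ A.inertiaSubgroupIn ℚ, ∀ a : ℕ,
        (∀ ζ : Kb, ζ ^ p = 1 → τ ζ = ζ ^ a) →
        ∀ f : ↥(gaussV A (M * p)), gaussRes A (M * p) f = 1 →
          (∀ P : Place Kb ↥(FNbar (M * p)), (p : ℤ) ∣ P.ord ((f : ↥(FNbar (M * p))))) →
          IsNormPow (heckeAlphaBar Kb M p) p ((f : ↥(FNbar (M * p)))) →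
          IsNormPow (heckeBetaBar Kb M p) p ((f : ↥(FNbar (M * p)))) →
          ∃ h : ↥(FNbar (M * p)),
            h ^ p = (galF (M * p) τ • ((f : ↥(FNbar (M * p))))) / ((f : ↥(FNbar (M * p)))) ^ a

section Generic2

variable {K F F' : Type} [Field K] [Field F] [Field F'] [Algebra K F] [Algebra K F']

/-- If `p D = div f` and the push-forward of `D` along `φ` is principal, the norm of `f` is a
constant times a `p`-th power. -/
theorem isNormPow_of_isPrincipal (H : Fermat.Agent.RED.H17.FFHyp K F) (φ : F →ₐ[K] F')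
    (hφ : φ.toRingHom.IsIntegral) (hfin : FiniteAlong K φ) (hN : NormFormulaAlong K φ hfin)
    (p : ℕ) (D : Divisor K F') (f : F') (hf : f ≠ 0)
    (hD : ∀ P : Place K F', (p : ℤ) * D P = P.ord f)
    (hprin : (Divisor.pushforwardAlong φ hφ D).IsPrincipal) :
    IsNormPow φ p f := by
  obtain ⟨t, ht0, ht⟩ := hprin
  letI := algebraAlong φ
  haveI := isScalarTower_along φ
  haveI := isIntegral_along φ hφ
  haveI : Module.Finite F F' := hfin
  have hN' : Divisor.PushforwardNormFormula K F F' := hN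
  have h1 : ∀ v : Place K F, Divisor.pushforward F (p • D) v = v.ord (Algebra.norm F f) :=
    hN' f hf (p • D) (fun w => by
      rw [Finsupp.smul_apply, ← hD w]
      simp)
  have h2 : ∀ v : Place K F, v.ord (Algebra.norm F f) = v.ord (t ^ p) := by
    intro v
    rw [← h1 v, map_nsmul, Finsupp.smul_apply]
    have h3 : Divisor.pushforward F D v = v.ord t := ht v
    rw [h3]
    have := Place.ord_zpow v t (p : ℤ)
    rw [zpow_natCast] at this
    rw [this]
    simp
  have hn0 : Algebra.norm F f ≠ 0 := by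
    rw [Ne, Algebra.norm_eq_zero_iff]
    exact hf
  have htp0 : t ^ p ≠ 0 := pow_ne_zero _ ht0
  obtain ⟨c, hc⟩ := H.const_of_regular (f := Algebra.norm F f / t ^ p) (fun v => by
    rw [div_eq_mul_inv, Place.ord_mul _ hn0 (inv_ne_zero htp0), Place.ord_inv, h2 v]
    simp)
  refine ⟨t, c, ?_⟩
  show Algebra.norm F f = algebraMap K F c * t ^ p
  rw [← hc, div_mul_cancel₀ _ htp0]

end Generic2

/-- Riemann's hypotheses for `F_N · ℚ̄`. -/
theorem ffHyp_FNbar (N : ℕ) [NeZero N] : Fermat.Agent.RED.H17.FFHyp Kb ↥(FNbar N) :=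
  Fermat.Agent.RED.H17.ffHyp_of_isFF _ _ (isFF_FN N)

/-- **(T3) from its Kummer form.** -/
theorem torsOrdNew_of_core (M p : ℕ) [NeZero M] [NeZero p] (h : Stmt_TorsOrdNewCore M p) :
    H54.Stmt_TorsOrdNew M p := by
  intro hp hp2 hpM A hA τ hτ a hζ y hy hnew hK1
  obtain ⟨D, f, rfl, hres, hD⟩ := hK1
  obtain ⟨h1, h2⟩ := (isQNew_iff M p _).1 hnew
  have hα := (pic0Push_mk_eq_zero_iff (heckeAlphaBar Kb M p) (alpha_integral M p)
    (alpha_finite M p) (alpha_norm M p) D).1 h1
  have hβ := (pic0Push_mk_eq_zero_iff (heckeBetaBar Kb M p) (beta_integral M p)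
    (beta_finite M p) (beta_norm M p) D).1 h2
  have hf0 : ((f : ↥(gaussV A (M * p))) : ↥(FNbar (M * p))) ≠ 0 := by
    intro h0
    have e : f = 0 := Subtype.ext h0
    rw [e, map_zero] at hres
    exact zero_ne_one hres
  have hNα := isNormPow_of_isPrincipal (ffHyp_FNbar M) (heckeAlphaBar Kb M p)
    (alpha_integral M p) (alpha_finite M p) (alpha_norm M p) p _ _ hf0 hD hα
  have hNβ := isNormPow_of_isPrincipal (ffHyp_FNbar M) (heckeBetaBar Kb M p)
    (beta_integral M p) (beta_finite M p) (beta_norm M p) p _ _ hf0 hD hβ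
  obtain ⟨t, ht⟩ := h hp hp2 hpM A hA τ hτ a hζ f hres (fun P => ⟨_, (hD P).symm⟩) hNα hNβ
  have hp0 : (p : ℤ) ≠ 0 := by exact_mod_cast hp.ne_zero
  have hσf0 : galF (M * p) τ • ((f : ↥(gaussV A (M * p))) : ↥(FNbar (M * p))) ≠ 0 := by
    intro h0
    apply hf0
    have h1 := congrArg (fun z => (galF (M * p) τ)⁻¹ • z) h0
    simp only [inv_smul_smul, smul_zero] at h1
    exact h1
  have hfa0 : ((f : ↥(gaussV A (M * p))) : ↥(FNbar (M * p))) ^ a ≠ 0 := pow_ne_zero _ hf0
  have ht0 : t ≠ 0 := by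
    rintro rfl
    rw [zero_pow hp.ne_zero] at ht
    exact (div_ne_zero hσf0 hfa0) ht.symm
  -- `τ D - a D = div t`
  have hprin : ((SemilinearAut.degZeroSMulHom (galF (M * p) τ) D - a • D :
      Divisor.degZero (K := Kb) (F := ↥(FNbar (M * p)))) : Divisor Kb ↥(FNbar (M * p))) ∈
      Divisor.principal (K := Kb) (F := ↥(FNbar (M * p))) := by
    refine ⟨t, ht0, fun P => ?_⟩
    have e : ((SemilinearAut.degZeroSMulHom (galF (M * p) τ) D - a • D :
        Divisor.degZero (K := Kb) (F := ↥(FNbar (M * p)))) : Divisor Kb ↥(FNbar (M * p))) P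
        = (D : Divisor Kb ↥(FNbar (M * p))) ((galF (M * p) τ)⁻¹ • P)
          - (a : ℤ) * (D : Divisor Kb ↥(FNbar (M * p))) P := by
      rw [AddSubgroup.coe_sub, SemilinearAut.coe_degZeroSMulHom, Finsupp.sub_apply,
        SemilinearAut.divisor_smul_apply, AddSubgroup.coe_nsmul, Finsupp.smul_apply]
      simp
    rw [e]
    apply mul_left_cancel₀ hp0
    have h1 : (p : ℤ) * P.ord t = P.ord (t ^ p) := by
      have := Place.ord_zpow P t (p : ℤ)
      rw [zpow_natCast] at this
      exact this.symm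
    have h2 : P.ord (((f : ↥(gaussV A (M * p))) : ↥(FNbar (M * p))) ^ a)
        = (a : ℤ) * P.ord ((f : ↥(gaussV A (M * p))) : ↥(FNbar (M * p))) := by
      have := Place.ord_zpow P ((f : ↥(gaussV A (M * p))) : ↥(FNbar (M * p))) (a : ℤ)
      rw [zpow_natCast] at this
      exact this
    rw [h1, ht, div_eq_mul_inv, Place.ord_mul _ hσf0 (inv_ne_zero hfa0), Place.ord_inv, h2,
      H91.ord_galF_smul, ← hD, ← hD]
    ring
  have hzero : (Pic0.mk (SemilinearAut.degZeroSMulHom (galF (M * p) τ) D - a • D) : JZero (M * p)) = 0 :=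
    (QuotientAddGroup.eq_zero_iff _).2 (AddSubgroup.mem_addSubgroupOf.2 hprin)
  have hsub : galF (M * p) τ • (Pic0.mk D : JZero (M * p)) - a • (Pic0.mk D : JZero (M * p)) = 0 := by
    rw [SemilinearAut.pic0_smul_mk]
    exact hzero
  exact sub_eq_zero.1 hsub

end Fermat.Agent.S33.New.H86
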