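import Fermat.Agent.RED.H73_GAVal
attribute [local instance 10000] SubalgebraClass.toAlgebra
attribute [local instance 10000] HahnSeries.powerSeriesAlgebra

/-!
# S33 / S59, package STRICT, leaf FROB2-DESC3, part 2: the generic descent (helper86)

`C` a field, `O` a valuation ring of `C`, `F ≤ F'` two fields of Laurent series over `C` with the
scaling property.  If `n`-th roots exist in the residue field of `O` and the residue field of `F`
is `n`-th-root closed in `k((t))`, then the Kummer form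

  `c · G · t' ^ n ≡ 1` in the Gauss ring of `F'`  (`G ∈ F`, `t' ∈ F'`)

descends to `F`:  `c₁ · G · w ^ n ≡ 1` in the Gauss ring of `F` for some `w ∈ F`.
-/

set_option autoImplicit false
set_option linter.style.haveILetI false
set_option linter.unusedSectionVars false

noncomputable section

open ModularCurve Fermat.Agent.S28 Fermat.Agent.S28.H73 Fermat.Agent.RED.H73

namespace Fermat.Agent.S33.New.H86

section Generic

variable {C : Type} [Field C] (O : ValuationSubring C)
variable {F F' : IntermediateField C (LaurentSeries C)}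

/-- An element of the Gauss ring with nonzero reduction has an inverse in the Gauss ring. -/
theorem exists_inv_gaussResF (h : HasScale O F) (x : ↥(gaussValSub O F h))
    (hx : gaussResF O h x ≠ 0) :
    ∃ v : ↥(gaussValSub O F h), x * v = 1 ∧ gaussResF O h x * gaussResF O h v = 1 := by
  have hu : IsUnit x := (isUnit_iff_gaussResF_ne_zero O h x).2 hx
  obtain ⟨v, hv⟩ := hu.exists_right_inv
  exact ⟨v, hv, by rw [← map_mul, hv, map_one]⟩

/-- The Gauss ring and the reduction are compatible with an inclusion of fields of series. -/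
theorem gaussResF_inclusion (hle : F ≤ F') (h : HasScale O F) (h' : HasScale O F')
    (x : ↥(gaussValSub O F h)) :
    ∃ hm : IntermediateField.inclusion hle (x : ↥F) ∈ gaussValSub O F' h',
      gaussResF O h' ⟨_, hm⟩ = gaussResF O h x := by
  have hm : IntermediateField.inclusion hle (x : ↥F) ∈ gaussValSub O F' h' := by
    rw [mem_gaussValSub_iff, IntermediateField.coe_inclusion]
    exact x.2
  refine ⟨hm, ?_⟩
  rw [gaussResF_apply, gaussResF_apply]
  congr 1

/-- The constant of the descent. -/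
theorem key_const_inv {K E : Type*} [Field K] [Field E] [Algebra K E] (c c₀ e₀ : K)
    (X T v : E) (n : ℕ)
    (h : algebraMap K E c * (algebraMap K E c₀ * X) * (algebraMap K E e₀ * T) ^ n * v = 1) :
    X * T ^ n * v = algebraMap K E (c * c₀ * e₀ ^ n)⁻¹ := by
  have h1 : algebraMap K E (c * c₀ * e₀ ^ n) * (X * T ^ n * v) = 1 := by
    rw [← h, map_mul, map_mul, map_pow]
    ring
  rw [map_inv₀]
  exact eq_inv_of_mul_eq_one_right h1

/-- **The generic descent of the Kummer form.** -/
theorem descent_generic (hle : F ≤ F') (h : HasScale O F) (h' : HasScale O F')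
    (n : ℕ) (hn : 0 < n)
    (hroot : ∀ x : kV O, ∃ l : kV O, l ^ n = x)
    (hsep : ∀ y : LaurentSeries (kV O), y ^ n ∈ redField O F h → y ∈ redField O F h)
    (G : ↥F) (hG0 : G ≠ 0) (c : C) (t' : ↥F') (ht' : t' ≠ 0)
    (hu : algebraMap C ↥F' c * IntermediateField.inclusion hle G * t' ^ n
      ∈ gaussValSub O F' h')
    (hru : gaussResF O h' ⟨_, hu⟩ = 1) :
    ∃ (c₁ : C) (w : ↥F), c₁ ≠ 0 ∧ w ≠ 0 ∧
      ∃ hm : algebraMap C ↥F c₁ * G * w ^ n ∈ gaussValSub O F h,
        gaussResF O h ⟨_, hm⟩ = 1 := by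
  -- scalings
  obtain ⟨c₀, u, hc₀, hGu⟩ := exists_unit_scale O h G hG0
  obtain ⟨e₀, u', he₀, htu⟩ := exists_unit_scale O h' t' ht'
  have hψ0 : gaussResF O h (u : ↥(gaussValSub O F h)) ≠ 0 :=
    (isUnit_iff_gaussResF_ne_zero O h _).1 u.isUnit
  have hτ0 : gaussResF O h' (u' : ↥(gaussValSub O F' h')) ≠ 0 :=
    (isUnit_iff_gaussResF_ne_zero O h' _).1 u'.isUnit
  obtain ⟨hmX, hrX⟩ := gaussResF_inclusion O hle h h' (u : ↥(gaussValSub O F h))
  -- the inverse of the given unit
  obtain ⟨v, hv, hvr⟩ := exists_inv_gaussResF O h' ⟨_, hu⟩ (by rw [hru]; exact one_ne_zero)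
  rw [hru, one_mul] at hvr
  -- the constant
  have hval : algebraMap C ↥F' c * (algebraMap C ↥F' c₀
        * IntermediateField.inclusion hle ((u : ↥(gaussValSub O F h)) : ↥F))
      * (algebraMap C ↥F' e₀ * ((u' : ↥(gaussValSub O F' h')) : ↥F')) ^ n
      * (v : ↥F') = 1 := by
    have h0 : (algebraMap C ↥F' c * IntermediateField.inclusion hle G * t' ^ n)
        * (v : ↥F') = 1 := congrArg Subtype.val hv
    have e1 : IntermediateField.inclusion hle G = algebraMap C ↥F' c₀
        * IntermediateField.inclusion hle ((u : ↥(gaussValSub O F h)) : ↥F) := by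
      conv_lhs => rw [hGu]
      rw [map_mul, AlgHom.commutes]
    rw [← e1, ← htu]
    exact h0
  have hK := key_const_inv c c₀ e₀ _ _ _ n hval
  set κ : C := (c * c₀ * e₀ ^ n)⁻¹ with hκ
  have hKV : algebraMap C ↥F' κ ∈ gaussValSub O F' h' := by
    rw [← hK]
    exact (gaussValSub O F' h').mul_mem _ _
      ((gaussValSub O F' h').mul_mem _ _ hmX (pow_mem (u' : ↥(gaussValSub O F' h')).2 n)) v.2
  have hκO : κ ∈ O := (algebraMap_mem_gaussValSub_iff O h' κ).1 hKV
  have hres : (HahnSeries.C (resV O ⟨κ, hκO⟩) : LaurentSeries (kV O))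
      = gaussResF O h (u : ↥(gaussValSub O F h))
        * gaussResF O h' (u' : ↥(gaussValSub O F' h')) ^ n := by
    rw [← gaussResF_algebraMap O h' ⟨κ, hκO⟩ hKV]
    have e2 : (⟨algebraMap C ↥F' κ, hKV⟩ : ↥(gaussValSub O F' h'))
        = (⟨_, hmX⟩ : ↥(gaussValSub O F' h')) * (u' : ↥(gaussValSub O F' h')) ^ n * v :=
      Subtype.ext hK.symm
    rw [e2, map_mul, map_mul, map_pow, hvr, mul_one, hrX]
  -- the root
  obtain ⟨lam, hlam⟩ := hroot (resV O ⟨κ, hκO⟩)
  have hyn : ((HahnSeries.C lam : LaurentSeries (kV O))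
      * (gaussResF O h' (u' : ↥(gaussValSub O F' h')))⁻¹) ^ n
      = gaussResF O h (u : ↥(gaussValSub O F h)) := by
    rw [mul_pow, ← map_pow, hlam, hres, inv_pow, mul_assoc,
      mul_inv_cancel₀ (pow_ne_zero _ hτ0), mul_one]
  have hy0 : (HahnSeries.C lam : LaurentSeries (kV O))
      * (gaussResF O h' (u' : ↥(gaussValSub O F' h')))⁻¹ ≠ 0 := by
    intro h0
    rw [h0, zero_pow hn.ne'] at hyn
    exact hψ0 hyn.symm
  have hyE := hsep _ (by rw [hyn]; exact gaussResF_mem_redField O h _)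
  obtain ⟨t₀, ht₀⟩ := (mem_redField_iff O h _).1 hyE
  obtain ⟨w, hw, hwr⟩ := exists_inv_gaussResF O h t₀ (by rw [ht₀]; exact hy0)
  have hw0 : (w : ↥F) ≠ 0 := by
    intro h0
    have h1 : (t₀ : ↥F) * (w : ↥F) = 1 := congrArg Subtype.val hw
    rw [h0, mul_zero] at h1
    exact zero_ne_one h1
  have heq : algebraMap C ↥F c₀⁻¹ * G * (w : ↥F) ^ n
      = (((u : ↥(gaussValSub O F h)) * w ^ n : ↥(gaussValSub O F h)) : ↥F) := by
    have e3 : algebraMap C ↥F c₀⁻¹ * G = ((u : ↥(gaussValSub O F h)) : ↥F) := by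
      rw [hGu, ← mul_assoc, ← map_mul, inv_mul_cancel₀ hc₀, map_one, one_mul]
    rw [e3]
    rfl
  have hm : algebraMap C ↥F c₀⁻¹ * G * (w : ↥F) ^ n ∈ gaussValSub O F h := by
    rw [heq]
    exact ((u : ↥(gaussValSub O F h)) * w ^ n).2
  refine ⟨c₀⁻¹, (w : ↥F), inv_ne_zero hc₀, hw0, hm, ?_⟩
  have e4 : (⟨_, hm⟩ : ↥(gaussValSub O F h)) = (u : ↥(gaussValSub O F h)) * w ^ n :=
    Subtype.ext heq
  rw [e4, map_mul, map_pow, ← hyn, ← mul_pow, ← ht₀, hwr, one_pow]

end Generic

end Fermat.Agent.S33.New.H86
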