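import Fermat.Agent.BAD.H23_TotMod

/-!
# S33 / S59, package STRICT, leaf FROB2-DESC3, part 1: separability on the residue side (helper86)

`F₁ = F1 A q M ⊂ k((t))` the residue field of the Gauss valuation of level `M q` (`q ∤ M`,
`A` over `q`).

* `sep_step` : a Laurent series `z ∈ k((t))` with `z ^ q ∈ F₁` lies in `F₁`.
* `sep_pow`  : the same with `z ^ (q ^ n) ∈ F₁`.

Proof: `F₁` has degree `q` (prime) over `Fr (F₁)` (`H23.finrank_alg2`), and `j~ ∈ F₁` is not a
series in `t ^ q`; so an element `a ∈ F₁` which is a series in `t ^ q` is in `Fr (F₁)` (else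
`F₁ = Fr (F₁) (a)` would consist of series in `t ^ q`).  For `a = z ^ q = Fr (φ z)` this gives
`φ z ∈ F₁`, and `F₁` is stable under the coefficientwise Frobenius `φ`.
-/

set_option autoImplicit false
set_option linter.style.haveILetI false
set_option linter.unusedSectionVars false
set_option synthInstance.maxHeartbeats 400000
set_option maxHeartbeats 1000000

noncomputable section

open AlgebraicCurve ModularCurve
open Fermat.Agent.S28.H73 Fermat.Agent.RED.H73 Fermat.Agent.RED Fermat.Agent.S24
open Fermat.Agent.BAD.H88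

namespace Fermat.Agent.S33.New.H86

open Fermat.Agent.BAD

section Sep

variable (A : ValuationSubring Kbar) (q M : ℕ) (a b : ℤ) (hab : a * q + b * M = 1)
  (hq : q.Prime) [NeZero M] [NeZero (M * q)] (hA : A.LiesOverPrime q) (hqM : ¬ q ∣ M)

include hab hA hqM in
/-- An element of `F₁` which is a series in `t ^ q` is in the image of `Fr`. -/
theorem mem_range_alg2_of_qExpand
    (hD : redField A (modularFunctionFieldBar (M * q)) (hSc A q M)
      = modularFunctionFieldFullC (kV A) M)
    (x : F1 A q M) (w : LaurentSeries (kV A))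
    (hx : (x : LaurentSeries (kV A)) = (haveI : NeZero q := ⟨hq.ne_zero⟩; qExpand (kV A) q w)) :
    ∃ y : ↥(H91.redM A M),
      H73.FrF1 A q M hq hA M hD (H23.eRed A q M a b hab hq hA y) = x := by
  haveI : NeZero q := ⟨hq.ne_zero⟩
  letI := H23.alg2 A q M a b hab hq hA hD
  haveI : Module.Finite ↥(H91.redM A M) (F1 A q M) := H23.finite_alg2 A q M a b hab hq hA hD hqM
  have hfin : Module.finrank ↥(H91.redM A M) (F1 A q M) = q :=
    H23.finrank_alg2 A q M a b hab hq hA hD hqM
  haveI : IsSimpleOrder (IntermediateField ↥(H91.redM A M) (F1 A q M)) :=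
    IntermediateField.isSimpleOrder_of_finrank_prime _ _ (by rw [hfin]; exact hq)
  rcases eq_bot_or_eq_top (IntermediateField.adjoin ↥(H91.redM A M) ({x} : Set (F1 A q M)))
    with hbot | htop
  · have hxm : x ∈ IntermediateField.adjoin ↥(H91.redM A M) ({x} : Set (F1 A q M)) :=
      IntermediateField.mem_adjoin_simple_self _ x
    rw [hbot, IntermediateField.mem_bot] at hxm
    obtain ⟨y, hy⟩ := hxm
    exact ⟨y, hy⟩
  · exfalso
    -- every element of `F₁` is a series in `t ^ q`
    have hall : ∀ y ∈ IntermediateField.adjoin ↥(H91.redM A M) ({x} : Set (F1 A q M)),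
        ∃ w' : LaurentSeries (kV A), (y : LaurentSeries (kV A)) = qExpand (kV A) q w' := by
      intro y hy
      induction hy using IntermediateField.adjoin_induction with
      | mem y hy =>
        rw [Set.mem_singleton_iff] at hy
        exact ⟨w, hy ▸ hx⟩
      | algebraMap y =>
        exact ⟨((H23.eRed A q M a b hab hq hA y : F1 A q M) : LaurentSeries (kV A)),
          H73.coe_FrF1 A q M hq hA M hD _⟩
      | add y₁ y₂ _ _ h₁ h₂ =>
        obtain ⟨w₁, hw₁⟩ := h₁
        obtain ⟨w₂, hw₂⟩ := h₂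
        refine ⟨w₁ + w₂, ?_⟩
        rw [map_add, ← hw₁, ← hw₂]
        rfl
      | inv y _ h₁ =>
        obtain ⟨w₁, hw₁⟩ := h₁
        refine ⟨w₁⁻¹, ?_⟩
        rw [map_inv₀, ← hw₁]
        rfl
      | mul y₁ y₂ _ _ h₁ h₂ =>
        obtain ⟨w₁, hw₁⟩ := h₁
        obtain ⟨w₂, hw₂⟩ := h₂
        refine ⟨w₁ * w₂, ?_⟩
        rw [map_mul, ← hw₁, ← hw₂]
        rfl
    have hj : (⟨jqModC (kV A), H73.jqModC_mem_F1 A q M M hD⟩ : F1 A q M)
        ∈ IntermediateField.adjoin ↥(H91.redM A M) ({x} : Set (F1 A q M)) := by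
      rw [htop]
      exact IntermediateField.mem_top
    obtain ⟨w', hw'⟩ := hall _ hj
    have h1 : (jqModC (kV A)).coeff (-1 : ℤ) = 0 := by
      have h2 : jqModC (kV A) = qExpand (kV A) q w' := hw'
      rw [h2]
      refine qExpand_coeff_of_not_dvd q w' ?_
      intro hd
      have h3 : ((q : ℕ) : ℤ) ∣ 1 := (dvd_neg (a := (q : ℤ)) (b := 1)).mp hd
      have h4 : q ∣ 1 := by exact_mod_cast h3
      exact hq.one_lt.ne' (Nat.dvd_one.mp h4)
    rw [coeff_jqModC_neg_one] at h1
    exact one_ne_zero h1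

include hab hq hA hqM in
/-- **SEP**, one step: `z ^ q ∈ F₁ ⇒ z ∈ F₁`. -/
theorem sep_step (z : LaurentSeries (kV A))
    (hz : z ^ q ∈ redField A (modularFunctionFieldBar (M * q)) (hSc A q M)) :
    z ∈ redField A (modularFunctionFieldBar (M * q)) (hSc A q M) := by
  haveI : NeZero q := ⟨hq.ne_zero⟩
  haveI : Fact q.Prime := ⟨hq⟩
  haveI : CharP (kV A) q := H82.charP_kV A hq hA
  haveI : IsAlgClosed (kV A) := isAlgClosed_kV A
  haveI : PerfectRing (kV A) q := H73.perfectRing_kV A q
  have hD := H82.redField_eq_fullC q M a b hab hq A hA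
  have hstab : H73.FrobStable q (redField A (modularFunctionFieldBar (M * q)) (hSc A q M)) :=
    H73.frobStable_F1 A q M hq hA M hD
  obtain ⟨y, hy⟩ := mem_range_alg2_of_qExpand A q M a b hab hq hA hqM hD ⟨z ^ q, hz⟩
    (H73.frobL (kV A) q z) (H73.pow_eq_qExpand_frobL q z)
  have h1 := congrArg (Subtype.val : F1 A q M → LaurentSeries (kV A)) hy
  rw [H73.coe_FrF1] at h1
  have h2 : qExpand (kV A) q ((H23.eRed A q M a b hab hq hA y : F1 A q M) : LaurentSeries (kV A))
      = qExpand (kV A) q (H73.frobL (kV A) q z) := by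
    rw [h1]
    exact H73.pow_eq_qExpand_frobL q z
  have h3 := qExpand_injective q h2
  have h4 : H73.frobL (kV A) q z ∈ redField A (modularFunctionFieldBar (M * q)) (hSc A q M) := by
    rw [← h3]
    exact (H23.eRed A q M a b hab hq hA y).2
  exact (hstab z).1 h4

include hab hq hA hqM in
/-- **SEP**: `z ^ (q ^ n) ∈ F₁ ⇒ z ∈ F₁`. -/
theorem sep_pow (n : ℕ) (z : LaurentSeries (kV A))
    (hz : z ^ (q ^ n) ∈ redField A (modularFunctionFieldBar (M * q)) (hSc A q M)) :
    z ∈ redField A (modularFunctionFieldBar (M * q)) (hSc A q M) := by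
  induction n generalizing z with
  | zero =>
    rw [pow_zero, pow_one] at hz
    exact hz
  | succ n ih =>
    apply ih
    apply sep_step A q M a b hab hq hA hqM
    rw [← pow_mul, ← pow_succ]
    exact hz

end Sep

end Fermat.Agent.S33.New.H86
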