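import Fermat.Agent.S33.New.H36_Frob2Defs
import Fermat.Agent.S33.New.H86_Sep
import Fermat.Agent.S33.New.H86_Frob2Gen
import Fermat.Agent.S33.New.H51_Desc3Norm
attribute [local instance 10000] SubalgebraClass.toAlgebra
attribute [local instance 10000] HahnSeries.powerSeriesAlgebra

/-!
# S33 / S59, package STRICT, leaf FROB2-DESC3 (helper86)

`stmt_Frob2Desc3 : H36.Stmt_Frob2Desc3` : the Kummer form of (FROB2) descends from level
`2 M · 3` to level `M · 3`.

The hypotheses lift as in `H51.stmt_Desc3` (base change of the norm).  The conclusion descends by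
separability on the residue side (`sep_pow`), through the generic descent `descent_generic`:
if `c (g f / f) t' ^ n ≡ 1` at level `6 M`, then the reduction `ψ` of a scaling of `g f / f` at
level `3 M` is `y ^ n` with `y ∈ k((t))` (the inverse of the reduction of a scaling of `t'`, times
a constant), hence `y` is in the residue field of level `3 M`; lift it.
-/

set_option autoImplicit false
set_option linter.style.haveILetI false
set_option linter.unusedSectionVars false
set_option synthInstance.maxHeartbeats 400000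
set_option maxHeartbeats 1000000

noncomputable section

open HahnSeries IntermediateField AlgebraicCurve ModularCurve
open Fermat.Agent.S28.H73 Fermat.Agent.RED.H73 Fermat.Agent.RED Fermat.Agent.S24
open Fermat.Agent.BAD.H88

namespace Fermat.Agent.S33.New.H86

open Fermat.Agent.BAD Fermat.Agent.S36.H44 Fermat.Agent.BAD.H91

local notation "Kb" => AlgebraicClosure ℚ

/-- Replacing the middle factor by an equal one. -/
theorem transport_gaussRes (A : ValuationSubring Kb) (N : ℕ) (x y : ↥(FNbar N))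
    (hxy : x = y) (c : Kb) (t : ↥(FNbar N)) (n : ℕ)
    (hu : algebraMap Kb ↥(FNbar N) c * x * t ^ n ∈ gaussV A N)
    (hr : gaussRes A N ⟨_, hu⟩ = 1) :
    ∃ hu' : algebraMap Kb ↥(FNbar N) c * y * t ^ n ∈ gaussV A N,
      gaussResF A (hasScale_laurentBaseChange A N) ⟨_, hu'⟩ = 1 := by
  subst hxy
  exact ⟨hu, congrArg Subtype.val hr⟩

/-- The hypotheses of (FROB2) lift from level `M · 3` to level `2 M · 3`. -/
theorem frob2_lift_hyps (M : ℕ) [NeZero M] [NeZero (2 * M)] (h2M : ¬ 2 ∣ M) (h3M : ¬ 3 ∣ M)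
    (hle : modularFunctionFieldBar (M * 3) ≤ modularFunctionFieldBar (2 * M * 3))
    (k : ℕ) (f : ↥(FNbar (M * 3)))
    (hdiv : ∀ P : Place Kb ↥(FNbar (M * 3)), ((3 ^ k : ℕ) : ℤ) ∣ P.ord f)
    (hNα : IsNormPow (heckeAlphaBar Kb M 3) (3 ^ k) f)
    (hNβ : IsNormPow (heckeBetaBar Kb M 3) (3 ^ k) f) :
    (∀ P' : Place Kb ↥(FNbar (2 * M * 3)),
      ((3 ^ k : ℕ) : ℤ) ∣ P'.ord (IntermediateField.inclusion hle f)) ∧
    IsNormPow (heckeAlphaBar Kb (2 * M) 3) (3 ^ k) (IntermediateField.inclusion hle f) ∧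
    IsNormPow (heckeBetaBar Kb (2 * M) 3) (3 ^ k) (IntermediateField.inclusion hle f) := by
  have h3M2 : ¬ 3 ∣ 2 * M := by
    intro h
    rcases (Nat.Prime.dvd_mul Nat.prime_three).1 h with h' | h'
    · omega
    · exact h3M h'
  have hle0 : modularFunctionFieldBar M ≤ modularFunctionFieldBar (2 * M) :=
    S18.modularFunctionFieldBar_mono (Dvd.intro_left 2 rfl)
  have hint : (IntermediateField.inclusion hle).toRingHom.IsIntegral :=
    (H51.stmt_FFB_finite _ _ _ (H95.stmt_HKA_isFF (M * 3)) (H95.stmt_HKA_isFF (2 * M * 3)) _).1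
  set φ : ↥(FNbar (M * 3)) →ₐ[AlgebraicClosure ℚ] ↥(FNbar (2 * M * 3)) :=
    IntermediateField.inclusion hle with hφdef
  set ι : ↥(FNbar M) →ₐ[AlgebraicClosure ℚ] ↥(FNbar (2 * M)) :=
    IntermediateField.inclusion hle0 with hιdef
  refine ⟨?_, ?_, ?_⟩
  · intro P'
    letI := algebraAlong φ
    haveI := isScalarTower_along φ
    haveI := isIntegral_along φ hint
    have h1 := P'.ord_restrict (F := ↥(FNbar (M * 3))) f
    have h2 : φ f = algebraMap ↥(FNbar (M * 3)) ↥(FNbar (2 * M * 3)) f := rfl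
    rw [h2, h1]
    exact Dvd.dvd.mul_left (hdiv _) _
  · refine Fermat.Agent.S33.New.H51.isNormPow_bc (heckeAlphaBar Kb M 3)
      (heckeAlphaBar Kb (2 * M) 3) ι φ ?_ 4 3
      (by norm_num) (by norm_num) (by norm_num) ?_ ?_ ?_ (3 ^ k) _ hNα
    · exact Fermat.Agent.S33.New.H51.incl_comm_alpha M hle hle0
    · exact Fermat.Agent.RED.H95.finrankAlong_alpha Nat.prime_three h3M
    · exact Fermat.Agent.S33.New.H51.finrankAlong_incl_two M h2M hle0
    · exact Fermat.Agent.RED.H95.finrankAlong_alpha Nat.prime_three h3M2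
  · refine Fermat.Agent.S33.New.H51.isNormPow_bc (heckeBetaBar Kb M 3)
      (heckeBetaBar Kb (2 * M) 3) ι φ ?_ 4 3
      (by norm_num) (by norm_num) (by norm_num) ?_ ?_ ?_ (3 ^ k) _ hNβ
    · exact Fermat.Agent.S33.New.H51.incl_comm_beta M hle hle0
    · exact Fermat.Agent.RED.H95.finrankAlong_beta Nat.prime_three h3M
    · exact Fermat.Agent.S33.New.H51.finrankAlong_incl_two M h2M hle0
    · exact Fermat.Agent.RED.H95.finrankAlong_beta Nat.prime_three h3M2

/-- The Galois quotient `g f / f` commutes with the inclusion of levels. -/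
theorem galF_quot_inclusion (M : ℕ)
    (hle : modularFunctionFieldBar (M * 3) ≤ modularFunctionFieldBar (2 * M * 3))
    (g : GalQ) (f : ↥(FNbar (M * 3))) :
    (galF (2 * M * 3) g • IntermediateField.inclusion hle f) / IntermediateField.inclusion hle f
      = IntermediateField.inclusion hle ((galF (M * 3) g • f) / f) := by
  have hcoe : ∀ x : ↥(FNbar (M * 3)),
      ((IntermediateField.inclusion hle x : ↥(FNbar (2 * M * 3))) :
        LaurentSeries (AlgebraicClosure ℚ)) = (x : LaurentSeries (AlgebraicClosure ℚ)) :=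
    fun x => IntermediateField.coe_inclusion hle x
  have e1 : galF (2 * M * 3) g • IntermediateField.inclusion hle f
      = IntermediateField.inclusion hle (galF (M * 3) g • f) := by
    apply Subtype.ext
    rw [coe_arithmeticGalois_smul, hcoe, hcoe, coe_arithmeticGalois_smul]
  rw [e1, map_div₀]

/-- **FROB2-DESC3.** -/
theorem stmt_Frob2Desc3 : Fermat.Agent.S33.New.H36.Stmt_Frob2Desc3 := by
  intro M _ _ h2M h3M A hA g hbig k f hf0 hdiv hNα hNβ
  haveI : IsAlgClosed (kV A) := isAlgClosed_kV A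
  have hn0 : 0 < 3 ^ k := pow_pos (by norm_num) k
  have hle : modularFunctionFieldBar (M * 3) ≤ modularFunctionFieldBar (2 * M * 3) :=
    S18.modularFunctionFieldBar_mono ⟨2, by ring⟩
  obtain ⟨hdiv', hNα', hNβ'⟩ := frob2_lift_hyps M h2M h3M hle k f hdiv hNα hNβ
  have hf'0 : IntermediateField.inclusion hle f ≠ 0 :=
    (map_ne_zero_iff _ (IntermediateField.inclusion hle).toRingHom.injective).2 hf0
  obtain ⟨c, t', hc, ht', hu', hru'⟩ :=
    hbig k (IntermediateField.inclusion hle f) hf'0 hdiv' hNα' hNβ'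
  obtain ⟨hu'', hru''⟩ := transport_gaussRes A (2 * M * 3) _ _
    (galF_quot_inclusion M hle g f) c t' (3 ^ k) hu' hru'
  -- the function `G = g f / f` of level `3 M`
  have hσf0 : galF (M * 3) g • f ≠ 0 := by
    intro h0
    apply hf0
    have h1 := congrArg (fun z => (galF (M * 3) g)⁻¹ • z) h0
    simp only [inv_smul_smul, smul_zero] at h1
    exact h1
  have hG0 : (galF (M * 3) g • f) / f ≠ 0 := div_ne_zero hσf0 hf0
  -- SEP
  obtain ⟨a₀, b₀, hab⟩ : ∃ a b : ℤ, a * (3 : ℕ) + b * M = 1 := by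
    have hcop : Nat.Coprime 3 M := (Nat.Prime.coprime_iff_not_dvd Nat.prime_three).2 h3M
    obtain ⟨a, b, h⟩ := Nat.isCoprime_iff_coprime.2 hcop
    exact ⟨a, b, h⟩
  obtain ⟨c₁, w, hc₁, hw0, hm, hr⟩ := descent_generic A hle
    (hasScale_laurentBaseChange A (M * 3)) (hasScale_laurentBaseChange A (2 * M * 3))
    (3 ^ k) hn0 (fun x => IsAlgClosed.exists_pow_nat_eq x hn0)
    (fun y hy => sep_pow A 3 M a₀ b₀ hab Nat.prime_three hA h3M k y hy)
    ((galF (M * 3) g • f) / f) hG0 c t' ht' hu'' hru''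
  exact ⟨c₁, w, hc₁, hw0, hm, Subtype.ext hr⟩

end Fermat.Agent.S33.New.H86
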