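import Fermat.Agent.S33.New.H86_Core
import Fermat.Agent.BAD.H23_TotMod

/-!
# S33, the `p`-new case: the modular leaves of (T3)  (helper86)

Level `N = M p`, `p ∤ M`, `A` a valuation ring of `ℚ̄` over `p`; `V₁`, `V₂ = V₁ ∘ w_p` the two
Gauss valuations of `F_N` (helper88), `α, β : F_M → F_N` the two degeneracy maps.

* `Stmt_NormWq` (**L1**) : `N_α (w_p x) = N_β x`.
* `Stmt_Red2` (**L2**, NORM-RED at the second component) : at the tame `(M, p)`: if `f ≡ 1` for
  `V₁` and `N_α f` is a constant times a `p`-th power, then `f = a' f' h₀ ^ p` with `f' ≡ 1` for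
  `V₂`.
* `Stmt_Desc3` (**L5**) : the Kummer form of (T3) descends from level `2 M · 3` to level `M · 3`.
* `Stmt_PW1` (**L3**, TRACE-RED + PTH-ROOT) : at the tame `(M, p)`: if `N_α f` is a constant times
  a `p`-th power and `e f u ^ p = 1 + c₀ φ` with `φ` integral for both valuations and `c₀` a
  constant of depth `0 < v(c₀) < p / (p - 1) · v(p)`, then the first reduction of `φ` is a `p`-th
  power.

Definitions only.
-/

set_option autoImplicit false

noncomputable section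

open AlgebraicCurve ModularCurve Fermat.Agent.S28.H73 Fermat.Agent.RED.H73

namespace Fermat.Agent.S33.New.H86

open Fermat.Agent.BAD Fermat.Agent.BAD.H88 Fermat.Agent.S24

/-- **L1**: `N_α (w_p x) = N_β x`. -/
def Stmt_NormWq : Prop :=
  ∀ (p M : ℕ) [NeZero M] [NeZero p] [NeZero (M * p)] (a b : ℤ) (hab : a * p + b * M = 1)
    (hp : p.Prime) (x : FN (M * p)),
    normAlong (heckeAlphaBar Kbar M p) (wq p M a b hab hp x)
      = normAlong (heckeBetaBar Kbar M p) x

/-- **L2**: NORM-RED at the second component. -/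
def Stmt_Red2 : Prop :=
  ∀ (A : ValuationSubring Kbar) (p M : ℕ) (a b : ℤ) (hab : a * p + b * M = 1) (hp : p.Prime)
    [NeZero M] [NeZero p] [NeZero (M * p)], A.LiesOverPrime p → ¬ p ∣ M → H91.TameAt M p →
    ∀ (f : FN (M * p)) (hf : f ∈ V1 A p M), red1 A p M ⟨f, hf⟩ = 1 →
      IsNormPow (heckeAlphaBar Kbar M p) p f →
      ∃ (f' h₀ : FN (M * p)) (a' : Kbar) (hf' : f' ∈ V2 A p M a b hab hp),
        red2 A p M a b hab hp ⟨f', hf'⟩ = 1 ∧
          f = algebraMap Kbar (FN (M * p)) a' * f' * h₀ ^ p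

/-- **L5**: descent of the Kummer form of (T3) from level `2 M · 3` to level `M · 3`. -/
def Stmt_Desc3 : Prop :=
  ∀ (M : ℕ) [NeZero M] [NeZero (2 * M)], ¬ 2 ∣ M → ¬ 3 ∣ M →
    Stmt_TorsOrdNewCore (2 * M) 3 → Stmt_TorsOrdNewCore M 3

/-- **L3**: the leading term of a Kummer function of a `p`-new class is a `p`-th power. -/
def Stmt_PW1 : Prop :=
  ∀ (A : ValuationSubring Kbar) (p M : ℕ) (a b : ℤ) (hab : a * p + b * M = 1) (hp : p.Prime)
    [NeZero M] [NeZero p] [NeZero (M * p)], A.LiesOverPrime p → ¬ p ∣ M → H91.TameAt M p →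
    ∀ (f : FN (M * p)), IsNormPow (heckeAlphaBar Kbar M p) p f →
    ∀ (u φ : FN (M * p)) (e c₀ : Kbar), u ≠ 0 → e ≠ 0 → c₀ ≠ 0 → A.valuation c₀ < 1 →
      A.valuation (p : Kbar) ^ p < A.valuation c₀ ^ (p - 1) →
      algebraMap Kbar (FN (M * p)) e * f * u ^ p = 1 + algebraMap Kbar (FN (M * p)) c₀ * φ →
      ∀ (h₁ : φ ∈ V1 A p M), φ ∈ V2 A p M a b hab hp →
        ∃ ψ : F1 A p M, red1 A p M ⟨φ, h₁⟩ = ψ ^ p

end Fermat.Agent.S33.New.H86
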